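import Fermat.Agent.RT.K7.PseudoFam
import Fermat.Agent.S30.PseudoChar
import Fermat.Agent.Cheb.Plan

/-!
# K-machine, piece K7b-inst: the compatible family of an (abstract, twisted) `p`-adic package

Sub-captain helper59, `NOTES/RT-K7.md`.

`Rtk7bPkg p L J Tr` : the `p`-adic Eichler–Shimura package in TWISTED form, over an ABSTRACT
commutative ring `𝕋` acting on `J`:  `τ² − Tr ℓ · τ + ℓ = 0` on `J[p^∞]` for the Frobenius
elements at `ℓ ∤ L p`, inertia at `ℓ ∤ L p` acts trivially, open stabilisers (uniformly on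
`J[pⁿ]`), the two actions commute.  (Application: `J = JH L M H` with the action
`σ ∗ x = δ_{c(σ)}^e (σ x)`, `2e ≡ 1` modulo the order of the diamond group, `𝕋 = HDAlg M`,
`Tr ℓ = δ_ℓ^{e−1} T_ℓ`.)

`StmtK7bInst` : weak Chebotarev + `Rtk7bPkg` ⇒ the axioms `Rtk7bFam` of K7b for the determinant
`D n g = cycE p n g` and every subring `B` containing the `Tr ℓ` (`ℓ ∉ S`), together with the
three principles by which the consumer computes the trace function (`rtk7b_value`,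
`rtk7b_same`): Frobenius, inertia, continuity; and `D n c = −1` for a complex conjugation.

Proof: abstract fork of `S30/PseudoChar.lean` (`approx_frob`, `exists_approx`,
`exists_field_approx`, `approx_inertia`) and of `S31.lucas_galois` (`S31.lucas_smul` and
`S31.lucasS` are already generic).
-/

set_option autoImplicit false

namespace Fermat.Agent.RT

open Fermat.Agent.ES Fermat.Agent.S30

/-- **The twisted `p`-adic package, abstract form.** -/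
structure Rtk7bPkg (p L : ℕ) {𝕋 : Type*} [CommRing 𝕋] (J : Type*) [AddCommGroup J]
    [Module 𝕋 J] [DistribMulAction GQ J] (Tr : ℕ → 𝕋) : Prop where
  smul_comm : ∀ (σ : GQ) (t : 𝕋) (x : J), σ • t • x = t • σ • x
  finite_level : ∀ n : ℕ, ∃ E : IntermediateField ℚ (AlgebraicClosure ℚ),
    FiniteDimensional ℚ E ∧ ∀ σ : GQ, (∀ a ∈ E, σ a = a) → ∀ x : J, p ^ n • x = 0 → σ • x = x
  frob : ∀ ℓ : ℕ, ℓ.Prime → ¬ ℓ ∣ L * p →
    ∀ A : ValuationSubring (AlgebraicClosure ℚ), A.LiesOverPrime ℓ →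
      ∀ τ : GQ, A.IsFrobeniusAt τ ℓ → ∀ (n : ℕ) (x : J), p ^ n • x = 0 →
        τ • τ • x - Tr ℓ • (τ • x) + ℓ • x = 0
  unram : ∀ ℓ : ℕ, ℓ.Prime → ¬ ℓ ∣ L * p →
    ∀ A : ValuationSubring (AlgebraicClosure ℚ), A.LiesOverPrime ℓ →
      ∀ σ ∈ A.inertiaSubgroupIn ℚ, ∀ (n : ℕ) (x : J), p ^ n • x = 0 → σ • x = x

/-- **K7b-inst.** -/
def StmtK7bInst : Prop :=
  Cheb.WeakChebotarev →
  ∀ (p L : ℕ) [Fact p.Prime] (𝕋 : Type) [CommRing 𝕋] (J : Type) [AddCommGroup J] [Module 𝕋 J]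
    [DistribMulAction GQ J] (Tr : ℕ → 𝕋), Rtk7bPkg p L J Tr →
  ∀ (S : Finset ℕ), (∀ r : ℕ, r.Prime → r ∉ S → ¬ r ∣ L * p) →
  ∀ (B : Subring 𝕋), (∀ ℓ : ℕ, ℓ.Prime → ℓ ∉ S → Tr ℓ ∈ B) →
    Rtk7bFam p J (fun n g => ((cycE p n g : ℕ) : 𝕋)) B ∧
    (∀ (n ℓ : ℕ), ℓ.Prime → ¬ ℓ ∣ L * p →
      ∀ A : ValuationSubring (AlgebraicClosure ℚ), A.LiesOverPrime ℓ →
        ∀ τ : GQ, A.IsFrobeniusAt τ ℓ →
          Rtk7bApprox p J (fun n g => ((cycE p n g : ℕ) : 𝕋)) n τ (Tr ℓ)) ∧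
    (∀ (n q : ℕ), q.Prime → ¬ q ∣ L * p →
      ∀ P : ValuationSubring (AlgebraicClosure ℚ), P.LiesOverPrime q →
        ∀ σ ∈ P.inertiaSubgroupIn ℚ, ∀ (g : GQ) (h : 𝕋),
          Rtk7bApprox p J (fun n g => ((cycE p n g : ℕ) : 𝕋)) n g h →
          Rtk7bApprox p J (fun n g => ((cycE p n g : ℕ) : 𝕋)) n (σ * g) h) ∧
    (∀ n : ℕ, ∃ E : IntermediateField ℚ (AlgebraicClosure ℚ), FiniteDimensional ℚ E ∧
      ∀ σ : GQ, (∀ a ∈ E, σ a = a) → ∀ (g : GQ) (h : 𝕋),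
        Rtk7bApprox p J (fun n g => ((cycE p n g : ℕ) : 𝕋)) n g h →
        Rtk7bApprox p J (fun n g => ((cycE p n g : ℕ) : 𝕋)) n (σ * g) h) ∧
    (∀ (n : ℕ) (x : J), p ^ n • x = 0 →
      ((cycE p n complexConjugation : ℕ) : 𝕋) • x = -x)

/-- **K7b-inst, consumer form**: the pseudo-character over a complete ring. -/
def StmtK7bChar : Prop :=
  Cheb.WeakChebotarev →
  ∀ (p L : ℕ) [Fact p.Prime] (𝕋 : Type) [CommRing 𝕋] (J : Type) [AddCommGroup J] [Module 𝕋 J]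
    [DistribMulAction GQ J] (Tr : ℕ → 𝕋), Rtk7bPkg p L J Tr →
  ∀ (S : Finset ℕ), (∀ r : ℕ, r.Prime → r ∉ S → ¬ r ∣ L * p) →
  ∀ (B : Subring 𝕋), (∀ ℓ : ℕ, ℓ.Prime → ℓ ∉ S → Tr ℓ ∈ B) →
  ∀ (T : Type) [CommRing T] (π : 𝕋 →+* T) (I : Ideal T) [IsAdicComplete I T]
    (hpI : (p : T) ∈ I),
    (∀ k : ℕ, ∃ n : ℕ, k ≤ n ∧ Rtk7bGood p J B π k n) →
    ∃ t : GQ → T, Rtk7bSpec p J (fun n g => ((cycE p n g : ℕ) : 𝕋)) B π I t ∧
      t 1 = 2 ∧ (∀ x y, t (x * y) = t (y * x)) ∧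
      (∀ x y, t (x * y) + ((cycloCharO p I hpI y : Tˣ) : T) * t (x * y⁻¹) = t x * t y) ∧
      (∀ ℓ : ℕ, ℓ.Prime → ℓ ∉ S →
        ∀ A : ValuationSubring (AlgebraicClosure ℚ), A.LiesOverPrime ℓ →
          ∀ τ : GQ, A.IsFrobeniusAt τ ℓ → t τ = π (Tr ℓ)) ∧
      (∀ q : ℕ, q.Prime → ¬ q ∣ L * p → ∀ P : ValuationSubring (AlgebraicClosure ℚ),
        P.LiesOverPrime q → ∀ σ ∈ P.inertiaSubgroupIn ℚ, ∀ g : GQ, t (σ * g) = t g) ∧
      (∀ k : ℕ, ∃ E : IntermediateField ℚ (AlgebraicClosure ℚ), FiniteDimensional ℚ E ∧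
        ∀ σ : GQ, (∀ a ∈ E, σ a = a) → ∀ g : GQ, t (σ * g) - t g ∈ I ^ k)

end Fermat.Agent.RT
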