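import Fermat.Agent.RT.K7.WilesBase
import Fermat.Prelude.Def_GaloisRep_LocalConditions

/-!
# K-machine, piece K7-GRA: from the pseudo-character to the representation (interface)

Sub-captain helper59, `NOTES/RT-K7.md`.  `T` a local ring with `2 ∈ Tˣ` (in the application the
Hecke ring `𝕋_Q`, complete, finite residue field), `t : G_ℚ → T` the pseudo-character of K7b
(`rtk7b_exists`, `rtk7b_pseudo`), `ε` the cyclotomic character, `c` a complex conjugation,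
`ρbar` the residual representation (irreducible, trace `t mod 𝔪`, determinant `ε mod 𝔪`).

`StmtK7GRA` : there are `σ₀, τ₀` with `ξ(σ₀, τ₀) ∈ Tˣ` and a `GaloisRepAdic T` whose matrices in a
basis are EXACTLY Wiles' matrices `rtk7Mat t c i2 σ₀ τ₀ u` (so that `rtk7t_transfer` applies to
it), with cyclotomic determinant, residual representation `≅ ρbar`, and trivial on every `σ`
which leaves `t` invariant (inertia at the unramified primes).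

Proof route: `rtk7_exists_unit` (base point; the Cayley–Hamilton relation of `ρbar` from
`LinearMap.charpoly`, no stable line from `IsIrreducible`), `rtk7MatRep` + `S53.ofMatrix`
(continuity from `rtk7Mat_sub_one_mem` with `I = 𝔪 ^ k`), `rtk7Mat_eq_one`; the residual
equivalence: in an eigenbasis `(e₊, e₋)` of `ρbar c` scaled so that the upper right entry of
`ρbar σ₀` is `ξ(σ₀, τ₀)·u mod 𝔪`, the matrix of `ρbar g` is `rtk7Mat (t mod 𝔪) … g`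
(`a, d` from the traces of `g`, `g c`; `b(g) c(h) = ξ(g, h)`).
-/

set_option autoImplicit false

namespace Fermat.Agent.RT

open IsLocalRing

/-- **K7-GRA.** -/
def StmtK7GRA : Prop :=
  ∀ (p : ℕ), p.Prime → p ≠ 2 →
  ∀ (T : Type) [CommRing T] [IsLocalRing T], (p : T) ∈ maximalIdeal T →
  ∀ (ρbar : ResidualGaloisRep (ResidueField T)), ρbar.IsIrreducible →
  ∀ (t : (AlgebraicClosure ℚ ≃ₐ[ℚ] AlgebraicClosure ℚ) → T)
    (ε : (AlgebraicClosure ℚ ≃ₐ[ℚ] AlgebraicClosure ℚ) →* T)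
    (c : AlgebraicClosure ℚ ≃ₐ[ℚ] AlgebraicClosure ℚ) (i2 : T),
    t 1 = 2 → (∀ x y, t (x * y) = t (y * x)) →
    (∀ x y, t (x * y) + ε y * t (x * y⁻¹) = t x * t y) →
    c * c = 1 → ε c = -1 → 2 * i2 = 1 →
    (∀ (n : ℕ) (σ : AlgebraicClosure ℚ ≃ₐ[ℚ] AlgebraicClosure ℚ) (a : ℕ),
      (∀ μ : AlgebraicClosure ℚ, μ ^ p ^ n = 1 → σ μ = μ ^ a) →
        ε σ - (a : T) ∈ Ideal.span {((p ^ n : ℕ) : T)}) →
    (∀ σ, residue T (t σ) = LinearMap.trace (ResidueField T) ρbar.V (ρbar.ρ σ)) →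
    (∀ σ, residue T (ε σ) = LinearMap.det (ρbar.ρ σ)) →
    (∀ k : ℕ, ∃ E : IntermediateField ℚ (AlgebraicClosure ℚ), FiniteDimensional ℚ E ∧
      ∀ σ : AlgebraicClosure ℚ ≃ₐ[ℚ] AlgebraicClosure ℚ, (∀ x ∈ E, σ x = x) →
        ∀ g, t (σ * g) - t g ∈ maximalIdeal T ^ k) →
    ∃ (σ₀ τ₀ : AlgebraicClosure ℚ ≃ₐ[ℚ] AlgebraicClosure ℚ) (u : T),
      u * rtk7Xi t c i2 σ₀ τ₀ = 1 ∧
      ∃ (ρ : GaloisRepAdic T) (b : Module.Basis (Fin 2) T ρ.V),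
        (∀ g, LinearMap.toMatrix b b (ρ.ρ g) = rtk7Mat t c i2 σ₀ τ₀ u g) ∧
        ρ.DetIsCyclotomic p ∧
        ρ.residual.IsEquiv ρbar ∧
        ∀ σ : AlgebraicClosure ℚ ≃ₐ[ℚ] AlgebraicClosure ℚ, (∀ g, t (σ * g) = t g) → ρ.ρ σ = 1

/-- **K7-GRA, fixed base point** (THE FORM TO PROVE; `StmtK7GRA` follows with
`rtk7_exists_unit`).  The base point `σ₀, τ₀` and the unit `u = ξ(σ₀, τ₀)⁻¹` are given: in the
application `σ₀, τ₀` depend only on `ρbar`, so that the matrices of the representations over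
all Hecke rings `𝕋_Q` are compatible with the maps `𝕋_Q → 𝕋_∅` entry by entry. -/
def StmtK7GRAFix : Prop :=
  ∀ (p : ℕ), p.Prime → p ≠ 2 →
  ∀ (T : Type) [CommRing T] [IsLocalRing T], (p : T) ∈ maximalIdeal T →
  ∀ (ρbar : ResidualGaloisRep (ResidueField T)), ρbar.IsIrreducible →
  ∀ (t : (AlgebraicClosure ℚ ≃ₐ[ℚ] AlgebraicClosure ℚ) → T)
    (ε : (AlgebraicClosure ℚ ≃ₐ[ℚ] AlgebraicClosure ℚ) →* T)
    (c : AlgebraicClosure ℚ ≃ₐ[ℚ] AlgebraicClosure ℚ) (i2 : T),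
    t 1 = 2 → (∀ x y, t (x * y) = t (y * x)) →
    (∀ x y, t (x * y) + ε y * t (x * y⁻¹) = t x * t y) →
    c * c = 1 → ε c = -1 → 2 * i2 = 1 →
    (∀ (n : ℕ) (σ : AlgebraicClosure ℚ ≃ₐ[ℚ] AlgebraicClosure ℚ) (a : ℕ),
      (∀ μ : AlgebraicClosure ℚ, μ ^ p ^ n = 1 → σ μ = μ ^ a) →
        ε σ - (a : T) ∈ Ideal.span {((p ^ n : ℕ) : T)}) →
    (∀ σ, residue T (t σ) = LinearMap.trace (ResidueField T) ρbar.V (ρbar.ρ σ)) →
    (∀ σ, residue T (ε σ) = LinearMap.det (ρbar.ρ σ)) →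
    (∀ k : ℕ, ∃ E : IntermediateField ℚ (AlgebraicClosure ℚ), FiniteDimensional ℚ E ∧
      ∀ σ : AlgebraicClosure ℚ ≃ₐ[ℚ] AlgebraicClosure ℚ, (∀ x ∈ E, σ x = x) →
        ∀ g, t (σ * g) - t g ∈ maximalIdeal T ^ k) →
    ∀ (σ₀ τ₀ : AlgebraicClosure ℚ ≃ₐ[ℚ] AlgebraicClosure ℚ) (u : T),
      u * rtk7Xi t c i2 σ₀ τ₀ = 1 →
      ∃ (ρ : GaloisRepAdic T) (b : Module.Basis (Fin 2) T ρ.V),
        (∀ g, LinearMap.toMatrix b b (ρ.ρ g) = rtk7Mat t c i2 σ₀ τ₀ u g) ∧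
        ρ.DetIsCyclotomic p ∧
        ρ.residual.IsEquiv ρbar ∧
        ∀ σ : AlgebraicClosure ℚ ≃ₐ[ℚ] AlgebraicClosure ℚ, (∀ g, t (σ * g) = t g) → ρ.ρ σ = 1

end Fermat.Agent.RT
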