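import Fermat.Agent.RT.K7.GRAAlg
import Fermat.Agent.RT.K7.PlanGRA
import Fermat.Agent.S53.Matrix

/-!
# K-machine, piece K7-GRA: from the pseudo-character to the representation (proof)

`stmtK7GRAFix : StmtK7GRAFix` and `stmtK7GRA : StmtK7GRA` (`RT/K7/PlanGRA.lean`).

* `rtk7g_ch_mat`, `rtk7g_ch_end` : Cayley–Hamilton `f + det f • f⁻¹ = tr f • 1` on a plane.
* `rtk7g_exists_P_ne`, `rtk7g_phi_injective`, `rtk7g_phiEquiv` : over a field, for a
  Cayley–Hamilton plane with `ξ(σ₀, τ₀)` a unit, the map `Φ : k² → V` of `GRAAlg.lean` is an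
  isomorphism for a suitable `v₀`.
* `rtk7g_map_mat` : the entries of Wiles' matrices commute with ring homomorphisms.
* `stmtK7GRAFix`, `stmtK7GRA`.
-/

set_option autoImplicit false
set_option linter.unusedSectionVars false
set_option linter.unusedSimpArgs false
set_option linter.unnecessarySeqFocus false

namespace Fermat.Agent.RT

open Fermat.Agent.S36 Matrix IsLocalRing

section CH

variable {k : Type*} [Field k]

/-- Cayley–Hamilton for an invertible `2 × 2` matrix. -/
theorem rtk7g_ch_mat (M M' : Matrix (Fin 2) (Fin 2) k) (h : M * M' = 1) :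
    M + M.det • M' = M.trace • (1 : Matrix (Fin 2) (Fin 2) k) := by
  have h1 : M.adjugate = M.det • M' := by
    calc M.adjugate = M.adjugate * (M * M') := by rw [h, mul_one]
      _ = (M.adjugate * M) * M' := by rw [mul_assoc]
      _ = M.det • M' := by rw [Matrix.adjugate_mul, Matrix.smul_mul, one_mul]
  rw [← h1, Matrix.adjugate_fin_two]
  ext i j
  fin_cases i <;> fin_cases j <;>
    simp [Matrix.trace_fin_two] <;> ring

/-- Cayley–Hamilton for an invertible endomorphism of a plane. -/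
theorem rtk7g_ch_end {V : Type*} [AddCommGroup V] [Module k V]
    (hV : Module.finrank k V = 2) (f f' : Module.End k V) (h : f * f' = 1) :
    f + LinearMap.det f • f' = LinearMap.trace k V f • (1 : Module.End k V) := by
  have : Module.Finite k V := Module.finite_of_finrank_eq_succ hV
  let b : Module.Basis (Fin 2) k V := Module.finBasisOfFinrankEq k V hV
  apply (LinearMap.toMatrixAlgEquiv b).injective
  rw [map_add, map_smul, map_smul, map_one]
  have hM : LinearMap.toMatrixAlgEquiv b f * LinearMap.toMatrixAlgEquiv b f' = 1 := by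
    rw [← map_mul, h, map_one]
  have e := rtk7g_ch_mat _ _ hM
  have e1 : (LinearMap.toMatrixAlgEquiv b f).det = LinearMap.det f :=
    LinearMap.det_toMatrix b f
  have e2 : (LinearMap.toMatrixAlgEquiv b f).trace = LinearMap.trace k V f :=
    (LinearMap.trace_eq_matrix_trace k b f).symm
  rw [e1, e2] at e
  exact e

end CH

section Field

variable {G k V : Type*} [Group G] [Field k] [AddCommGroup V] [Module k V]
  {r : G →* Module.End k V} {ε : G →* k} {t : G → k} {c : G}
  (h : S36CH r ε t c) (h2 : ∀ x y, t (x * y) = t (y * x))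
  (h3 : ∀ x y, t (x * y) + ε y * t (x * y⁻¹) = t x * t y)
  (hc : c * c = 1) (hεc : ε c = -1)
  (i2 : k) (hi2 : 2 * i2 = 1) (σ₀ τ₀ : G) (u : k) (hu : u * rtk7Xi t c i2 σ₀ τ₀ = 1)

include hi2 in
theorem rtk7g_two_ne : (2 : k) ≠ 0 := by
  intro h0
  rw [h0, zero_mul] at hi2
  exact zero_ne_one hi2

include hi2 in
theorem rtk7g_i2_ne : i2 ≠ 0 := by
  intro h0
  rw [h0, mul_zero] at hi2
  exact zero_ne_one hi2

include hi2 hu in
theorem rtk7g_xi_ne : s36Xi t c σ₀ τ₀ ≠ 0 := by
  intro h0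
  rw [rtk7Xi_eq t c i2 hi2, h0, mul_zero, mul_zero] at hu
  exact zero_ne_one hu

include hu in
theorem rtk7g_u_ne : u ≠ 0 := by
  intro h0
  rw [h0, zero_mul] at hu
  exact zero_ne_one hu

include h h2 h3 hc hεc hi2 hu in
/-- `P ≠ 0`: there is a vector `v₀` with `P v₀ ≠ 0`. -/
theorem rtk7g_exists_P_ne [Nontrivial V] : ∃ v₀ : V, s36P r c v₀ ≠ 0 := by
  by_contra hcon
  push Not at hcon
  have hP : s36P r c = 0 := LinearMap.ext fun v => by rw [hcon v, LinearMap.zero_apply]
  have hQ : s36Q r c = (2 : k) • (1 : Module.End k V) := by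
    have := S36CH.P_add_Q (R := k) (r := r) (c := c)
    rw [hP, zero_add] at this
    exact this
  have e := h.QxPyQ τ₀ σ₀
  rw [hP, mul_zero, zero_mul, zero_mul, rtk7_xi'_eq ε t c h2 h3 hc hεc τ₀ σ₀, hQ, smul_smul] at e
  obtain ⟨v, hv⟩ := exists_ne (0 : V)
  have e' := congrArg (fun φ : Module.End k V => φ v) e
  simp only [LinearMap.zero_apply, LinearMap.smul_apply, Module.End.one_apply] at e'
  rcases smul_eq_zero.mp e'.symm with h0 | h0
  · rcases mul_eq_zero.mp h0 with h1 | h1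
    · exact rtk7g_xi_ne i2 hi2 σ₀ τ₀ u hu h1
    · exact rtk7g_two_ne i2 hi2 h1
  · exact hv h0

include h hi2 hu in
/-- the second vector is nonzero -/
theorem rtk7g_minus_ne (v₀ : V) (hv₀ : s36P r c v₀ ≠ 0) :
    rtk7g2Minus r c i2 u τ₀ v₀ ≠ 0 := by
  intro h0
  rw [rtk7g2Minus] at h0
  have h1 : s36Q r c (r τ₀ (s36P r c v₀)) = 0 :=
    (smul_eq_zero.mp h0).resolve_left
      (mul_ne_zero (rtk7g_u_ne i2 σ₀ τ₀ u hu) (rtk7g_i2_ne i2 hi2))
  have e := congrArg (fun φ : Module.End k V => φ v₀) (h.PxQyP σ₀ τ₀)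
  simp only [Module.End.mul_apply, LinearMap.smul_apply] at e
  rw [h1, map_zero, map_zero] at e
  exact hv₀ ((smul_eq_zero.mp e.symm).resolve_left (rtk7g_xi_ne i2 hi2 σ₀ τ₀ u hu))

include h hi2 hu in
/-- `Φ` is injective -/
theorem rtk7g_phi_injective (v₀ : V) (hv₀ : s36P r c v₀ ≠ 0) :
    Function.Injective (rtk7g2Phi r c i2 u τ₀ v₀) := by
  rw [injective_iff_map_eq_zero]
  intro x hx
  have hx' : x 0 • rtk7g2Plus r c v₀ + x 1 • rtk7g2Minus r c i2 u τ₀ v₀ = 0 := hx
  have hPP : s36P r c (s36P r c v₀) = (2 : k) • s36P r c v₀ := by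
    have := congrArg (fun φ : Module.End k V => φ v₀) h.PP
    simpa only [Module.End.mul_apply, LinearMap.smul_apply] using this
  have hPQ : ∀ w : V, s36P r c (s36Q r c w) = 0 := fun w => by
    have := congrArg (fun φ : Module.End k V => φ w) h.PQ
    simpa only [Module.End.mul_apply, LinearMap.zero_apply] using this
  have e : s36P r c (x 0 • rtk7g2Plus r c v₀ + x 1 • rtk7g2Minus r c i2 u τ₀ v₀)
      = s36P r c 0 := by rw [hx']
  rw [map_add, map_smul, map_smul, rtk7g2Plus, rtk7g2Minus, map_smul, hPQ, smul_zero, smul_zero,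
    add_zero, hPP, smul_smul, map_zero] at e
  have hx0 : x 0 = 0 := by
    rcases smul_eq_zero.mp e with h0 | h0
    · exact (mul_eq_zero.mp h0).resolve_right (rtk7g_two_ne i2 hi2)
    · exact absurd h0 hv₀
  rw [hx0, zero_smul, zero_add] at hx'
  have hx1 : x 1 = 0 :=
    (smul_eq_zero.mp hx').resolve_right (rtk7g_minus_ne h i2 hi2 σ₀ τ₀ u hu v₀ hv₀)
  funext i
  fin_cases i
  · exact hx0
  · exact hx1

/-- `Φ` as a linear equivalence `k² ≃ V` (`dim V = 2`) -/
noncomputable def rtk7gPhiEquiv (hV : Module.finrank k V = 2) (r : G →* Module.End k V) (c : G)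
    (i2 u : k) (τ₀ : G) (v₀ : V)
    (hinj : Function.Injective (rtk7g2Phi r c i2 u τ₀ v₀)) : (Fin 2 → k) ≃ₗ[k] V :=
  haveI : Module.Finite k V := Module.finite_of_finrank_eq_succ hV
  LinearMap.linearEquivOfInjective (rtk7g2Phi r c i2 u τ₀ v₀) hinj
    (by rw [hV, Module.finrank_fin_fun])

theorem rtk7gPhiEquiv_apply (hV : Module.finrank k V = 2) (r : G →* Module.End k V) (c : G)
    (i2 u : k) (τ₀ : G) (v₀ : V)
    (hinj : Function.Injective (rtk7g2Phi r c i2 u τ₀ v₀)) (x : Fin 2 → k) :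
    rtk7gPhiEquiv hV r c i2 u τ₀ v₀ hinj x = rtk7g2Phi r c i2 u τ₀ v₀ x := rfl

end Field

section Map

variable {G R R' : Type*} [Group G] [CommRing R] [CommRing R'] (φ : R →+* R') (t : G → R)
  (c : G) (i2 : R) (σ₀ τ₀ : G) (u : R)

theorem rtk7g_map_A (x : G) :
    φ (rtk7A t c i2 x) = rtk7A (fun g => φ (t g)) c (φ i2) x := by
  simp only [rtk7A, map_mul, map_add]

theorem rtk7g_map_D (x : G) :
    φ (rtk7D t c i2 x) = rtk7D (fun g => φ (t g)) c (φ i2) x := by
  simp only [rtk7D, map_mul, map_sub]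

theorem rtk7g_map_Xi (x y : G) :
    φ (rtk7Xi t c i2 x y) = rtk7Xi (fun g => φ (t g)) c (φ i2) x y := by
  simp only [rtk7Xi, map_sub, map_mul, rtk7g_map_A]

/-- the entries of Wiles' matrices commute with ring homomorphisms -/
theorem rtk7g_map_mat (x : G) :
    (rtk7Mat t c i2 σ₀ τ₀ u x).map φ
      = rtk7Mat (fun g => φ (t g)) c (φ i2) σ₀ τ₀ (φ u) x := by
  ext i j
  fin_cases i <;> fin_cases j <;>
    simp [rtk7Mat, rtk7g_map_A, rtk7g_map_D, rtk7g_map_Xi]

end Map

section Main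

open Fermat.Agent.S53 (Gal M2 MatCont ofMatrix residualMatEquiv residualMatEquiv_apply)

variable {T : Type} [CommRing T] [IsLocalRing T]

/-- the Cayley–Hamilton relation of the residual representation -/
theorem rtk7g_resid_ch (ρbar : ResidualGaloisRep (ResidueField T)) (t : Gal → T) (ε : Gal →* T)
    (htr : ∀ σ, residue T (t σ) = LinearMap.trace (ResidueField T) ρbar.V (ρbar.ρ σ))
    (hdet : ∀ σ, residue T (ε σ) = LinearMap.det (ρbar.ρ σ)) (σ : Gal) :
    ρbar.ρ σ + residue T (ε σ) • ρbar.ρ σ⁻¹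
      = residue T (t σ) • (1 : Module.End (ResidueField T) ρbar.V) := by
  rw [htr, hdet]
  refine rtk7g_ch_end ρbar.finrank_eq _ _ ?_
  rw [← map_mul, mul_inv_cancel, map_one]

/-- no stable line in an irreducible plane -/
theorem rtk7g_no_line (ρbar : ResidualGaloisRep (ResidueField T)) (hirr : ρbar.IsIrreducible)
    (v : ρbar.V) (hv : v ≠ 0) : ∃ g, ∀ a : ResidueField T, ρbar.ρ g v ≠ a • v := by
  by_contra hcon
  push Not at hcon
  have hst : ∀ σ : Gal, ∀ x ∈ Submodule.span (ResidueField T) {v},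
      ρbar.ρ σ x ∈ Submodule.span (ResidueField T) {v} := by
    intro σ x hx
    obtain ⟨a, rfl⟩ := Submodule.mem_span_singleton.mp hx
    obtain ⟨b, hb⟩ := hcon σ
    rw [map_smul, hb, smul_smul]
    exact Submodule.mem_span_singleton.mpr ⟨_, rfl⟩
  rcases hirr _ hst with h0 | h0
  · exact hv ((Submodule.span_singleton_eq_bot).mp h0)
  · have h1 : Module.finrank (ResidueField T)
        (Submodule.span (ResidueField T) {v}) = 1 := finrank_span_singleton hv
    rw [h0, finrank_top, ρbar.finrank_eq] at h1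
    exact absurd h1 (by norm_num)

/-- **K7-GRA, fixed base point.** -/
theorem stmtK7GRAFix : StmtK7GRAFix := by
  intro p _hp _hp2 T _ _ hpT ρbar _hirr t ε c i2 h1 h2 h3 hc hεc hi2 hcyc htr hdet hcont
    σ₀ τ₀ u hu
  -- the matrix representation
  set r : Gal →* M2 T := rtk7MatRep ε t c h1 h2 h3 hc hεc i2 hi2 σ₀ τ₀ u hu with hr
  have hrσ : ∀ σ, r σ = rtk7Mat t c i2 σ₀ τ₀ u σ := fun _ => rfl
  have hrc : MatCont T r := by
    intro n
    obtain ⟨E, hE, hσE⟩ := hcont n
    refine ⟨E, hE, fun σ hσ i j => ?_⟩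
    exact rtk7Mat_sub_one_mem ε t c h1 h2 h3 hc hεc i2 hi2 (maximalIdeal T ^ n) σ (hσE σ hσ)
      σ₀ τ₀ u i j
  -- the residual data
  set res := residue T with hres
  set εb : Gal →* ResidueField T := (res : T →* ResidueField T).comp ε with hεb
  set tb : Gal → ResidueField T := fun g => res (t g) with htb
  have hεcb : εb c = -1 := by
    show res (ε c) = -1
    rw [hεc, map_neg, map_one]
  have hCH : S36CH ρbar.ρ εb tb c :=
    S36CH.of_exact (fun σ => rtk7g_resid_ch ρbar t ε htr hdet σ)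
      (fun x y => map_mul εb x y) hc hεcb
  have h2b : ∀ x y, tb (x * y) = tb (y * x) := fun x y => by
    show res _ = res _
    rw [h2]
  have h3b : ∀ x y, tb (x * y) + εb y * tb (x * y⁻¹) = tb x * tb y := fun x y => by
    have := congrArg res (h3 x y)
    rw [map_add, map_mul, map_mul] at this
    exact this
  have hi2b : 2 * res i2 = 1 := by
    have := congrArg res hi2
    rw [map_mul, map_ofNat, map_one] at this
    exact this
  have hub : res u * rtk7Xi tb c (res i2) σ₀ τ₀ = 1 := by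
    have := congrArg res hu
    rw [map_mul, map_one, rtk7g_map_Xi] at this
    exact this
  have : Nontrivial ρbar.V :=
    Module.nontrivial_of_finrank_pos (R := ResidueField T) (by rw [ρbar.finrank_eq]; norm_num)
  obtain ⟨v₀, hv₀⟩ := rtk7g_exists_P_ne hCH h2b h3b hc hεcb (res i2) hi2b σ₀ τ₀ (res u) hub
  have hinj := rtk7g_phi_injective hCH (res i2) hi2b σ₀ τ₀ (res u) hub v₀ hv₀
  refine ⟨ofMatrix r hrc, Pi.basisFun T (Fin 2), ?_, ⟨hpT, ?_⟩, ?_, ?_⟩
  · intro g
    rw [← hrσ g]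
    show LinearMap.toMatrix (Pi.basisFun T (Fin 2)) (Pi.basisFun T (Fin 2))
      (Matrix.toLin' (r g)) = r g
    rw [LinearMap.toMatrix_eq_toMatrix', LinearMap.toMatrix'_toLin']
  · intro n σ a hσ
    have e : LinearMap.det ((ofMatrix r hrc).ρ σ) = ε σ := by
      show LinearMap.det (Matrix.toLin' (r σ)) = ε σ
      rw [LinearMap.det_toLin']
      exact rtk7MatRep_det ε t c h1 h2 h3 hc hεc i2 hi2 σ₀ τ₀ u hu σ
    rw [e]
    exact hcyc n σ a hσ
  · refine ⟨{ toLinearEquiv := (residualMatEquiv r hrc).trans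
                (rtk7gPhiEquiv ρbar.finrank_eq ρbar.ρ c (res i2) (res u) τ₀ v₀ hinj),
              map_apply := fun σ x => ?_ }⟩
    rw [LinearEquiv.trans_apply, LinearEquiv.trans_apply, residualMatEquiv_apply, hrσ,
      rtk7g_map_mat, rtk7gPhiEquiv_apply, rtk7gPhiEquiv_apply]
    exact (rtk7g2_intertwine hCH h2b h3b hc hεcb (res i2) hi2b σ₀ τ₀ (res u) hub σ v₀ _).symm
  · intro σ hσ
    refine LinearMap.ext fun v => ?_
    show (r σ).mulVec v = v
    rw [hrσ, rtk7Mat_eq_one ε t c h1 h2 h3 hc hεc i2 hi2 σ₀ τ₀ u σ hσ, Matrix.one_mulVec]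

/-- **K7-GRA.** -/
theorem stmtK7GRA : StmtK7GRA := by
  intro p hp hp2 T _ _ hpT ρbar hirr t ε c i2 h1 h2 h3 hc hεc hi2 hcyc htr hdet hcont
  have : Nontrivial ρbar.V :=
    Module.nontrivial_of_finrank_pos (R := ResidueField T) (by rw [ρbar.finrank_eq]; norm_num)
  obtain ⟨σ₀, τ₀, u, hu⟩ := rtk7_exists_unit ε t c h2 h3 hc hεc i2 hi2 ρbar.ρ
    (fun σ => rtk7g_resid_ch ρbar t ε htr hdet σ) (rtk7g_no_line ρbar hirr)
  exact ⟨σ₀, τ₀, u, hu, stmtK7GRAFix p hp hp2 T hpT ρbar hirr t ε c i2 h1 h2 h3 hc hεc hi2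
    hcyc htr hdet hcont σ₀ τ₀ u hu⟩

end Main

end Fermat.Agent.RT
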