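/-
K-machine, piece K7-FIN (helper27): the pseudo-character machine `RT/K7/PseudoFam.lean` over a
FINITE local ring (the finite-level design of HECKE-asm, helper59).

* `rtk7fin_isAdicComplete_of_pow_eq_bot` : `I ^ n = ⊥ ⇒ IsAdicComplete I A`;
* `rtk7fin_exists_pow_eq_bot`, `rtk7fin_isAdicComplete` : a finite (or artinian) local ring has
  nilpotent maximal ideal and is `𝔪`-adically complete;
* `rtk7fin_natCast_pow_eq_zero` : `p ∈ 𝔪 ⇒ p ^ N = 0`;
* `rtk7fin_good`, `rtk7fin_hfaith` : if every allowed polynomial killing `J[p ^ n₀]` has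
  `π`-value `0`, all levels `n ≥ n₀` are good for every precision;
* `rtk7fin_good_iff` : conversely, if `p ^ N = 0` in `T`, goodness for the precision `N` means
  that the `π`-value is `0`;
* `rtk7fin_exists` : the trace function `t : G → T` with EXACT values: `t g = π h` for every
  representative `h ∈ B` of `g` at a level `n ≥ n₀`;
* `rtk7fin_pseudo` : the pseudo-character identities, with `ε g = π (D n g)` exactly.
Mathlib-only (on top of `RT/K7/PseudoFam.lean`).
-/
import Fermat.Agent.RT.K7.PseudoFam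

set_option autoImplicit false
set_option linter.style.haveILetI false

namespace Fermat.Agent.RT

open IsLocalRing

section Complete

variable {A : Type*} [CommRing A]

/-- A ring is complete for a nilpotent ideal. -/
theorem rtk7fin_isAdicComplete_of_pow_eq_bot (I : Ideal A) {n : ℕ} (hn : I ^ n = ⊥) :
    IsAdicComplete I A := by
  have hbot : ∀ x y : A, x ≡ y [SMOD (I ^ n • ⊤ : Submodule A A)] → x = y := by
    intro x y h
    rw [SModEq.sub_mem, smul_eq_mul, Ideal.mul_top, hn, Ideal.mem_bot, sub_eq_zero] at h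
    exact h
  haveI : IsHausdorff I A := ⟨fun x hx => hbot x 0 (hx n)⟩
  haveI : IsPrecomplete I A := ⟨fun f hf => ⟨f n, fun k => by
    rcases le_total k n with hkn | hnk
    · exact hf hkn
    · rw [hbot _ _ (hf hnk)]⟩⟩
  exact ⟨⟩

/-- The maximal ideal of an artinian local ring is nilpotent. -/
theorem rtk7fin_exists_pow_eq_bot [IsLocalRing A] [IsArtinianRing A] :
    ∃ n : ℕ, maximalIdeal A ^ n = ⊥ := by
  have h := IsArtinianRing.isNilpotent_jacobson_bot (R := A)
  rw [IsLocalRing.jacobson_eq_maximalIdeal (⊥ : Ideal A) bot_ne_top] at h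
  obtain ⟨n, hn⟩ := h
  exact ⟨n, hn⟩

/-- **An artinian (e.g. finite) local ring is `𝔪`-adically complete.** -/
theorem rtk7fin_isAdicComplete [IsLocalRing A] [IsArtinianRing A] :
    IsAdicComplete (maximalIdeal A) A := by
  obtain ⟨n, hn⟩ := rtk7fin_exists_pow_eq_bot (A := A)
  exact rtk7fin_isAdicComplete_of_pow_eq_bot _ hn

/-- the same for a finite local ring -/
theorem rtk7fin_isAdicComplete_of_finite [IsLocalRing A] [Finite A] :
    IsAdicComplete (maximalIdeal A) A :=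
  rtk7fin_isAdicComplete

/-- `p ∈ 𝔪 ⇒ p ^ N = 0` in an artinian local ring. -/
theorem rtk7fin_natCast_pow_eq_zero [IsLocalRing A] [IsArtinianRing A] {p : ℕ}
    (hp : (p : A) ∈ maximalIdeal A) : ∃ N : ℕ, (p : A) ^ N = 0 := by
  obtain ⟨n, hn⟩ := rtk7fin_exists_pow_eq_bot (A := A)
  refine ⟨n, ?_⟩
  have := Ideal.pow_mem_pow hp n
  rwa [hn, Ideal.mem_bot] at this

end Complete

section Good

variable {p : ℕ} {G 𝕋 : Type*} [Group G] [CommRing 𝕋] {J : Type*} [AddCommGroup J]
  [Module 𝕋 J] [DistribMulAction G J] {D : ℕ → G → 𝕋} {B : Subring 𝕋}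
  {T : Type*} [CommRing T] {π : 𝕋 →+* T}

omit [Group G] [DistribMulAction G J] in
/-- exact faithfulness at level `n₀` ⇒ every level `n ≥ n₀` is good for every precision -/
theorem rtk7fin_good {n₀ : ℕ}
    (hkill : ∀ h ∈ B, (∀ x : J, p ^ n₀ • x = 0 → h • x = 0) → π h = 0) (k : ℕ) {n : ℕ}
    (hn : n₀ ≤ n) : Rtk7bGood p J B π k n := by
  have h0 : Rtk7bGood p J B π k n₀ := fun h hh hx => by
    rw [hkill h hh hx]
    exact Ideal.zero_mem _
  exact h0.mono_level hn

omit [Group G] [DistribMulAction G J] in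
/-- the hypothesis `hfaith` of `rtk7b_exists` from exact faithfulness at one level -/
theorem rtk7fin_hfaith {n₀ : ℕ}
    (hkill : ∀ h ∈ B, (∀ x : J, p ^ n₀ • x = 0 → h • x = 0) → π h = 0) :
    ∀ k : ℕ, ∃ n : ℕ, k ≤ n ∧ Rtk7bGood p J B π k n :=
  fun k => ⟨max k n₀, le_max_left _ _, rtk7fin_good hkill k (le_max_right _ _)⟩

omit [Group G] [DistribMulAction G J] in
/-- if `p ^ N = 0` in `T`, goodness for the precision `N` is exact faithfulness -/
theorem rtk7fin_good_iff {N : ℕ} (hN : (p : T) ^ N = 0) (n : ℕ) :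
    Rtk7bGood p J B π N n ↔
      ∀ h ∈ B, (∀ x : J, p ^ n • x = 0 → h • x = 0) → π h = 0 := by
  constructor
  · intro hG h hh hx
    have := hG h hh hx
    rwa [hN, Ideal.span_singleton_eq_bot.mpr rfl, Ideal.mem_bot] at this
  · intro hkill
    exact rtk7fin_good hkill N le_rfl

/-- **The trace function over a ring with nilpotent `I ∋ p`**, with exact values. -/
theorem rtk7fin_exists (hF : Rtk7bFam p J D B) (I : Ideal T) {m : ℕ} (hI : I ^ m = ⊥)
    (hpI : (p : T) ∈ I) {n₀ : ℕ}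
    (hkill : ∀ h ∈ B, (∀ x : J, p ^ n₀ • x = 0 → h • x = 0) → π h = 0) :
    ∃ t : G → T, Rtk7bSpec p J D B π I t ∧
      ∀ (g : G) (n : ℕ) (h : 𝕋), n₀ ≤ n → h ∈ B → Rtk7bApprox p J D n g h → t g = π h := by
  haveI : IsAdicComplete I T := rtk7fin_isAdicComplete_of_pow_eq_bot I hI
  obtain ⟨t, ht⟩ := rtk7b_exists hF I hpI (rtk7fin_hfaith hkill)
  refine ⟨t, ht, fun g n h hn hh H => ?_⟩
  have := ht g m n h (rtk7fin_good hkill m hn) hh H
  rwa [hI, Ideal.mem_bot, sub_eq_zero] at this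

/-- **The pseudo-character identities** in the finite situation: `ε g = π (D n g)` for
`n ≥ n₁`. -/
theorem rtk7fin_pseudo (hF : Rtk7bFam p J D B) (I : Ideal T) {m : ℕ} (hI : I ^ m = ⊥)
    (hpI : (p : T) ∈ I) {n₀ : ℕ}
    (hkill : ∀ h ∈ B, (∀ x : J, p ^ n₀ • x = 0 → h • x = 0) → π h = 0)
    (ε : G →* T) (hε : ∀ (n : ℕ) (g : G), ε g - π (D n g) ∈ Ideal.span {(p : T) ^ n})
    {t : G → T} (ht : Rtk7bSpec p J D B π I t) :
    t 1 = 2 ∧ (∀ x y : G, t (x * y) = t (y * x)) ∧
      ∀ x y : G, t (x * y) + ε y * t (x * y⁻¹) = t x * t y := by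
  haveI : IsAdicComplete I T := rtk7fin_isAdicComplete_of_pow_eq_bot I hI
  exact rtk7b_pseudo hF I hpI (rtk7fin_hfaith hkill) ε hε ht

end Good

section Local

variable {p : ℕ} {G 𝕋 : Type*} [Group G] [CommRing 𝕋] {J : Type*} [AddCommGroup J]
  [Module 𝕋 J] [DistribMulAction G J] {D : ℕ → G → 𝕋} {B : Subring 𝕋}
  {T : Type*} [CommRing T] [IsLocalRing T] [IsArtinianRing T] {π : 𝕋 →+* T}

/-- **The trace function over an artinian (e.g. finite) local ring**, with exact values. -/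
theorem rtk7fin_exists_local (hF : Rtk7bFam p J D B) (hpT : (p : T) ∈ maximalIdeal T) {n₀ : ℕ}
    (hkill : ∀ h ∈ B, (∀ x : J, p ^ n₀ • x = 0 → h • x = 0) → π h = 0) :
    ∃ t : G → T, Rtk7bSpec p J D B π (maximalIdeal T) t ∧
      ∀ (g : G) (n : ℕ) (h : 𝕋), n₀ ≤ n → h ∈ B → Rtk7bApprox p J D n g h → t g = π h := by
  obtain ⟨m, hm⟩ := rtk7fin_exists_pow_eq_bot (A := T)
  exact rtk7fin_exists hF _ hm hpT hkill

end Local

end Fermat.Agent.RT
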