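/-
RT-K7 / K7b-inst (helper86): `stmtK7bInst : StmtK7bInst`, `stmtK7bChar : StmtK7bChar`.

Abstract fork of `S30/PseudoChar.lean` (`approx_frob`, `exists_approx`, `exists_field_approx`,
`approx_inertia`) and of `S31.lucas_galois` over the twisted package `Rtk7bPkg` (abstract
commutative ring `𝕋`, operators `Tr ℓ`), with the determinant `D n g = cycE p n g`.
-/
import Fermat.Agent.RT.K7.PlanInst

set_option autoImplicit false
set_option linter.unusedSectionVars false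

namespace Fermat.Agent.RT

open Fermat.Agent.ES Fermat.Agent.S30 Fermat.Agent.S31

section Inst

variable {p L : ℕ} [Fact p.Prime] {𝕋 : Type} [CommRing 𝕋] {J : Type} [AddCommGroup J]
  [Module 𝕋 J] [DistribMulAction GQ J] {Tr : ℕ → 𝕋}

/-- the determinant of the family: the cyclotomic character modulo `p ^ n` -/
noncomputable abbrev rtk7iD (p : ℕ) [Fact p.Prime] (𝕋 : Type) [CommRing 𝕋] : ℕ → GQ → 𝕋 :=
  fun n g => ((cycE p n g : ℕ) : 𝕋)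

theorem rtk7i_D_smul (n : ℕ) (g : GQ) (x : J) :
    rtk7iD p 𝕋 n g • x = cycE p n g • x := Nat.cast_smul_eq_nsmul 𝕋 _ x

theorem rtk7i_D_smul_of_modEq {n : ℕ} {g : GQ} {a : ℕ} (h : cycE p n g ≡ a [MOD p ^ n])
    {x : J} (hx : p ^ n • x = 0) : rtk7iD p 𝕋 n g • x = a • x := by
  rw [rtk7i_D_smul, nsmul_eq_of_modEq h hx]

theorem rtk7i_lucasS_mem (B : Subring 𝕋) {a d : 𝕋} (ha : a ∈ B) (hd : d ∈ B) (m : ℕ) :
    lucasS a d m ∈ B := by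
  induction m using Nat.twoStepInduction with
  | zero =>
    rw [lucasS_zero]
    exact ofNat_mem B 2
  | one => rw [lucasS_one]; exact ha
  | more j h0 h1 =>
    rw [lucasS_add_two]
    exact sub_mem (mul_mem ha h1) (mul_mem hd h0)

theorem rtk7i_ne_of_not_dvd_mul {r : ℕ} (hr : ¬ r ∣ L * p) : r ≠ p := by
  rintro rfl
  exact hr (dvd_mul_left _ _)

/-- `g + ℓᵐ g⁻¹ = s_m(Tr ℓ, ℓ)` on `J[pⁿ]` if `g = τᵐ` on a field of definition of `J[pⁿ]`,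
`τ` a Frobenius at `ℓ ∤ L p`. -/
theorem rtk7i_lucas_galois (hP : Rtk7bPkg p L J Tr) (n : ℕ)
    (F : IntermediateField ℚ (AlgebraicClosure ℚ))
    (hF : ∀ σ : GQ, (∀ a ∈ F, σ a = a) → ∀ x : J, p ^ n • x = 0 → σ • x = x)
    {ℓ : ℕ} (hℓ : ℓ.Prime) (hℓLp : ¬ ℓ ∣ L * p)
    {A : ValuationSubring (AlgebraicClosure ℚ)} (hA : A.LiesOverPrime ℓ)
    {τ : GQ} (hτ : A.IsFrobeniusAt τ ℓ) (m : ℕ) (g : GQ) (hg : ∀ a ∈ F, (τ ^ m) a = g a)
    {x : J} (hx : p ^ n • x = 0) :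
    g • x + (ℓ ^ m) • (g⁻¹ • x) = lucasS (Tr ℓ) (ℓ : 𝕋) m • x := by
  have hES : ∀ y : J, p ^ n • y = 0 →
      τ • τ • y - Tr ℓ • (τ • y) + (ℓ : 𝕋) • y = 0 := by
    intro y hy
    rw [Nat.cast_smul_eq_nsmul]
    exact hP.frob ℓ hℓ hℓLp A hA τ hτ n y hy
  have hL := lucas_smul (G := GQ) τ (Tr ℓ) (ℓ : 𝕋) (fun y : J => p ^ n • y = 0)
    (fun g y hy => rtk7b_tors_gal n g hy) hES x hx m
  set u : GQ := (τ ^ m)⁻¹ * g with hu
  have huF : ∀ a ∈ F, u a = a := by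
    intro a ha
    rw [hu, AlgEquiv.mul_apply, ← hg a ha, ← AlgEquiv.mul_apply, inv_mul_cancel,
      AlgEquiv.one_apply]
  have hux : ∀ y : J, p ^ n • y = 0 → u • y = y := hF u huF
  have e1 : (τ ^ m) • x = g • x := by
    have : g = τ ^ m * u := by rw [hu, mul_inv_cancel_left]
    rw [this, mul_smul, hux x hx]
  have e2 : (τ⁻¹) ^ m • x = g⁻¹ • x := by
    have : (τ⁻¹) ^ m = u * g⁻¹ := by rw [hu, inv_pow, mul_assoc, mul_inv_cancel, mul_one]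
    rw [this, mul_smul, hux _ (rtk7b_tors_gal n g⁻¹ hx)]
  rw [e1, e2, ← Nat.cast_pow, Nat.cast_smul_eq_nsmul] at hL
  exact hL

/-- a field of definition of `J[pⁿ]` and of `μ_{pⁿ}`, finite and Galois over `ℚ` -/
theorem rtk7i_exists_field (hP : Rtk7bPkg p L J Tr) (n : ℕ) :
    ∃ (F : IntermediateField ℚ (AlgebraicClosure ℚ)) (ζ : AlgebraicClosure ℚ),
      FiniteDimensional ℚ F ∧ IsGalois ℚ F ∧ IsPrimitiveRoot ζ (p ^ n) ∧ ζ ∈ F ∧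
      ∀ σ : GQ, (∀ a ∈ F, σ a = a) → ∀ x : J, p ^ n • x = 0 → σ • x = x := by
  have hp : p.Prime := Fact.out
  obtain ⟨E, hEfin, hE⟩ := hP.finite_level n
  have hM0 : p ^ n ≠ 0 := pow_ne_zero n hp.ne_zero
  have : NeZero ((p ^ n : ℕ) : AlgebraicClosure ℚ) := ⟨Nat.cast_ne_zero.mpr hM0⟩
  obtain ⟨ζ, hζ⟩ := HasEnoughRootsOfUnity.exists_primitiveRoot (AlgebraicClosure ℚ) (p ^ n)
  have hζfin : FiniteDimensional ℚ (IntermediateField.adjoin ℚ {ζ}) :=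
    IntermediateField.adjoin.finiteDimensional ((hζ.isIntegral (Nat.pos_of_ne_zero hM0)).tower_top)
  obtain ⟨F, hFfin, hFgal, hEF, -, hζF⟩ :=
    exists_galois_hull E E (IntermediateField.adjoin ℚ {ζ})
  exact ⟨F, ζ, hFfin, hFgal, hζ, hζF (IntermediateField.mem_adjoin_simple_self ℚ ζ),
    fun σ h => hE σ fun a ha => h a (hEF ha)⟩

/-- a Frobenius `τ` at `ℓ ∤ L p` is represented by `Tr ℓ` -/
theorem rtk7i_approx_frob (hP : Rtk7bPkg p L J Tr) (n : ℕ) {ℓ : ℕ} (hℓ : ℓ.Prime)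
    (hℓLp : ¬ ℓ ∣ L * p) {A : ValuationSubring (AlgebraicClosure ℚ)} (hA : A.LiesOverPrime ℓ)
    {τ : GQ} (hτ : A.IsFrobeniusAt τ ℓ) : Rtk7bApprox p J (rtk7iD p 𝕋) n τ (Tr ℓ) := by
  intro x hx
  have h := hP.frob ℓ hℓ hℓLp A hA τ hτ n (τ⁻¹ • x) (rtk7b_tors_gal n τ⁻¹ hx)
  rw [smul_inv_smul] at h
  have he : cycE p n τ ≡ ℓ [MOD p ^ n] := by
    rw [cycE_modEq_iff, padicCyclo_frob p ℓ hℓ (rtk7i_ne_of_not_dvd_mul hℓLp) A hA τ hτ,
      map_natCast]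
  rw [rtk7i_D_smul_of_modEq he (rtk7b_tors_gal n τ⁻¹ hx)]
  have h2 : τ • x + ℓ • τ⁻¹ • x - Tr ℓ • x = 0 := by
    rw [← h]; abel
  exact sub_eq_zero.mp h2

/-- every `g` has a representative at every level (weak Chebotarev + Lucas) -/
theorem rtk7i_exists_approx (hcheb : Cheb.WeakChebotarev) (hP : Rtk7bPkg p L J Tr)
    (S : Finset ℕ) (hgood : ∀ r : ℕ, r.Prime → r ∉ S → ¬ r ∣ L * p)
    (B : Subring 𝕋) (hB : ∀ ℓ : ℕ, ℓ.Prime → ℓ ∉ S → Tr ℓ ∈ B) (n : ℕ) (g : GQ) :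
    ∃ h ∈ B, Rtk7bApprox p J (rtk7iD p 𝕋) n g h := by
  have hp : p.Prime := Fact.out
  have hM0 : p ^ n ≠ 0 := pow_ne_zero n hp.ne_zero
  obtain ⟨F, ζ, hFfin, hFgal, hζ, hζF, hF⟩ := rtk7i_exists_field hP n
  obtain ⟨ℓ, A, τ, m, hℓ, hℓS, hA, hτ, hg⟩ := hcheb F S g
  have hℓLp := hgood ℓ hℓ hℓS
  refine ⟨lucasS (Tr ℓ) (ℓ : 𝕋) m, rtk7i_lucasS_mem B (hB ℓ hℓ hℓS) (natCast_mem B ℓ) m, ?_⟩
  intro x hx
  have h1 := rtk7i_lucas_galois hP n F hF hℓ hℓLp hA hτ m g hg hx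
  have hζ1 : ζ ^ (p ^ n) = 1 := hζ.pow_eq_one
  have h2 : (τ ^ m) ζ = ζ ^ (ℓ ^ m) :=
    frob_pow_rootOfUnity A
      (natCast_pow_not_mem_nonunits A hp hℓ (rtk7i_ne_of_not_dvd_mul hℓLp) hA n) hM0 hτ hζ1 m
  have h3 : g ζ = ζ ^ (ℓ ^ m) := by rw [← hg ζ hζF, h2]
  have he : cycE p n g ≡ ℓ ^ m [MOD p ^ n] := cycE_of_apply p n g _ hζ h3
  rw [rtk7i_D_smul_of_modEq he (rtk7b_tors_gal n g⁻¹ hx)]
  exact h1

/-- **the family** -/
theorem rtk7i_fam (hcheb : Cheb.WeakChebotarev) (hP : Rtk7bPkg p L J Tr)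
    (S : Finset ℕ) (hgood : ∀ r : ℕ, r.Prime → r ∉ S → ¬ r ∣ L * p)
    (B : Subring 𝕋) (hB : ∀ ℓ : ℕ, ℓ.Prime → ℓ ∉ S → Tr ℓ ∈ B) :
    Rtk7bFam p J (rtk7iD p 𝕋) B where
  smul_comm := hP.smul_comm
  D_mem := fun n g => natCast_mem B _
  D_one := fun n x hx => by
    rw [rtk7i_D_smul_of_modEq (cycE_one p n) hx, one_smul]
  D_mul := fun n g h x hx => by
    rw [rtk7i_D_smul_of_modEq (cycE_mul p n g h) hx, rtk7i_D_smul, rtk7i_D_smul, mul_smul]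
  D_restrict := fun n n' hn g x hx => by
    rw [rtk7i_D_smul, rtk7i_D_smul, nsmul_eq_of_modEq (cycE_restrict p hn g) hx]
  approx := fun n g => rtk7i_exists_approx hcheb hP S hgood B hB n g

/-- `σ` trivial on `J[pⁿ]` and on `μ_{pⁿ}`: `σ g` and `g` have the same representatives -/
theorem rtk7i_approx_mul_left {B : Subring 𝕋} (hF : Rtk7bFam p J (rtk7iD p 𝕋) B) {n : ℕ}
    {σ g : GQ} {h : 𝕋} (hσ : ∀ x : J, p ^ n • x = 0 → σ • x = x)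
    (hσe : cycE p n σ ≡ 1 [MOD p ^ n])
    (H : Rtk7bApprox p J (rtk7iD p 𝕋) n g h) : Rtk7bApprox p J (rtk7iD p 𝕋) n (σ * g) h :=
  rtk7b_approx_mul_left_of_trivial hF hσ
    (fun x hx => by rw [rtk7i_D_smul_of_modEq hσe hx, one_smul]) H

/-- inertia at `q ∤ L p`: `σ g` and `g` have the same representatives -/
theorem rtk7i_approx_inertia {B : Subring 𝕋} (hF : Rtk7bFam p J (rtk7iD p 𝕋) B)
    (hP : Rtk7bPkg p L J Tr) (n : ℕ) {q : ℕ} (hq : q.Prime)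
    (hqLp : ¬ q ∣ L * p) {P : ValuationSubring (AlgebraicClosure ℚ)} (hPq : P.LiesOverPrime q)
    {σ : GQ} (hσ : σ ∈ P.inertiaSubgroupIn ℚ) {g : GQ} {h : 𝕋}
    (H : Rtk7bApprox p J (rtk7iD p 𝕋) n g h) : Rtk7bApprox p J (rtk7iD p 𝕋) n (σ * g) h :=
  rtk7i_approx_mul_left hF (fun x hx => hP.unram q hq hqLp P hPq σ hσ n x hx)
    (cycE_of_eq_one p n σ
      (padicCyclo_inertia p q hq (rtk7i_ne_of_not_dvd_mul hqLp) P hPq σ hσ)) H

/-- adic continuity at finite level -/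
theorem rtk7i_exists_field_approx {B : Subring 𝕋} (hF : Rtk7bFam p J (rtk7iD p 𝕋) B)
    (hP : Rtk7bPkg p L J Tr) (n : ℕ) :
    ∃ E : IntermediateField ℚ (AlgebraicClosure ℚ), FiniteDimensional ℚ E ∧
      ∀ σ : GQ, (∀ a ∈ E, σ a = a) → ∀ (g : GQ) (h : 𝕋),
        Rtk7bApprox p J (rtk7iD p 𝕋) n g h → Rtk7bApprox p J (rtk7iD p 𝕋) n (σ * g) h := by
  obtain ⟨F, ζ, hFfin, -, hζ, hζF, hFJ⟩ := rtk7i_exists_field hP n
  refine ⟨F, hFfin, fun σ hσ g h H => ?_⟩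
  apply rtk7i_approx_mul_left hF (hFJ σ hσ) _ H
  apply cycE_of_apply p n σ 1 hζ
  rw [pow_one]
  exact hσ ζ hζF

/-- complex conjugation has determinant `-1` -/
theorem rtk7i_conj (n : ℕ) {x : J} (hx : p ^ n • x = 0) :
    rtk7iD p 𝕋 n complexConjugation • x = -x := by
  have hp : p.Prime := Fact.out
  have hpos : 0 < p ^ n := pow_pos hp.pos n
  have he : cycE p n complexConjugation ≡ p ^ n - 1 [MOD p ^ n] := by
    rw [cycE_modEq_iff, padicCyclo_conj p complexConjugation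
      (fun m ζ hm hζ => complexConj_root m ζ hm hζ), map_neg, map_one, Nat.cast_sub hpos]
    simp
  rw [rtk7i_D_smul_of_modEq he hx, eq_neg_iff_add_eq_zero, ← succ_nsmul,
    Nat.sub_add_cancel hpos, hx]

/-- **K7b-inst.** -/
theorem stmtK7bInst : StmtK7bInst := by
  intro hcheb p L _ 𝕋 _ J _ _ _ Tr hP S hgood B hB
  have hF := rtk7i_fam hcheb hP S hgood B hB
  refine ⟨hF, ?_, ?_, ?_, ?_⟩
  · intro n ℓ hℓ hℓLp A hA τ hτ
    exact rtk7i_approx_frob hP n hℓ hℓLp hA hτ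
  · intro n q hq hqLp P hPq σ hσ g h H
    exact rtk7i_approx_inertia hF hP n hq hqLp hPq hσ H
  · intro n
    exact rtk7i_exists_field_approx hF hP n
  · intro n x hx
    exact rtk7i_conj n hx

end Inst

section Char

variable {p L : ℕ} [Fact p.Prime] {𝕋 : Type} [CommRing 𝕋] {J : Type} [AddCommGroup J]
  [Module 𝕋 J] [DistribMulAction GQ J] {Tr : ℕ → 𝕋}

/-- **K7b-inst, consumer form.** -/
theorem stmtK7bChar : StmtK7bChar := by
  intro hcheb p L _ 𝕋 _ J _ _ _ Tr hP S hgood B hB T _ π I _ hpI hfaith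
  have hF := rtk7i_fam hcheb hP S hgood B hB
  obtain ⟨t, ht⟩ := rtk7b_exists hF I hpI hfaith
  have hε : ∀ (n : ℕ) (g : GQ),
      ((Units.coeHom T).comp (cycloCharO p I hpI)) g - π (rtk7iD p 𝕋 n g) ∈
        Ideal.span {(p : T) ^ n} := by
    intro n g
    have e : π (rtk7iD p 𝕋 n g) = ((cycE p n g : ℕ) : T) := map_natCast π _
    show ((cycloCharO p I hpI g : Tˣ) : T) - π (rtk7iD p 𝕋 n g) ∈ _
    rw [e]
    exact cycloCharO_sub_cycE p I hpI n g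
  obtain ⟨h1, h2, h3⟩ := rtk7b_pseudo hF I hpI hfaith
    ((Units.coeHom T).comp (cycloCharO p I hpI)) hε ht
  refine ⟨t, ht, h1, h2, h3, ?_, ?_, ?_⟩
  · intro ℓ hℓ hℓS A hA τ hτ
    exact rtk7b_value I hfaith ht (hB ℓ hℓ hℓS)
      (fun n => rtk7i_approx_frob hP n hℓ (hgood ℓ hℓ hℓS) hA hτ)
  · intro q hq hqLp P hPq σ hσ g
    apply rtk7b_eq_of_forall_sub_mem I
    intro k
    obtain ⟨n, -, hn⟩ := hfaith k
    obtain ⟨h, hh, H⟩ := hF.approx n g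
    exact rtk7b_same ht hn hh H (rtk7i_approx_inertia hF hP n hq hqLp hPq hσ H)
  · intro k
    obtain ⟨n, -, hn⟩ := hfaith k
    obtain ⟨E, hEfin, hE⟩ := rtk7i_exists_field_approx hF hP n
    refine ⟨E, hEfin, fun σ hσ g => ?_⟩
    obtain ⟨h, hh, H⟩ := hF.approx n g
    exact rtk7b_same ht hn hh H (hE σ hσ g h H)

end Char

end Fermat.Agent.RT
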