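import Fermat.Agent.RT.K7.TransferFin
import Fermat.Agent.S32.Final
import Fermat.Agent.S32.Subquot

/-!
# K-machine, piece K7-FL32: flatness at `p` of the representation over the Hecke ring

* `Rtk7fAnn p r` : the ANNIHILATOR PROPERTY of a family of `2 × 2` matrices `r g` over a local
  ring `T`: for every `k` there is a finite `G_ℚ`-module `X` with a finite flat model over
  `ℤ_(p)` such that every element of `ℤ[G_ℚ]` which kills `X` maps to `0` modulo `𝔪 ^ k` under `r`.
* `rtk7f_ann_map` : the property passes to `φ ∘ r` for a local homomorphism `φ`.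
* `rtk7f_isFlatAt` : a `GaloisRepAdic` over a noetherian local ring with finite residue field
  whose matrices (in some basis) have the annihilator property is flat at `p`
  (`S32.stmtSubquot`).
* `rtk7f_ann_of_family` : Wiles' matrices `rtk7Mat t c i2 σ₀ τ₀ u` of a compatible family
  (`PseudoFam.lean`) have the annihilator property, if every `J[pⁿ]` has a finite flat model
  (finite level TRANSFER, `rtk7tf_int`).
-/

set_option autoImplicit false
set_option linter.style.haveILetI false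

namespace Fermat.Agent.RT

open Fermat.Agent.ES Fermat.Agent.W1 IsLocalRing

/-- **The annihilator property.** -/
def Rtk7fAnn {T : Type} [CommRing T] [IsLocalRing T] (p : ℕ)
    (r : GQ → Matrix (Fin 2) (Fin 2) T) : Prop :=
  ∀ k : ℕ, ∃ (X : Type) (_ : AddCommGroup X) (_ : Finite X) (act : GQ → X → X),
    (∀ σ x x', act σ (x + x') = act σ x + act σ x') ∧
    (∀ σ τ x, act (σ * τ) x = act σ (act τ x)) ∧
    HasFiniteFlatModel (GaloisRep.ratLocalizedAt p) X act ∧
    ∀ e : GQ →₀ ℤ, (∀ x : X, (e.sum fun g z => z • act g x) = 0) →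
      ∀ a b : Fin 2, (e.sum fun g z => z • r g) a b ∈ maximalIdeal T ^ k

theorem rtk7f_ann_map {T A : Type} [CommRing T] [IsLocalRing T] [CommRing A] [IsLocalRing A]
    (φ : T →+* A) [IsLocalHom φ] {p : ℕ} {r : GQ → Matrix (Fin 2) (Fin 2) T}
    (h : Rtk7fAnn p r) : Rtk7fAnn p (fun g => (r g).map φ) := by
  intro k
  obtain ⟨X, i1, i2, act, h1, h2, h3, h4⟩ := h k
  refine ⟨X, i1, i2, act, h1, h2, h3, fun e he a b => ?_⟩
  have key := h4 e he a b
  have hmap : (e.sum fun g z => z • (r g).map φ) a b = φ ((e.sum fun g z => z • r g) a b) := by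
    rw [Finsupp.sum, Finsupp.sum, Matrix.sum_apply, Matrix.sum_apply, map_sum]
    refine Finset.sum_congr rfl fun g _ => ?_
    rw [Matrix.smul_apply, Matrix.smul_apply, Matrix.map_apply, map_zsmul]
  rw [hmap]
  have hle : (maximalIdeal T ^ k).map φ ≤ maximalIdeal A ^ k := by
    rw [Ideal.map_pow]
    exact Ideal.pow_right_mono (Ideal.map_le_iff_le_comap.mpr fun x hx =>
      Ideal.mem_comap.mpr (map_nonunit φ x hx)) k
  exact hle (Ideal.mem_map_of_mem φ key)

section Flat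

variable {T : Type} [CommRing T] [IsLocalRing T]

omit [IsLocalRing T] in
/-- an endomorphism whose matrix has entries in `I` maps `V` into `I V` -/
theorem rtk7f_mem_smul_top {V : Type} [AddCommGroup V] [Module T V]
    (b : Module.Basis (Fin 2) T V) (f : V →ₗ[T] V) (I : Ideal T)
    (h : ∀ i j, LinearMap.toMatrix b b f i j ∈ I) (v : V) :
    f v ∈ I • (⊤ : Submodule T V) := by
  rw [← b.sum_repr (f v)]
  refine Submodule.sum_mem _ fun i _ => ?_
  refine Submodule.smul_mem_smul ?_ Submodule.mem_top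
  have h1 := congrFun (LinearMap.toMatrix_mulVec_repr b b f v) i
  rw [← h1, Matrix.mulVec, dotProduct]
  exact Ideal.sum_mem _ fun j _ => Ideal.mul_mem_right _ _ (h i j)

/-- **K7-FL32.**  A representation whose matrices have the annihilator property is flat. -/
theorem rtk7f_isFlatAt [IsNoetherianRing T] [Finite (ResidueField T)] (p : ℕ) [Fact p.Prime]
    (ρ : GaloisRepAdic T) (b : Module.Basis (Fin 2) T ρ.V)
    (h : Rtk7fAnn p (fun g => LinearMap.toMatrix b b (ρ.ρ g))) : ρ.IsFlatAt p := by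
  classical
  rw [sq_isFlatAt_iff]
  refine ⟨inferInstance, fun I hI => ?_⟩
  haveI := hI
  obtain ⟨k, hk⟩ := Fermat.Agent.S32.exists_pow_le_of_finite_quotient I
  obtain ⟨X, i1, i2, act, h1, h2, h3, h4⟩ := h k
  haveI hfinY : Finite (ρ.V ⧸ (I • (⊤ : Submodule T ρ.V))) := by
    have : Module.Finite (T ⧸ I) (ρ.V ⧸ (I • (⊤ : Submodule T ρ.V))) :=
      Module.Finite.of_restrictScalars_finite T _ _
    exact Module.finite_of_finite (T ⧸ I)
  refine Fermat.Agent.S32.stmtSubquot (GaloisRep.ratLocalizedAt p) inferInstance inferInstance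
    X i1 i2 act (ρ.V ⧸ (I • (⊤ : Submodule T ρ.V))) inferInstance hfinY
    (fun σ => ρ.levelAction I σ) h1 h2 ?_ ?_ ?_ ?_ h3
  · intro σ y y'
    exact map_add _ y y'
  · intro σ τ y
    exact Fermat.Agent.S32.levelAction_mul ρ I σ τ y
  · intro y
    exact Fermat.Agent.S32.levelAction_one ρ I y
  · intro e he y
    obtain ⟨v, rfl⟩ := Submodule.Quotient.mk_surjective _ y
    have hent := h4 e he
    have hmat : LinearMap.toMatrix b b (e.sum fun g z => z • ρ.ρ g) =
        e.sum fun g z => z • LinearMap.toMatrix b b (ρ.ρ g) := by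
      rw [Finsupp.sum, Finsupp.sum, map_sum]
      refine Finset.sum_congr rfl fun g _ => ?_
      rw [map_zsmul]
    have hmem : (e.sum fun g z => z • ρ.ρ g) v ∈ (maximalIdeal T ^ k) • (⊤ : Submodule T ρ.V) :=
      rtk7f_mem_smul_top b _ _ (fun i j => by rw [hmat]; exact hent i j) v
    have hmem' : (e.sum fun g z => z • ρ.ρ g) v ∈ I • (⊤ : Submodule T ρ.V) :=
      Submodule.smul_mono_left hk hmem
    have e1 : (e.sum fun g z => z • ρ.levelAction I g (Submodule.Quotient.mk v)) =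
        (I • (⊤ : Submodule T ρ.V)).mkQ ((e.sum fun g z => z • ρ.ρ g) v) := by
      rw [Finsupp.sum, Finsupp.sum, LinearMap.sum_apply, map_sum]
      refine Finset.sum_congr rfl fun g _ => ?_
      rw [LinearMap.smul_apply, map_zsmul]
      rfl
    rw [e1, Submodule.mkQ_apply]
    exact (Submodule.Quotient.mk_eq_zero _).mpr hmem'

end Flat

section Family

variable {p : ℕ} {𝕋 : Type*} [CommRing 𝕋] {J : Type} [AddCommGroup J]
  [Module 𝕋 J] [DistribMulAction GQ J] {D : ℕ → GQ → 𝕋} {B : Subring 𝕋}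
  {T : Type} [CommRing T] [IsLocalRing T] {π : 𝕋 →+* T}

/-- **Wiles' matrices of a compatible family have the annihilator property**, if every `J[pⁿ]`
is dominated by a finite `G_ℚ`-module with a finite flat model (e.g. `J[pⁿ]` itself, or the
`pⁿ`-torsion of a bigger module in which `J` is a Galois-stable subgroup). -/
theorem rtk7f_ann_of_family (hF : Rtk7bFam p J D B) (hpI : (p : T) ∈ maximalIdeal T)
    (hfaith : ∀ k : ℕ, ∃ n : ℕ, k ≤ n ∧ Rtk7bGood p J B π k n)
    (ε : GQ →* T) {t : GQ → T} (ht : Rtk7bSpec p J D B π (maximalIdeal T) t)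
    (h2 : ∀ x y, t (x * y) = t (y * x))
    (h3 : ∀ x y, t (x * y) + ε y * t (x * y⁻¹) = t x * t y)
    (c : GQ) (hc : c * c = 1) (hεc : ε c = -1)
    (i2 : T) (hi2 : 2 * i2 = 1) (σ₀ τ₀ : GQ) (u : T) (hu : u * rtk7Xi t c i2 σ₀ τ₀ = 1)
    (hDc : ∀ (n : ℕ) (x : J), p ^ n • x = 0 → D n c • x = -x)
    (hmodel : ∀ n : ℕ, ∃ (X : Type) (_ : AddCommGroup X) (_ : Finite X) (act : GQ → X → X),
      (∀ σ x x', act σ (x + x') = act σ x + act σ x') ∧
      (∀ σ τ x, act (σ * τ) x = act σ (act τ x)) ∧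
      HasFiniteFlatModel (GaloisRep.ratLocalizedAt p) X act ∧
      ∀ e : GQ →₀ ℤ, (∀ x : X, (e.sum fun g z => z • act g x) = 0) →
        ∀ x : J, p ^ n • x = 0 → (e.sum fun g z => z • g • x) = 0) :
    Rtk7fAnn p (rtk7Mat t c i2 σ₀ τ₀ u) := by
  intro k
  obtain ⟨n, -, hn⟩ := hfaith k
  obtain ⟨X, i1, i2', act, h1, h2', h3', h4⟩ := hmodel n
  refine ⟨X, i1, i2', act, h1, h2', h3', fun e he a b => ?_⟩
  exact rtk7tf_int hF (maximalIdeal T) hpI ε ht h2 h3 c hc hεc i2 hi2 σ₀ τ₀ u hu hn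
    (hDc n) e (h4 e he) a b

/-- the special case `X = J[pⁿ]` -/
theorem rtk7f_ann_of_family_self (hF : Rtk7bFam p J D B) (hpI : (p : T) ∈ maximalIdeal T)
    (hfaith : ∀ k : ℕ, ∃ n : ℕ, k ≤ n ∧ Rtk7bGood p J B π k n)
    (ε : GQ →* T) {t : GQ → T} (ht : Rtk7bSpec p J D B π (maximalIdeal T) t)
    (h2 : ∀ x y, t (x * y) = t (y * x))
    (h3 : ∀ x y, t (x * y) + ε y * t (x * y⁻¹) = t x * t y)
    (c : GQ) (hc : c * c = 1) (hεc : ε c = -1)
    (i2 : T) (hi2 : 2 * i2 = 1) (σ₀ τ₀ : GQ) (u : T) (hu : u * rtk7Xi t c i2 σ₀ τ₀ = 1)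
    (hDc : ∀ (n : ℕ) (x : J), p ^ n • x = 0 → D n c • x = -x)
    (hfin : ∀ n : ℕ, Finite (rtk7tW (𝕋 := 𝕋) p J n))
    (hmodel : ∀ n : ℕ, HasFiniteFlatModel (GaloisRep.ratLocalizedAt p)
      (rtk7tW (𝕋 := 𝕋) p J n)
      (fun σ x => ⟨σ • (x : J), rtk7b_tors_gal n σ x.2⟩)) :
    Rtk7fAnn p (rtk7Mat t c i2 σ₀ τ₀ u) := by
  refine rtk7f_ann_of_family hF hpI hfaith ε ht h2 h3 c hc hεc i2 hi2 σ₀ τ₀ u hu hDc
    (fun n => ⟨rtk7tW (𝕋 := 𝕋) p J n, inferInstance, hfin n,
      (fun σ x => ⟨σ • (x : J), rtk7b_tors_gal n σ x.2⟩), ?_, ?_, hmodel n, ?_⟩)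
  · intro σ x x'
    apply Subtype.ext
    simp only [Submodule.coe_add, smul_add]
  · intro σ τ x
    apply Subtype.ext
    simp only [mul_smul]
  · intro e he x hx
    have := congrArg (fun w : rtk7tW (𝕋 := 𝕋) p J n => (w : J)) (he ⟨x, hx⟩)
    simp only [Finsupp.sum, Submodule.coe_sum, Submodule.coe_zero] at this
    rw [Finsupp.sum, ← this]
    refine Finset.sum_congr rfl fun g _ => ?_
    rfl

end Family

end Fermat.Agent.RT
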