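import Fermat.Agent.RT.K7.PlanInst
import Fermat.Agent.RT.K7.PlanGRA
import Fermat.Agent.RT.K7.Flat32

/-!
# K-machine, piece K7: the MAIN statement (the representation over a finite Hecke ring)

Sub-captain helper59, `NOTES/RT-K7.md`.

* `StmtK7Uniq` (K7-UNIQ): two pseudo-characters `G_ℚ → A` with the same determinant, both
  invariant modulo `I` under an open subgroup, which agree modulo `I` on the Frobenius elements
  at the primes `ℓ ∉ S`, agree modulo `I`.  [weak Chebotarev: `g = τᵐ` on a Galois field;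
  `t (τ ^ (k+1)) = t (τ ^ k) t τ − ε τ · t (τ ^ (k−1))`.]
* `StmtK7Main` (K7-MAIN): the abstract twisted package `Rtk7bPkg p L J Tr` (with finite flat
  models dominating the `J[pⁿ]`), a FINITE local ring `A` with `π : 𝕋 → A` faithful at some
  level (`h ∈ B` kills `J[p^{n₀}]` ⇒ `π h = 0`), and an irreducible `ρbar` with the right
  Frobenius traces and base point `σ₀, τ₀` give `t : G_ℚ → A` and `ρ : GaloisRepAdic A` with
  Wiles' matrices, `tr ρ(Frob_ℓ) = π (Tr ℓ)`, cyclotomic determinant, flat at `p`, unramified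
  outside `L p`, residual representation `≅ ρbar`; and `t g = π h` whenever `h ∈ B` represents
  `g` at every level (consumed by K6: `tr ρ(σ) = π (δ^e + δ^{−e})` for `σ` in the inertia at the
  Taylor–Wiles and at the trivial primes).
  [glue: `StmtK7bChar` (helper86), `StmtK7GRAFix` (helper74), K7-FIN (helper27), K7-UNIQ for
  `residue ∘ t = tr ρbar`, `rtk7f_ann_of_family`, `rtk7f_isFlatAt`.]
-/

set_option autoImplicit false

namespace Fermat.Agent.RT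

open Fermat.Agent.ES Fermat.Agent.S30 Fermat.Agent.W1 IsLocalRing

/-- **K7-UNIQ.** -/
def StmtK7Uniq : Prop :=
  Cheb.WeakChebotarev →
  ∀ (A : Type) [CommRing A] (I : Ideal A) (S : Finset ℕ) (ε : GQ →* A) (t t' : GQ → A),
    t 1 = 2 → t' 1 = 2 →
    (∀ x y, t (x * y) + ε y * t (x * y⁻¹) = t x * t y) →
    (∀ x y, t' (x * y) + ε y * t' (x * y⁻¹) = t' x * t' y) →
    (∃ E : IntermediateField ℚ (AlgebraicClosure ℚ), FiniteDimensional ℚ E ∧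
      ∀ σ : GQ, (∀ a ∈ E, σ a = a) → ∀ g, t (σ * g) - t g ∈ I ∧ t' (σ * g) - t' g ∈ I) →
    (∀ ℓ : ℕ, ℓ.Prime → ℓ ∉ S →
      ∀ P : ValuationSubring (AlgebraicClosure ℚ), P.LiesOverPrime ℓ →
        ∀ τ : GQ, P.IsFrobeniusAt τ ℓ → t τ - t' τ ∈ I) →
    ∀ g, t g - t' g ∈ I

/-- **K7-MAIN.** -/
def StmtK7Main : Prop :=
  Cheb.WeakChebotarev →
  ∀ (p L : ℕ) [Fact p.Prime], p ≠ 2 →
  ∀ (𝕋 : Type) [CommRing 𝕋] (J : Type) [AddCommGroup J] [Module 𝕋 J] [DistribMulAction GQ J]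
    (Tr : ℕ → 𝕋), Rtk7bPkg p L J Tr →
  ∀ (S : Finset ℕ), (∀ r : ℕ, r.Prime → r ∉ S → ¬ r ∣ L * p) →
  ∀ (B : Subring 𝕋), (∀ ℓ : ℕ, ℓ.Prime → ℓ ∉ S → Tr ℓ ∈ B) →
  (∀ n : ℕ, ∃ (X : Type) (_ : AddCommGroup X) (_ : Finite X) (act : GQ → X → X),
      (∀ σ x x', act σ (x + x') = act σ x + act σ x') ∧
      (∀ σ τ x, act (σ * τ) x = act σ (act τ x)) ∧
      HasFiniteFlatModel (GaloisRep.ratLocalizedAt p) X act ∧
      ∀ e : GQ →₀ ℤ, (∀ x : X, (e.sum fun g z => z • act g x) = 0) →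
        ∀ x : J, p ^ n • x = 0 → (e.sum fun g z => z • g • x) = 0) →
  ∀ (A : Type) [CommRing A] [IsLocalRing A] [Finite A], (p : A) ∈ maximalIdeal A →
  ∀ (i2 : A), 2 * i2 = 1 →
  ∀ (π : 𝕋 →+* A),
    (∃ n₀ : ℕ, ∀ h ∈ B, (∀ x : J, p ^ n₀ • x = 0 → h • x = 0) → π h = 0) →
  ∀ (ρbar : ResidualGaloisRep (ResidueField A)), ρbar.IsIrreducible →
    (∀ (σ : GQ) (a : ℕ), (∀ μ : AlgebraicClosure ℚ, μ ^ p = 1 → σ μ = μ ^ a) →
      LinearMap.det (ρbar.ρ σ) = (a : ResidueField A)) →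
    (∀ ℓ : ℕ, ℓ.Prime → ℓ ∉ S →
      ∀ P : ValuationSubring (AlgebraicClosure ℚ), P.LiesOverPrime ℓ →
        ∀ τ : GQ, P.IsFrobeniusAt τ ℓ →
          residue A (π (Tr ℓ)) = LinearMap.trace (ResidueField A) ρbar.V (ρbar.ρ τ)) →
  ∀ (σ₀ τ₀ : GQ),
    rtk7Xi (fun g => LinearMap.trace (ResidueField A) ρbar.V (ρbar.ρ g)) complexConjugation
      (residue A i2) σ₀ τ₀ ≠ 0 →
  ∃ (t : GQ → A) (u : A) (ρ : GaloisRepAdic A) (b : Module.Basis (Fin 2) A ρ.V),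
    u * rtk7Xi t complexConjugation i2 σ₀ τ₀ = 1 ∧
    (∀ g, LinearMap.toMatrix b b (ρ.ρ g) = rtk7Mat t complexConjugation i2 σ₀ τ₀ u g) ∧
    (∀ g, LinearMap.trace A ρ.V (ρ.ρ g) = t g) ∧
    (∀ ℓ : ℕ, ℓ.Prime → ℓ ∉ S →
      ∀ P : ValuationSubring (AlgebraicClosure ℚ), P.LiesOverPrime ℓ →
        ∀ τ : GQ, P.IsFrobeniusAt τ ℓ → t τ = π (Tr ℓ)) ∧
    (∀ (g : GQ) (h : 𝕋), h ∈ B →
      (∀ n, Rtk7bApprox p J (fun n g => ((cycE p n g : ℕ) : 𝕋)) n g h) → t g = π h) ∧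
    (∀ σ : GQ, residue A (t σ) = LinearMap.trace (ResidueField A) ρbar.V (ρbar.ρ σ)) ∧
    ρ.DetIsCyclotomic p ∧
    Rtk7fAnn p (fun g => LinearMap.toMatrix b b (ρ.ρ g)) ∧
    ρ.IsFlatAt p ∧
    (∀ q : ℕ, q.Prime → ¬ q ∣ L * p → ρ.IsUnramifiedAt q) ∧
    ρ.residual.IsEquiv ρbar

end Fermat.Agent.RT
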