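import Fermat.Agent.RT.K7.PlanMain
import Fermat.Agent.S31.Lucas
import Fermat.Agent.S31.Helpers

/-!
# K-machine, piece K7-UNIQ (helper46): uniqueness of continuous pseudo-characters

Two continuous pseudo-characters `t, t' : G_ℚ → T` with the same determinant `ε` which agree on
the Frobenius elements at the primes outside a finite set `S` are equal.

* `rtk7uq_pow` : `t (τ ^ m) = s_m(t τ, ε τ)` (Lucas sequence) for a pseudo-character `t`;
* `rtk7uq_central` : `t (x y) = t (y x)` follows from the other two identities;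
* `rtk7uq_congr` : the congruence form (modulo an ideal `𝔞`; `t`, `t'` locally constant modulo
  `𝔞`; `t ≡ t'` and `ε ≡ ε'` modulo `𝔞` at the Frobenius elements);
* **`stmtK7Uniq : StmtK7Uniq`** (the Prop of `RT/K7/PlanMain.lean`);
* `rtk7uq_eq` : the equality for `I`-adically separated `T`;
* `rtk7uq_eq_of_finite` : the equality for pseudo-characters which factor through finite
  extensions (finite level: no topology on `T`).

Proof: weak Chebotarev (a hypothesis here; `Cheb.weakChebotarev_holds` proves it) + Lucas.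
-/

set_option autoImplicit false

namespace Fermat.Agent.RT

open Fermat.Agent.S31 Fermat.Agent.ES

section pow

variable {G T : Type*} [Group G] [CommRing T]

/-- the values of a pseudo-character on the powers of an element -/
theorem rtk7uq_pow (ε : G → T) (t : G → T) (h1 : t 1 = 2)
    (h3 : ∀ x y : G, t (x * y) + ε y * t (x * y⁻¹) = t x * t y) (τ : G) (m : ℕ) :
    t (τ ^ m) = lucasS (t τ) (ε τ) m := by
  induction m using Nat.twoStepInduction with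
  | zero => rw [pow_zero, lucasS_zero, h1]
  | one => rw [pow_one, lucasS_one]
  | more j h0 h1' =>
    have h := h3 (τ ^ (j + 1)) τ
    have e1 : τ ^ (j + 1) * τ = τ ^ (j + 2) := (pow_succ τ (j + 1)).symm
    have e2 : τ ^ (j + 1) * τ⁻¹ = τ ^ j := by
      rw [pow_succ, mul_assoc, mul_inv_cancel, mul_one]
    rw [e1, e2, h0, h1'] at h
    rw [lucasS_add_two]
    linear_combination h

/-- a pseudo-character is central -/
theorem rtk7uq_central (ε : G →* T) (t : G → T) (h1 : t 1 = 2)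
    (h3 : ∀ x y : G, t (x * y) + ε y * t (x * y⁻¹) = t x * t y) (x y : G) :
    t (x * y) = t (y * x) := by
  have hinv : ∀ z : G, ε z * t z⁻¹ = t z := by
    intro z
    have h := h3 1 z
    rw [one_mul, one_mul, h1] at h
    linear_combination h
  have hεy : ε y * ε y⁻¹ = 1 := by rw [← map_mul, mul_inv_cancel, map_one]
  have hεx : ε x * ε x⁻¹ = 1 := by rw [← map_mul, mul_inv_cancel, map_one]
  have e1 := h3 x y
  have e2 := h3 y x
  have e3 := hinv (x * y⁻¹)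
  rw [mul_inv_rev, inv_inv, map_mul] at e3
  -- `ε x · ε y⁻¹ · t (y x⁻¹) = t (x y⁻¹)`
  have e4 : ε x * t (y * x⁻¹) = ε y * t (x * y⁻¹) := by
    calc ε x * t (y * x⁻¹) = (ε y * ε y⁻¹) * (ε x * t (y * x⁻¹)) := by rw [hεy, one_mul]
      _ = ε y * (ε x * ε y⁻¹ * t (y * x⁻¹)) := by ring
      _ = ε y * t (x * y⁻¹) := by rw [e3]
  linear_combination e1 - e2 + e4

/-- the Lucas sequence respects congruences in both arguments -/
theorem rtk7uq_lucasS_congr (I : Ideal T) {a a' d d' : T} (ha : a - a' ∈ I) (hd : d - d' ∈ I)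
    (m : ℕ) : lucasS a d m - lucasS a' d' m ∈ I := by
  rw [← Ideal.Quotient.eq, ← RingHom.coe_coe, lucasS_map, lucasS_map]
  rw [RingHom.coe_coe, Ideal.Quotient.eq.mpr ha, Ideal.Quotient.eq.mpr hd]

end pow

section uniq

variable {T : Type*} [CommRing T]

/-- **K7-UNIQ, congruence form.**  `t`, `t'` satisfy the pseudo-character identities with
determinants `ε`, `ε'`, are locally constant modulo the ideal `𝔞`, and `t ≡ t'`, `ε ≡ ε'`
modulo `𝔞` at the Frobenius elements of the primes outside `S`.  Then `t ≡ t'` modulo `𝔞`. -/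
theorem rtk7uq_congr (hcheb : Cheb.WeakChebotarev) (𝔞 : Ideal T) (ε ε' : GQ → T)
    (t t' : GQ → T)
    (h1 : t 1 = 2) (h3 : ∀ x y : GQ, t (x * y) + ε y * t (x * y⁻¹) = t x * t y)
    (h1' : t' 1 = 2) (h3' : ∀ x y : GQ, t' (x * y) + ε' y * t' (x * y⁻¹) = t' x * t' y)
    (hcont : ∃ L : IntermediateField ℚ (AlgebraicClosure ℚ), FiniteDimensional ℚ L ∧
      ∀ g h : GQ, (∀ x ∈ L, g x = h x) → t g - t h ∈ 𝔞)
    (hcont' : ∃ L : IntermediateField ℚ (AlgebraicClosure ℚ), FiniteDimensional ℚ L ∧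
      ∀ g h : GQ, (∀ x ∈ L, g x = h x) → t' g - t' h ∈ 𝔞)
    (S : Finset ℕ)
    (hfrob : ∀ ℓ : ℕ, ℓ.Prime → ℓ ∉ S →
      ∀ 𝔄 : ValuationSubring (AlgebraicClosure ℚ), 𝔄.LiesOverPrime ℓ →
        ∀ τ : GQ, 𝔄.IsFrobeniusAt τ ℓ → t τ - t' τ ∈ 𝔞 ∧ ε τ - ε' τ ∈ 𝔞)
    (g : GQ) : t g - t' g ∈ 𝔞 := by
  obtain ⟨L, hLfin, hL⟩ := hcont
  obtain ⟨L', hLfin', hL'⟩ := hcont'
  obtain ⟨F, hFfin, hFgal, hLF, hLF', -⟩ := exists_galois_hull L L' L
  obtain ⟨ℓ, 𝔄, τ, m, hℓ, hℓS, h𝔄, hτ, hg⟩ := hcheb F S g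
  obtain ⟨hf1, hf2⟩ := hfrob ℓ hℓ hℓS 𝔄 h𝔄 τ hτ
  have e1 : t g - t (τ ^ m) ∈ 𝔞 := hL g (τ ^ m) fun x hx => (hg x (hLF hx)).symm
  have e2 : t' g - t' (τ ^ m) ∈ 𝔞 := hL' g (τ ^ m) fun x hx => (hg x (hLF' hx)).symm
  have e3 : t (τ ^ m) - t' (τ ^ m) ∈ 𝔞 := by
    rw [rtk7uq_pow ε t h1 h3, rtk7uq_pow ε' t' h1' h3']
    exact rtk7uq_lucasS_congr 𝔞 hf1 hf2 m
  have : t g - t' g = (t g - t (τ ^ m)) + (t (τ ^ m) - t' (τ ^ m)) - (t' g - t' (τ ^ m)) := by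
    ring
  rw [this]
  exact sub_mem (add_mem e1 e3) e2

/-- left-invariance under an open subgroup gives local constancy (centrality of `t`) -/
theorem rtk7uq_locConst (𝔞 : Ideal T) (ε : GQ →* T) (t : GQ → T) (h1 : t 1 = 2)
    (h3 : ∀ x y : GQ, t (x * y) + ε y * t (x * y⁻¹) = t x * t y)
    (E : IntermediateField ℚ (AlgebraicClosure ℚ))
    (hE : ∀ σ : GQ, (∀ a ∈ E, σ a = a) → ∀ g, t (σ * g) - t g ∈ 𝔞)
    (g h : GQ) (hgh : ∀ x ∈ E, g x = h x) : t g - t h ∈ 𝔞 := by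
  -- `g = h u`, `u = h⁻¹ g` fixes `E`
  have hu : ∀ a ∈ E, (h⁻¹ * g) a = a := by
    intro a ha
    rw [AlgEquiv.mul_apply, hgh a ha, ← AlgEquiv.mul_apply, inv_mul_cancel, AlgEquiv.one_apply]
  have e : g = h * (h⁻¹ * g) := by group
  have h2 := hE (h⁻¹ * g) hu h
  rw [rtk7uq_central ε t h1 h3 (h⁻¹ * g) h, ← e] at h2
  exact h2

/-- **K7-UNIQ.** -/
theorem stmtK7Uniq : StmtK7Uniq := by
  intro hcheb A _ I S ε t t' h1 h1' h3 h3' hcont hfrob g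
  obtain ⟨E, hEfin, hE⟩ := hcont
  refine rtk7uq_congr hcheb I ε ε t t' h1 h3 h1' h3'
    ⟨E, hEfin, rtk7uq_locConst I ε t h1 h3 E fun σ hσ g => (hE σ hσ g).1⟩
    ⟨E, hEfin, rtk7uq_locConst I ε t' h1' h3' E fun σ hσ g => (hE σ hσ g).2⟩ S ?_ g
  intro ℓ hℓ hℓS 𝔄 h𝔄 τ hτ
  refine ⟨hfrob ℓ hℓ hℓS 𝔄 h𝔄 τ hτ, ?_⟩
  rw [sub_self]
  exact Ideal.zero_mem _

/-- **K7-UNIQ** for pseudo-characters continuous for the `I`-adic topology of an `I`-adically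
separated ring. -/
theorem rtk7uq_eq (hcheb : Cheb.WeakChebotarev) (I : Ideal T) [IsHausdorff I T] (ε : GQ → T)
    (t t' : GQ → T)
    (h1 : t 1 = 2) (h3 : ∀ x y : GQ, t (x * y) + ε y * t (x * y⁻¹) = t x * t y)
    (h1' : t' 1 = 2) (h3' : ∀ x y : GQ, t' (x * y) + ε y * t' (x * y⁻¹) = t' x * t' y)
    (hcont : ∀ k : ℕ, ∃ L : IntermediateField ℚ (AlgebraicClosure ℚ), FiniteDimensional ℚ L ∧
      ∀ g h : GQ, (∀ x ∈ L, g x = h x) → t g - t h ∈ I ^ k)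
    (hcont' : ∀ k : ℕ, ∃ L : IntermediateField ℚ (AlgebraicClosure ℚ), FiniteDimensional ℚ L ∧
      ∀ g h : GQ, (∀ x ∈ L, g x = h x) → t' g - t' h ∈ I ^ k)
    (S : Finset ℕ)
    (hfrob : ∀ ℓ : ℕ, ℓ.Prime → ℓ ∉ S →
      ∀ 𝔄 : ValuationSubring (AlgebraicClosure ℚ), 𝔄.LiesOverPrime ℓ →
        ∀ τ : GQ, 𝔄.IsFrobeniusAt τ ℓ → t τ = t' τ) :
    t = t' := by
  funext g
  rw [← sub_eq_zero]
  apply IsHausdorff.haus (I := I) (M := T) inferInstance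
  intro k
  rw [SModEq.zero, smul_eq_mul, Ideal.mul_top]
  refine rtk7uq_congr hcheb (I ^ k) ε ε t t' h1 h3 h1' h3' (hcont k) (hcont' k) S ?_ g
  intro ℓ hℓ hℓS 𝔄 h𝔄 τ hτ
  rw [hfrob ℓ hℓ hℓS 𝔄 h𝔄 τ hτ, sub_self, sub_self]
  exact ⟨Ideal.zero_mem _, Ideal.zero_mem _⟩

/-- **K7-UNIQ** at finite level: pseudo-characters which factor through finite extensions. -/
theorem rtk7uq_eq_of_finite (hcheb : Cheb.WeakChebotarev) (ε : GQ → T) (t t' : GQ → T)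
    (h1 : t 1 = 2) (h3 : ∀ x y : GQ, t (x * y) + ε y * t (x * y⁻¹) = t x * t y)
    (h1' : t' 1 = 2) (h3' : ∀ x y : GQ, t' (x * y) + ε y * t' (x * y⁻¹) = t' x * t' y)
    (hcont : ∃ L : IntermediateField ℚ (AlgebraicClosure ℚ), FiniteDimensional ℚ L ∧
      ∀ g h : GQ, (∀ x ∈ L, g x = h x) → t g = t h)
    (hcont' : ∃ L : IntermediateField ℚ (AlgebraicClosure ℚ), FiniteDimensional ℚ L ∧
      ∀ g h : GQ, (∀ x ∈ L, g x = h x) → t' g = t' h)
    (S : Finset ℕ)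
    (hfrob : ∀ ℓ : ℕ, ℓ.Prime → ℓ ∉ S →
      ∀ 𝔄 : ValuationSubring (AlgebraicClosure ℚ), 𝔄.LiesOverPrime ℓ →
        ∀ τ : GQ, 𝔄.IsFrobeniusAt τ ℓ → t τ = t' τ) :
    t = t' := by
  funext g
  rw [← sub_eq_zero, ← Ideal.mem_bot]
  obtain ⟨L, hLfin, hL⟩ := hcont
  obtain ⟨L', hLfin', hL'⟩ := hcont'
  refine rtk7uq_congr hcheb ⊥ ε ε t t' h1 h3 h1' h3'
    ⟨L, hLfin, fun g h hgh => by rw [Ideal.mem_bot, sub_eq_zero]; exact hL g h hgh⟩
    ⟨L', hLfin', fun g h hgh => by rw [Ideal.mem_bot, sub_eq_zero]; exact hL' g h hgh⟩ S ?_ g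
  intro ℓ hℓ hℓS 𝔄 h𝔄 τ hτ
  rw [hfrob ℓ hℓ hℓS 𝔄 h𝔄 τ hτ, sub_self, sub_self]
  exact ⟨Ideal.zero_mem _, Ideal.zero_mem _⟩

end uniq

end Fermat.Agent.RT
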