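/-
RT-K7 / K7-MAIN (helper27): the glue.

`StmtK7MainAdic` : the ADIC form of `StmtK7Main` (`A` a complete noetherian local ring with finite
residue field, faithfulness at every precision), and
`stmtK7MainAdic_of : StmtK7GRAFix → StmtK7MainAdic`, `stmtK7Main_of : StmtK7GRAFix → StmtK7Main`.
-/
import Fermat.Agent.RT.K7.PlanMain
import Fermat.Agent.RT.K7.Inst
import Fermat.Agent.RT.K7.Uniq
import Fermat.Agent.RT.K7.Fin

/-!
# K-machine, piece K7-MAIN: the representation over a Hecke ring (glue)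

Sub-captain helper59, `NOTES/RT-K7.md`.

* `rtk7m_mat_pseudo`, `rtk7m_trace_pseudo` : the trace of a `2`-dimensional representation is a
  pseudo-character with determinant `det`.
* `rtk7m_residue_det` : `ε mod 𝔪 = det ρbar` from the action on `μ_p`.
* `rtk7m_cyc` : the congruences `ε σ ≡ a mod pⁿ` of the cyclotomic character (the hypothesis
  `hcyc` of `StmtK7GRAFix`).
* `rtk7m_residue_trace` : `t mod 𝔪 = tr ρbar` (K7-UNIQ).
* `StmtK7MainAdic`, `stmtK7MainAdic_of`, `stmtK7Main_of`.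
-/

set_option autoImplicit false

namespace Fermat.Agent.RT

open Fermat.Agent.ES Fermat.Agent.S30 Fermat.Agent.W1 IsLocalRing

section Aux

/-- the pseudo-character identity for `2 × 2` matrices -/
theorem rtk7m_mat_pseudo {k : Type*} [CommRing k] (X Y Y' : Matrix (Fin 2) (Fin 2) k)
    (h : Y * Y' = 1) :
    (X * Y).trace + Y.det * (X * Y').trace = X.trace * Y.trace := by
  have h1 : Y.adjugate = Y.det • Y' := by
    calc Y.adjugate = Y.adjugate * (Y * Y') := by rw [h, mul_one]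
      _ = (Y.adjugate * Y) * Y' := by rw [mul_assoc]
      _ = Y.det • Y' := by rw [Matrix.adjugate_mul, Matrix.smul_mul, one_mul]
  have h2 : Y.det * (X * Y').trace = (X * Y.adjugate).trace := by
    rw [h1, Matrix.mul_smul, Matrix.trace_smul, smul_eq_mul]
  rw [h2, Matrix.adjugate_fin_two]
  simp only [Matrix.trace_fin_two, Matrix.mul_apply, Fin.sum_univ_two, Matrix.of_apply,
    Matrix.cons_val', Matrix.cons_val_zero, Matrix.cons_val_one, Matrix.cons_val_fin_one]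
  ring

/-- the trace of a `2`-dimensional representation is a pseudo-character -/
theorem rtk7m_trace_pseudo {G k V : Type*} [Group G] [Field k] [AddCommGroup V] [Module k V]
    (hV : Module.finrank k V = 2) (r : G →* Module.End k V) (x y : G) :
    LinearMap.trace k V (r (x * y)) + LinearMap.det (r y) * LinearMap.trace k V (r (x * y⁻¹))
      = LinearMap.trace k V (r x) * LinearMap.trace k V (r y) := by
  classical
  haveI : Module.Finite k V := Module.finite_of_finrank_eq_succ hV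
  let b : Module.Basis (Fin 2) k V := Module.finBasisOfFinrankEq k V hV
  have hyy : LinearMap.toMatrix b b (r y) * LinearMap.toMatrix b b (r y⁻¹) = 1 := by
    rw [← LinearMap.toMatrix_mul, ← map_mul, mul_inv_cancel, map_one]
    exact LinearMap.toMatrix_one b
  have key := rtk7m_mat_pseudo (LinearMap.toMatrix b b (r x)) _ _ hyy
  rw [LinearMap.trace_eq_matrix_trace k b, LinearMap.trace_eq_matrix_trace k b,
    LinearMap.trace_eq_matrix_trace k b, LinearMap.trace_eq_matrix_trace k b,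
    ← LinearMap.det_toMatrix b, map_mul r x y, map_mul r x y⁻¹, LinearMap.toMatrix_mul,
    LinearMap.toMatrix_mul]
  exact key

/-- `Ξ` commutes with ring homomorphisms -/
theorem rtk7m_map_Xi {G R R' : Type*} [Group G] [CommRing R] [CommRing R'] (φ : R →+* R')
    (t : G → R) (c : G) (i2 : R) (x y : G) :
    φ (rtk7Xi t c i2 x y) = rtk7Xi (fun g => φ (t g)) c (φ i2) x y := by
  simp only [rtk7Xi, rtk7A, map_sub, map_mul, map_add]

/-- the trace of Wiles' matrix is `t` -/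
theorem rtk7m_trace_mat {G R : Type*} [Group G] [CommRing R] (t : G → R) (c : G) (i2 : R)
    (hi2 : 2 * i2 = 1) (σ₀ τ₀ : G) (u : R) (g : G) :
    (rtk7Mat t c i2 σ₀ τ₀ u g).trace = t g := by
  rw [rtk7Mat, Matrix.trace_fin_two]
  simp only [Matrix.of_apply, Matrix.cons_val', Matrix.cons_val_zero, Matrix.cons_val_one,
    Matrix.cons_val_fin_one]
  exact rtk7A_add_D t c i2 g hi2

end Aux

section Cyclo

variable {p : ℕ} [Fact p.Prime]

/-- **The congruences of the cyclotomic character** (hypothesis `hcyc` of `StmtK7GRAFix`). -/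
theorem rtk7m_cyc {A : Type*} [CommRing A] (I : Ideal A) [IsAdicComplete I A]
    (hpI : (p : A) ∈ I) (n : ℕ) (σ : GQ) (a : ℕ)
    (h : ∀ μ : AlgebraicClosure ℚ, μ ^ p ^ n = 1 → σ μ = μ ^ a) :
    ((cycloCharO p I hpI σ : Aˣ) : A) - (a : A) ∈ Ideal.span {((p ^ n : ℕ) : A)} := by
  have hpp : p.Prime := Fact.out
  haveI : NeZero ((p ^ n : ℕ) : AlgebraicClosure ℚ) :=
    ⟨Nat.cast_ne_zero.mpr (pow_ne_zero _ hpp.ne_zero)⟩
  obtain ⟨ζ, hζ⟩ := HasEnoughRootsOfUnity.exists_primitiveRoot (AlgebraicClosure ℚ) (p ^ n)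
  have hmod : cycE p n σ ≡ a [MOD p ^ n] := cycE_of_apply p n σ a hζ (h ζ hζ.pow_eq_one)
  have h1 := cycloCharO_sub_cycE p I hpI n σ
  rw [Nat.cast_pow]
  have h2 : ((cycE p n σ : ℕ) : A) - (a : A) ∈ Ideal.span {(p : A) ^ n} := by
    have hdvd : ((p ^ n : ℕ) : ℤ) ∣ (a : ℤ) - (cycE p n σ : ℤ) := (Nat.modEq_iff_dvd).mp hmod
    obtain ⟨d, hd⟩ := hdvd
    rw [Ideal.mem_span_singleton]
    refine ⟨-(d : A), ?_⟩
    have := congrArg (Int.cast : ℤ → A) hd
    push_cast at this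
    linear_combination -this
  have e : ((cycloCharO p I hpI σ : Aˣ) : A) - (a : A)
      = (((cycloCharO p I hpI σ : Aˣ) : A) - ((cycE p n σ : ℕ) : A))
        + (((cycE p n σ : ℕ) : A) - (a : A)) := by ring
  rw [e]
  exact add_mem h1 h2

/-- `ε mod 𝔪 = det ρbar`, from the action on `μ_p`. -/
theorem rtk7m_residue_det {A : Type} [CommRing A] [IsLocalRing A]
    [IsAdicComplete (maximalIdeal A) A] (hpA : (p : A) ∈ maximalIdeal A)
    (ρbar : ResidualGaloisRep (ResidueField A))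
    (hdet : ∀ (σ : GQ) (a : ℕ), (∀ μ : AlgebraicClosure ℚ, μ ^ p = 1 → σ μ = μ ^ a) →
      LinearMap.det (ρbar.ρ σ) = (a : ResidueField A)) (σ : GQ) :
    residue A ((cycloCharO p (maximalIdeal A) hpA σ : Aˣ) : A) = LinearMap.det (ρbar.ρ σ) := by
  obtain ⟨k, hk, hmem⟩ := cycloCharO_spec p (maximalIdeal A) hpA σ 1
  rw [hdet σ k (fun μ hμ => hk μ (by rwa [pow_one]))]
  have h1 : ((cycloCharO p (maximalIdeal A) hpA σ : Aˣ) : A) - (k : A) ∈ maximalIdeal A := by
    have hle : Ideal.span {(p : A) ^ 1} ≤ maximalIdeal A := by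
      rw [Ideal.span_singleton_le_iff_mem, pow_one]
      exact hpA
    exact hle hmem
  have h2 := (residue_eq_zero_iff _).mpr h1
  rw [map_sub, sub_eq_zero, map_natCast] at h2
  exact h2

end Cyclo

section Resid

/-- **`t mod 𝔪 = tr ρbar`** (K7-UNIQ over the residue field). -/
theorem rtk7m_residue_trace (hcheb : Cheb.WeakChebotarev) {A : Type} [CommRing A]
    [IsLocalRing A] (S : Finset ℕ) (ε : GQ →* A) (t : GQ → A)
    (h1 : t 1 = 2) (h3 : ∀ x y, t (x * y) + ε y * t (x * y⁻¹) = t x * t y)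
    (hcont : ∃ E : IntermediateField ℚ (AlgebraicClosure ℚ), FiniteDimensional ℚ E ∧
        ∀ σ : GQ, (∀ a ∈ E, σ a = a) → ∀ g : GQ, t (σ * g) - t g ∈ maximalIdeal A)
    (ρbar : ResidualGaloisRep (ResidueField A))
    (hεdet : ∀ σ, residue A (ε σ) = LinearMap.det (ρbar.ρ σ))
    (hfrob : ∀ ℓ : ℕ, ℓ.Prime → ℓ ∉ S →
      ∀ P : ValuationSubring (AlgebraicClosure ℚ), P.LiesOverPrime ℓ →
        ∀ τ : GQ, P.IsFrobeniusAt τ ℓ →
          residue A (t τ) = LinearMap.trace (ResidueField A) ρbar.V (ρbar.ρ τ)) (σ : GQ) :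
    residue A (t σ) = LinearMap.trace (ResidueField A) ρbar.V (ρbar.ρ σ) := by
  have hh1 : (fun g => residue A (t g)) 1 = 2 := by
    show residue A (t 1) = 2
    rw [h1]
    exact map_ofNat _ 2
  have hh3 : ∀ x y : GQ, (fun g => residue A (t g)) (x * y)
      + (fun g => residue A (ε g)) y * (fun g => residue A (t g)) (x * y⁻¹)
      = (fun g => residue A (t g)) x * (fun g => residue A (t g)) y := by
    intro x y
    show residue A (t (x * y)) + residue A (ε y) * residue A (t (x * y⁻¹))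
      = residue A (t x) * residue A (t y)
    rw [← map_mul, ← map_add, h3, map_mul]
  have hh1' : (fun g => LinearMap.trace (ResidueField A) ρbar.V (ρbar.ρ g)) 1 = 2 := by
    show LinearMap.trace (ResidueField A) ρbar.V (ρbar.ρ 1) = 2
    rw [map_one, LinearMap.trace_one, ρbar.finrank_eq]
    norm_num
  have hh3' : ∀ x y : GQ,
      (fun g => LinearMap.trace (ResidueField A) ρbar.V (ρbar.ρ g)) (x * y)
      + (fun g => residue A (ε g)) y
        * (fun g => LinearMap.trace (ResidueField A) ρbar.V (ρbar.ρ g)) (x * y⁻¹)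
      = (fun g => LinearMap.trace (ResidueField A) ρbar.V (ρbar.ρ g)) x
        * (fun g => LinearMap.trace (ResidueField A) ρbar.V (ρbar.ρ g)) y := by
    intro x y
    show LinearMap.trace (ResidueField A) ρbar.V (ρbar.ρ (x * y))
      + residue A (ε y) * LinearMap.trace (ResidueField A) ρbar.V (ρbar.ρ (x * y⁻¹))
      = LinearMap.trace (ResidueField A) ρbar.V (ρbar.ρ x)
        * LinearMap.trace (ResidueField A) ρbar.V (ρbar.ρ y)
    rw [hεdet]
    exact rtk7m_trace_pseudo ρbar.finrank_eq ρbar.ρ x y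
  have hc1 : ∃ L : IntermediateField ℚ (AlgebraicClosure ℚ), FiniteDimensional ℚ L ∧
      ∀ g h : GQ, (∀ x ∈ L, g x = h x) →
        (fun g => residue A (t g)) g = (fun g => residue A (t g)) h := by
    obtain ⟨E, hEfin, hE⟩ := hcont
    refine ⟨E, hEfin, fun g h hgh => ?_⟩
    have hmem := rtk7uq_locConst (maximalIdeal A) ε t h1 h3 E hE g h hgh
    have h0 := (residue_eq_zero_iff _).mpr hmem
    rw [map_sub, sub_eq_zero] at h0
    exact h0
  have hc2 : ∃ L : IntermediateField ℚ (AlgebraicClosure ℚ), FiniteDimensional ℚ L ∧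
      ∀ g h : GQ, (∀ x ∈ L, g x = h x) →
        (fun g => LinearMap.trace (ResidueField A) ρbar.V (ρbar.ρ g)) g
          = (fun g => LinearMap.trace (ResidueField A) ρbar.V (ρbar.ρ g)) h := by
    obtain ⟨L, hLfin, hker⟩ := ρbar.factorsThroughFiniteLevel
    refine ⟨L, hLfin, fun g h hgh => ?_⟩
    have hu : ∀ a ∈ L, (h⁻¹ * g) a = a := by
      intro a ha
      rw [AlgEquiv.mul_apply, hgh a ha, ← AlgEquiv.mul_apply, inv_mul_cancel,
        AlgEquiv.one_apply]
    have e : ρbar.ρ g = ρbar.ρ h := by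
      calc ρbar.ρ g = ρbar.ρ (h * (h⁻¹ * g)) := by rw [mul_inv_cancel_left]
        _ = ρbar.ρ h * ρbar.ρ (h⁻¹ * g) := map_mul _ _ _
        _ = ρbar.ρ h := by rw [hker _ hu, mul_one]
    show LinearMap.trace (ResidueField A) ρbar.V (ρbar.ρ g)
      = LinearMap.trace (ResidueField A) ρbar.V (ρbar.ρ h)
    rw [e]
  have key := rtk7uq_eq_of_finite hcheb (fun g => residue A (ε g))
    (fun g => residue A (t g))
    (fun g => LinearMap.trace (ResidueField A) ρbar.V (ρbar.ρ g)) hh1 hh3 hh1' hh3' hc1 hc2 S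
    hfrob
  exact congrFun key σ

end Resid

/-- **K7-MAIN, adic form.**  `A` a complete noetherian local ring with finite residue field,
`π : 𝕋 → A` faithful at every precision (`∀ k ∃ n ≥ k, Rtk7bGood p J B π k n`). -/
def StmtK7MainAdic : Prop :=
  Cheb.WeakChebotarev →
  ∀ (p L : ℕ) [Fact p.Prime], p ≠ 2 →
  ∀ (𝕋 : Type) [CommRing 𝕋] (J : Type) [AddCommGroup J] [Module 𝕋 J] [DistribMulAction GQ J]
    (Tr : ℕ → 𝕋), Rtk7bPkg p L J Tr →
  ∀ (S : Finset ℕ), (∀ r : ℕ, r.Prime → r ∉ S → ¬ r ∣ L * p) →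
  ∀ (B : Subring 𝕋), (∀ ℓ : ℕ, ℓ.Prime → ℓ ∉ S → Tr ℓ ∈ B) →
  (∀ n : ℕ, ∃ (X : Type) (_ : AddCommGroup X) (_ : Finite X) (act : GQ → X → X),
      (∀ σ x x', act σ (x + x') = act σ x + act σ x') ∧
      (∀ σ τ x, act (σ * τ) x = act σ (act τ x)) ∧
      HasFiniteFlatModel (GaloisRep.ratLocalizedAt p) X act ∧
      ∀ e : GQ →₀ ℤ, (∀ x : X, (e.sum fun g z => z • act g x) = 0) →
        ∀ x : J, p ^ n • x = 0 → (e.sum fun g z => z • g • x) = 0) →
  ∀ (A : Type) [CommRing A] [IsLocalRing A] [IsNoetherianRing A]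
    [IsAdicComplete (maximalIdeal A) A] [Finite (ResidueField A)],
    (p : A) ∈ maximalIdeal A →
  ∀ (i2 : A), 2 * i2 = 1 →
  ∀ (π : 𝕋 →+* A),
    (∀ k : ℕ, ∃ n : ℕ, k ≤ n ∧ Rtk7bGood p J B π k n) →
  ∀ (ρbar : ResidualGaloisRep (ResidueField A)), ρbar.IsIrreducible →
    (∀ (σ : GQ) (a : ℕ), (∀ μ : AlgebraicClosure ℚ, μ ^ p = 1 → σ μ = μ ^ a) →
      LinearMap.det (ρbar.ρ σ) = (a : ResidueField A)) →
    (∀ ℓ : ℕ, ℓ.Prime → ℓ ∉ S →
      ∀ P : ValuationSubring (AlgebraicClosure ℚ), P.LiesOverPrime ℓ →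
        ∀ τ : GQ, P.IsFrobeniusAt τ ℓ →
          residue A (π (Tr ℓ)) = LinearMap.trace (ResidueField A) ρbar.V (ρbar.ρ τ)) →
  ∀ (σ₀ τ₀ : GQ),
    rtk7Xi (fun g => LinearMap.trace (ResidueField A) ρbar.V (ρbar.ρ g)) complexConjugation
      (residue A i2) σ₀ τ₀ ≠ 0 →
  ∃ (t : GQ → A) (u : A) (ρ : GaloisRepAdic A) (b : Module.Basis (Fin 2) A ρ.V),
    u * rtk7Xi t complexConjugation i2 σ₀ τ₀ = 1 ∧
    (∀ g, LinearMap.toMatrix b b (ρ.ρ g) = rtk7Mat t complexConjugation i2 σ₀ τ₀ u g) ∧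
    (∀ g, LinearMap.trace A ρ.V (ρ.ρ g) = t g) ∧
    (∀ ℓ : ℕ, ℓ.Prime → ℓ ∉ S →
      ∀ P : ValuationSubring (AlgebraicClosure ℚ), P.LiesOverPrime ℓ →
        ∀ τ : GQ, P.IsFrobeniusAt τ ℓ → t τ = π (Tr ℓ)) ∧
    (∀ (g : GQ) (h : 𝕋), h ∈ B →
      (∀ n, Rtk7bApprox p J (fun n g => ((cycE p n g : ℕ) : 𝕋)) n g h) → t g = π h) ∧
    (∀ σ : GQ, residue A (t σ) = LinearMap.trace (ResidueField A) ρbar.V (ρbar.ρ σ)) ∧
    ρ.DetIsCyclotomic p ∧
    Rtk7fAnn p (fun g => LinearMap.toMatrix b b (ρ.ρ g)) ∧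
    ρ.IsFlatAt p ∧
    (∀ q : ℕ, q.Prime → ¬ q ∣ L * p → ρ.IsUnramifiedAt q) ∧
    ρ.residual.IsEquiv ρbar

/-- **K7-MAIN, adic form**, from K7-GRA. -/
theorem stmtK7MainAdic_of (hGRA : StmtK7GRAFix) : StmtK7MainAdic := by
  intro hcheb p L _ hp2 𝕋 _ J _ _ _ Tr hP S hgood B hB hmodel A _ _ _ _ _ hpA i2 hi2 π hfaith
    ρbar hirr hdet hfrob σ₀ τ₀ hξ
  have hpp : p.Prime := Fact.out
  obtain ⟨hF, -, -, -, hDc⟩ := stmtK7bInst hcheb p L 𝕋 J Tr hP S hgood B hB
  obtain ⟨t, ht, h1, h2, h3, htfrob, htin, htcont⟩ :=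
    stmtK7bChar hcheb p L 𝕋 J Tr hP S hgood B hB A π (maximalIdeal A) hpA hfaith
  have hc : complexConjugation * complexConjugation = 1 := complexConjugation_mul_self
  have hεc : ((Units.coeHom A).comp (cycloCharO p (maximalIdeal A) hpA)) complexConjugation
      = -1 := cycloCharO_conj p (maximalIdeal A) hpA
  -- `ε mod 𝔪 = det ρbar`
  have hεdet : ∀ σ, residue A (((Units.coeHom A).comp (cycloCharO p (maximalIdeal A) hpA)) σ)
      = LinearMap.det (ρbar.ρ σ) := fun σ => rtk7m_residue_det hpA ρbar hdet σ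
  -- `t mod 𝔪 = tr ρbar`
  have httr : ∀ σ, residue A (t σ) = LinearMap.trace (ResidueField A) ρbar.V (ρbar.ρ σ) := by
    obtain ⟨E, hEfin, hE⟩ := htcont 1
    refine rtk7m_residue_trace hcheb S ((Units.coeHom A).comp (cycloCharO p (maximalIdeal A) hpA))
      t h1 h3 ⟨E, hEfin, fun σ hσ g => ?_⟩ ρbar hεdet ?_
    · have := hE σ hσ g
      rwa [pow_one] at this
    · intro ℓ hℓ hℓS P hPℓ τ hτ
      rw [htfrob ℓ hℓ hℓS P hPℓ τ hτ]
      exact hfrob ℓ hℓ hℓS P hPℓ τ hτ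
  -- the unit
  have hunit : IsUnit (rtk7Xi t complexConjugation i2 σ₀ τ₀) := by
    rw [← residue_ne_zero_iff_isUnit, rtk7m_map_Xi]
    have e : (fun g => residue A (t g))
        = fun g => LinearMap.trace (ResidueField A) ρbar.V (ρbar.ρ g) := funext httr
    rw [e]
    exact hξ
  obtain ⟨u, hu⟩ := hunit.exists_left_inv
  -- K7-GRA
  obtain ⟨ρ, b, hmat, hdetcyc, hresid, htriv⟩ := hGRA p hpp hp2 A hpA ρbar hirr t
    ((Units.coeHom A).comp (cycloCharO p (maximalIdeal A) hpA)) complexConjugation i2 h1 h2 h3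
    hc hεc hi2 (fun n σ a h => rtk7m_cyc (maximalIdeal A) hpA n σ a h) httr hεdet htcont
    σ₀ τ₀ u hu
  have hann : Rtk7fAnn p (fun g => LinearMap.toMatrix b b (ρ.ρ g)) := by
    have e : (fun g => LinearMap.toMatrix b b (ρ.ρ g))
        = rtk7Mat t complexConjugation i2 σ₀ τ₀ u := funext hmat
    rw [e]
    exact rtk7f_ann_of_family hF hpA hfaith
      ((Units.coeHom A).comp (cycloCharO p (maximalIdeal A) hpA)) ht h2 h3 complexConjugation
      hc hεc i2 hi2 σ₀ τ₀ u hu hDc hmodel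
  refine ⟨t, u, ρ, b, hu, hmat, ?_, htfrob, ?_, httr, hdetcyc, hann, rtk7f_isFlatAt p ρ b hann,
    ?_, hresid⟩
  · intro g
    rw [LinearMap.trace_eq_matrix_trace A b, hmat g]
    exact rtk7m_trace_mat t complexConjugation i2 hi2 σ₀ τ₀ u g
  · intro g h hh H
    exact rtk7b_value (maximalIdeal A) hfaith ht hh H
  · intro q hq hqLp P hPq σ hσ
    exact htriv σ (fun g => htin q hq hqLp P hPq σ hσ g)

/-- **K7-MAIN** (finite `A`), from K7-GRA. -/
theorem stmtK7Main_of (hGRA : StmtK7GRAFix) : StmtK7Main := by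
  intro hcheb p L _ hp2 𝕋 _ J _ _ _ Tr hP S hgood B hB hmodel A _ _ _ hpA i2 hi2 π hfaith
    ρbar hirr hdet hfrob σ₀ τ₀ hξ
  haveI : IsAdicComplete (maximalIdeal A) A := rtk7fin_isAdicComplete_of_finite
  haveI : Finite (ResidueField A) := Finite.of_surjective (residue A) residue_surjective
  obtain ⟨n₀, hn₀⟩ := hfaith
  exact stmtK7MainAdic_of hGRA hcheb p L hp2 𝕋 J Tr hP S hgood B hB hmodel A hpA i2 hi2 π
    (rtk7fin_hfaith hn₀) ρbar hirr hdet hfrob σ₀ τ₀ hξ

end Fermat.Agent.RT
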