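/-
RT-K7 / K7-MAIN (helper27): the unconditional forms.
-/
import Fermat.Agent.RT.K7.Main
import Fermat.Agent.RT.K7.GRA

/-!
# K-machine, piece K7-MAIN: unconditional forms

`stmtK7MainAdic : StmtK7MainAdic`, `stmtK7Main : StmtK7Main` (with `stmtK7GRAFix`).
Consumers discharge weak Chebotarev with `Cheb.weakChebotarev_holds` (`Cheb/Final.lean`).
-/

set_option autoImplicit false

namespace Fermat.Agent.RT

/-- **K7-MAIN, adic form.** -/
theorem stmtK7MainAdic : StmtK7MainAdic := stmtK7MainAdic_of stmtK7GRAFix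

/-- **K7-MAIN.** -/
theorem stmtK7Main : StmtK7Main := stmtK7Main_of stmtK7GRAFix

end Fermat.Agent.RT
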