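import Mathlib
import Fermat.Agent.S36.WilesRing

/-!
# K-machine, piece K7a: Wiles' lemma over a commutative ring

`R` a commutative ring in which `2` is invertible (`2 * i2 = 1`), `G` a group, `ε : G →* R`,
`t : G → R` a two-dimensional pseudo-character with determinant `ε`
(`t 1 = 2`, `t (x y) = t (y x)`, `t (x y) + ε y · t (x y⁻¹) = t x · t y`) and `c ∈ G` with
`c² = 1`, `ε c = -1`.  With

  `a x = (t x + t (x c)) / 2`,  `d x = (t x − t (x c)) / 2`,  `ξ x y = a (x y) − a x · a y`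

the triple `(a, d, ξ)` satisfies the identities of the entries of a `2 × 2` representation
(`rtk7_pseudoRep`), and if `ξ σ₀ τ₀` is invertible (`u · ξ σ₀ τ₀ = 1`) then

  `ρ x = !![a x, ξ x τ₀ · u; ξ σ₀ x, d x]`

is a representation `G →* M₂(R)` with trace `t` and determinant `ε` (`rtk7_exists_rep`).
No field, no domain, no reducedness: this is the form needed for the local Hecke rings `T_Q`.

The Cayley–Hamilton algebra is `End_R` of the space of functions `f` on `G` with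
`f (x σ y) + ε σ · f (x σ⁻¹ y) = t σ · f (x y)` (it contains `t`), `G` acting by right
translation; the block identities are those of `Fermat.Agent.S36.S36CH`.
-/

set_option autoImplicit false
set_option linter.unusedSectionVars false
set_option linter.unusedSimpArgs false

namespace Fermat.Agent.RT

open Fermat.Agent.S36 Matrix

section Space

variable {G R : Type*} [Group G] [CommRing R]

/-- The space of functions `f` on `G` with `f(xσy) + ε(σ) f(xσ⁻¹y) = t(σ) f(xy)`. -/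
def rtk7Space (ε : G →* R) (t : G → R) : Submodule R (G → R) where
  carrier := {f | ∀ σ x y, f (x * σ * y) + ε σ * f (x * σ⁻¹ * y) = t σ * f (x * y)}
  add_mem' := by
    intro f g hf hg σ x y
    simp only [Pi.add_apply]
    linear_combination hf σ x y + hg σ x y
  zero_mem' := by
    intro σ x y
    simp
  smul_mem' := by
    intro a f hf σ x y
    simp only [Pi.smul_apply, smul_eq_mul]
    linear_combination a * hf σ x y

theorem rtk7_self_mem {ε : G →* R} {t : G → R} (h2 : ∀ x y, t (x * y) = t (y * x))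
    (h3 : ∀ x y, t (x * y) + ε y * t (x * y⁻¹) = t x * t y) : t ∈ rtk7Space ε t := by
  intro σ x y
  have e1 : t (x * σ * y) = t (y * x * σ) := by rw [h2, mul_assoc]
  have e2 : t (x * σ⁻¹ * y) = t (y * x * σ⁻¹) := by rw [h2, mul_assoc]
  rw [e1, e2, h3, h2 y x, mul_comm]

/-- right translation on `rtk7Space` -/
def rtk7Transl (ε : G →* R) (t : G → R) (σ : G) : rtk7Space ε t →ₗ[R] rtk7Space ε t where
  toFun f := ⟨fun x => f.1 (x * σ), by
    intro τ x y
    have := f.2 τ x (y * σ)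
    simpa only [mul_assoc] using this⟩
  map_add' f g := by
    apply Subtype.ext; funext x; rfl
  map_smul' a f := by
    apply Subtype.ext; funext x; rfl

@[simp] theorem rtk7Transl_apply (ε : G →* R) (t : G → R) (σ : G) (f : rtk7Space ε t) (x : G) :
    (rtk7Transl ε t σ f).1 x = f.1 (x * σ) := rfl

/-- the action of `G` on `rtk7Space` by right translation -/
def rtk7Rep (ε : G →* R) (t : G → R) : G →* Module.End R (rtk7Space ε t) where
  toFun := rtk7Transl ε t
  map_one' := by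
    apply LinearMap.ext; intro f; apply Subtype.ext; funext x
    simp only [rtk7Transl_apply, mul_one, Module.End.one_apply]
  map_mul' σ τ := by
    apply LinearMap.ext; intro f; apply Subtype.ext; funext x
    simp only [rtk7Transl_apply, Module.End.mul_apply, mul_assoc]

theorem rtk7Rep_apply (ε : G →* R) (t : G → R) (σ : G) (f : rtk7Space ε t) (x : G) :
    (rtk7Rep ε t σ f).1 x = f.1 (x * σ) := rfl

/-- the Cayley–Hamilton relation holds on `rtk7Space` (by its definition) -/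
theorem rtk7_ch (ε : G →* R) (t : G → R) (c : G) (hc : c * c = 1) (hεc : ε c = -1) :
    S36CH (E := Module.End R (rtk7Space ε t)) (rtk7Rep ε t) ε t c :=
  S36CH.of_exact
    (fun σ => by
      apply LinearMap.ext; intro f; apply Subtype.ext; funext x
      have := f.2 σ x 1
      simp only [mul_one] at this
      simpa [rtk7Rep_apply] using this)
    (fun x y => map_mul ε x y) hc hεc

end Space

section General

variable {G R E : Type*} [Group G] [CommRing R] [Ring E] [Algebra R E]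
  {r : G →* E} {ε : G → R} {t : G → R} {c : G}

theorem rtk7g_eq_of_smul (hP : ∀ k : R, k • s36P r c = 0 → k = 0) {k k' : R}
    (hk : k • s36P r c = k' • s36P r c) : k = k' := by
  have : (k - k') • s36P r c = 0 := by
    rw [sub_smul, hk, sub_self]
  exact sub_eq_zero.mp (hP _ this)

/-- `2 Ξ(x,y) Ξ(u,v) = 2 Ξ'(y,u) Ξ(x,v)` -/
theorem rtk7g_xi_swap (h : S36CH r ε t c) (hP : ∀ k : R, k • s36P r c = 0 → k = 0)
    (x y u v : G) :
    s36Xi t c x y * s36Xi t c u v * 2 = 2 * s36Xi' t c y u * s36Xi t c x v := by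
  have e1 : (s36P r c * r x * s36Q r c * r y * s36P r c)
        * (s36P r c * r u * s36Q r c * r v * s36P r c)
      = (2 : R) • (s36P r c * r x * (s36Q r c * r y * s36P r c * r u * s36Q r c) * r v
          * s36P r c) := by
    have : (s36P r c * r x * s36Q r c * r y * s36P r c)
          * (s36P r c * r u * s36Q r c * r v * s36P r c)
        = s36P r c * r x * s36Q r c * r y * (s36P r c * s36P r c) * r u * s36Q r c * r v
            * s36P r c := by simp only [mul_assoc]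
    rw [this, h.PP]
    simp only [mul_assoc, mul_smul_comm, smul_mul_assoc]
  rw [h.PxQyP, h.PxQyP, h.QxPyQ, smul_mul_smul_comm, h.PP, mul_smul_comm,
    smul_mul_assoc, smul_mul_assoc, h.PxQyP, smul_smul, smul_smul, smul_smul] at e1
  exact rtk7g_eq_of_smul hP e1

/-- `2 Ξ(xy, v) = A(x) Ξ(y,v) + Ξ(x,v) D(y)` -/
theorem rtk7g_xi_mul_left (h : S36CH r ε t c) (hP : ∀ k : R, k • s36P r c = 0 → k = 0)
    (x y v : G) :
    2 * s36Xi t c (x * y) v = s36A t c x * s36Xi t c y v + s36Xi t c x v * s36D t c y := by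
  have e1 : (2 : R) • (s36P r c * r (x * y) * s36Q r c * r v * s36P r c)
      = (s36P r c * r x * s36P r c) * r y * s36Q r c * r v * s36P r c
        + s36P r c * r x * (s36Q r c * r y * s36Q r c) * r v * s36P r c := by
    rw [map_mul]
    have : (2 : R) • (s36P r c * (r x * r y) * s36Q r c * r v * s36P r c)
        = s36P r c * r x * ((2 : R) • (1 : E)) * r y * s36Q r c * r v * s36P r c := by
      simp only [mul_assoc, mul_smul_comm, smul_mul_assoc, one_mul]
    rw [this, ← S36CH.P_add_Q (r := r) (c := c)]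
    simp only [mul_add, add_mul, mul_assoc]
  rw [h.PxQyP, h.PxP, h.QxQ, smul_mul_assoc, smul_mul_assoc, smul_mul_assoc, smul_mul_assoc,
    h.PxQyP, mul_smul_comm, smul_mul_assoc, smul_mul_assoc, h.PxQyP, smul_smul, smul_smul,
    smul_smul, ← add_smul] at e1
  have := rtk7g_eq_of_smul hP e1
  linear_combination this

/-- `2 Ξ(u, xy) = Ξ(u,x) A(y) + D(x) Ξ(u,y)` -/
theorem rtk7g_xi_mul_right (h : S36CH r ε t c) (hP : ∀ k : R, k • s36P r c = 0 → k = 0)
    (u x y : G) :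
    2 * s36Xi t c u (x * y) = s36Xi t c u x * s36A t c y + s36D t c x * s36Xi t c u y := by
  have e1 : (2 : R) • (s36P r c * r u * s36Q r c * r (x * y) * s36P r c)
      = (s36P r c * r u * s36Q r c * r x * s36P r c) * r y * s36P r c
        + s36P r c * r u * (s36Q r c * r x * s36Q r c) * r y * s36P r c := by
    rw [map_mul]
    have : (2 : R) • (s36P r c * r u * s36Q r c * (r x * r y) * s36P r c)
        = s36P r c * r u * s36Q r c * r x * ((2 : R) • (1 : E)) * r y * s36P r c := by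
      simp only [mul_assoc, mul_smul_comm, smul_mul_assoc, one_mul]
    rw [this, ← S36CH.P_add_Q (r := r) (c := c)]
    simp only [mul_add, add_mul, mul_assoc]
  rw [h.PxQyP, h.PxQyP, h.QxQ, smul_mul_assoc, smul_mul_assoc, mul_smul_comm,
    smul_mul_assoc, smul_mul_assoc, h.PxP, h.PxQyP, smul_smul, smul_smul, smul_smul,
    ← add_smul] at e1
  have := rtk7g_eq_of_smul hP e1
  linear_combination this

/-- `A(x²) = t(x) A(x) − 2 ε(x)` -/
theorem rtk7g_A_sq (h : S36CH r ε t c) (hP : ∀ k : R, k • s36P r c = 0 → k = 0) (x : G) :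
    s36A t c (x * x) = t x * s36A t c x - 2 * ε x := by
  have hquad : r x * r x - t x • r x + ε x • (1 : E) = 0 := by
    have := congrArg (fun z => r x * z) (h.ch x)
    simp only [mul_add, mul_smul_comm, mul_one, ← map_mul, mul_inv_cancel, map_one] at this
    rw [map_mul] at this
    linear_combination (norm := module) this
  have e1 : s36P r c * (r x * r x - t x • r x + ε x • (1 : E)) * s36P r c = 0 := by
    rw [hquad, mul_zero, zero_mul]
  rw [mul_add, mul_sub, add_mul, sub_mul, mul_smul_comm, mul_smul_comm, smul_mul_assoc,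
    smul_mul_assoc, mul_one, h.PP, ← map_mul, h.PxP, h.PxP, smul_smul,
    smul_smul, ← sub_smul, ← add_smul] at e1
  have := hP _ e1
  linear_combination this

end General

section Identities

variable {G R : Type*} [Group G] [CommRing R] (ε : G →* R) (t : G → R) (c : G)
  (h1 : t 1 = 2) (h2 : ∀ x y, t (x * y) = t (y * x))
  (h3 : ∀ x y, t (x * y) + ε y * t (x * y⁻¹) = t x * t y)
  (hc : c * c = 1) (hεc : ε c = -1) (i2 : R) (hi2 : 2 * i2 = 1)

include h1 h2 h3 hi2 in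
/-- `s36P` acts faithfully: evaluate on `t` at `1`. -/
theorem rtk7_P_faithful (htc : t c = 0) {k : R}
    (hk : k • s36P (E := Module.End R (rtk7Space ε t)) (rtk7Rep ε t) c = 0) : k = 0 := by
  have := congrArg (fun φ : Module.End R (rtk7Space ε t) => (φ ⟨t, rtk7_self_mem h2 h3⟩).1 1) hk
  simp only [s36P, smul_add, LinearMap.add_apply, LinearMap.smul_apply, Module.End.one_apply,
    LinearMap.zero_apply, Submodule.coe_add, Submodule.coe_smul, Pi.add_apply, Pi.smul_apply,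
    smul_eq_mul, rtk7Rep_apply, one_mul, Submodule.coe_zero, Pi.zero_apply, h1, htc, mul_zero,
    add_zero] at this
  linear_combination i2 * this - k * hi2

include h1 h2 h3 hi2 in
/-- `s36Q` acts faithfully: evaluate on `t` at `1`. -/
theorem rtk7_Q_faithful (htc : t c = 0) {k : R}
    (hk : k • s36Q (E := Module.End R (rtk7Space ε t)) (rtk7Rep ε t) c = 0) : k = 0 := by
  have := congrArg (fun φ : Module.End R (rtk7Space ε t) => (φ ⟨t, rtk7_self_mem h2 h3⟩).1 1) hk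
  simp only [s36Q, smul_sub, LinearMap.sub_apply, LinearMap.smul_apply, Module.End.one_apply,
    LinearMap.zero_apply, Submodule.coe_sub, Submodule.coe_smul, Pi.sub_apply, Pi.smul_apply,
    smul_eq_mul, rtk7Rep_apply, one_mul, Submodule.coe_zero, Pi.zero_apply, h1, htc, mul_zero,
    sub_zero] at this
  linear_combination i2 * this - k * hi2

include h1 h3 hc hεc hi2 in
theorem rtk7_t_c : t c = 0 := by
  have hcinv : c⁻¹ = c := inv_eq_of_mul_eq_one_left hc
  have := h3 1 c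
  rw [hcinv, hεc, h1] at this
  simp only [one_mul] at this
  linear_combination -i2 * this - (t c) * hi2

include h2 h3 hc hεc in
/-- `Ξ'(x, y) = Ξ(y, x)` -/
theorem rtk7_xi'_eq (x y : G) : s36Xi' t c x y = s36Xi t c y x := by
  have hcinv : c⁻¹ = c := inv_eq_of_mul_eq_one_left hc
  have hA := h3 x (y * c)
  have hB := h3 (x * c) y
  rw [map_mul, hεc, _root_.mul_inv_rev, hcinv] at hA
  have e1 : t (x * c * y) = t (y * x * c) := by rw [h2, mul_assoc]
  have e2 : t (x * (c * y⁻¹)) = t (x * c * y⁻¹) := by rw [mul_assoc]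
  have e3 : t (x * (y * c)) = t (x * y * c) := by rw [mul_assoc]
  have e4 : t (y * x) = t (x * y) := h2 y x
  rw [e2, e3] at hA
  rw [e1] at hB
  simp only [s36Xi', s36Xi, s36A, s36D]
  linear_combination -2 * hA - 2 * hB - 2 * e4

section E

include h1 h2 h3 hc hεc hi2 in
theorem rtk7_faithful (k : R)
    (hk : k • s36P (E := Module.End R (rtk7Space ε t)) (rtk7Rep ε t) c = 0) : k = 0 :=
  rtk7_P_faithful ε t c h1 h2 h3 i2 hi2 (rtk7_t_c ε t c h1 h3 hc hεc i2 hi2) hk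

include h1 h2 h3 hc hεc hi2 in
/-- `Ξ(x,y) Ξ(u,v) = Ξ(x,v) Ξ(u,y)` -/
theorem rtk7_xi_swap (x y u v : G) :
    s36Xi t c x y * s36Xi t c u v = s36Xi t c x v * s36Xi t c u y := by
  have := rtk7g_xi_swap (rtk7_ch ε t c hc hεc)
    (rtk7_faithful ε t c h1 h2 h3 hc hεc i2 hi2) x y u v
  rw [rtk7_xi'_eq ε t c h2 h3 hc hεc] at this
  linear_combination i2 * this - (s36Xi t c x y * s36Xi t c u v
    - s36Xi t c x v * s36Xi t c u y) * hi2

include h1 h2 h3 hc hεc hi2 in
/-- `2 Ξ(xy, v) = A(x) Ξ(y,v) + Ξ(x,v) D(y)` -/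
theorem rtk7_xi_mul_left (x y v : G) :
    2 * s36Xi t c (x * y) v = s36A t c x * s36Xi t c y v + s36Xi t c x v * s36D t c y :=
  rtk7g_xi_mul_left (rtk7_ch ε t c hc hεc) (rtk7_faithful ε t c h1 h2 h3 hc hεc i2 hi2) x y v

include h1 h2 h3 hc hεc hi2 in
/-- `2 Ξ(u, xy) = Ξ(u,x) A(y) + D(x) Ξ(u,y)` -/
theorem rtk7_xi_mul_right (u x y : G) :
    2 * s36Xi t c u (x * y) = s36Xi t c u x * s36A t c y + s36D t c x * s36Xi t c u y :=
  rtk7g_xi_mul_right (rtk7_ch ε t c hc hεc) (rtk7_faithful ε t c h1 h2 h3 hc hεc i2 hi2) u x y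

include h1 h2 h3 hc hεc hi2 in
/-- `A(x²) = t(x) A(x) − 2 ε(x)` -/
theorem rtk7_A_sq (x : G) :
    s36A t c (x * x) = t x * s36A t c x - 2 * ε x :=
  rtk7g_A_sq (rtk7_ch ε t c hc hεc) (rtk7_faithful ε t c h1 h2 h3 hc hεc i2 hi2) x

end E

end Identities

/-! ### The halved entries and the representation -/

section Rep

variable {G R : Type*} [Group G] [CommRing R]

/-- `a x = (t x + t (x c)) / 2` -/
def rtk7A (t : G → R) (c : G) (i2 : R) (x : G) : R := i2 * (t x + t (x * c))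
/-- `d x = (t x − t (x c)) / 2` -/
def rtk7D (t : G → R) (c : G) (i2 : R) (x : G) : R := i2 * (t x - t (x * c))
/-- `ξ x y = a (x y) − a x · a y` -/
def rtk7Xi (t : G → R) (c : G) (i2 : R) (x y : G) : R :=
  rtk7A t c i2 (x * y) - rtk7A t c i2 x * rtk7A t c i2 y

/-- the matrix `!![a x, ξ x τ₀ · u; ξ σ₀ x, d x]` -/
def rtk7Mat (t : G → R) (c : G) (i2 : R) (σ₀ τ₀ : G) (u : R) (x : G) :
    Matrix (Fin 2) (Fin 2) R :=
  !![rtk7A t c i2 x, rtk7Xi t c i2 x τ₀ * u; rtk7Xi t c i2 σ₀ x, rtk7D t c i2 x]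

variable (ε : G →* R) (t : G → R) (c : G)
  (h1 : t 1 = 2) (h2 : ∀ x y, t (x * y) = t (y * x))
  (h3 : ∀ x y, t (x * y) + ε y * t (x * y⁻¹) = t x * t y)
  (hc : c * c = 1) (hεc : ε c = -1) (i2 : R) (hi2 : 2 * i2 = 1)

theorem rtk7A_eq (x : G) : rtk7A t c i2 x = i2 * s36A t c x := rfl

theorem rtk7D_eq (x : G) : rtk7D t c i2 x = i2 * s36D t c x := rfl

include hi2 in
theorem rtk7Xi_eq (x y : G) : rtk7Xi t c i2 x y = i2 * i2 * s36Xi t c x y := by
  rw [rtk7Xi, rtk7A_eq, rtk7A_eq, rtk7A_eq, s36Xi]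
  linear_combination (-i2 * s36A t c (x * y)) * hi2

theorem rtk7A_add_D (x : G) (hi2 : 2 * i2 = 1) : rtk7A t c i2 x + rtk7D t c i2 x = t x := by
  rw [rtk7A, rtk7D]
  linear_combination (t x) * hi2

include h1 h3 hc hεc hi2 in
theorem rtk7A_one : rtk7A t c i2 1 = 1 := by
  rw [rtk7A, one_mul, h1, rtk7_t_c ε t c h1 h3 hc hεc i2 hi2]
  linear_combination hi2

include h1 h3 hc hεc hi2 in
theorem rtk7D_one : rtk7D t c i2 1 = 1 := by
  rw [rtk7D, one_mul, h1, rtk7_t_c ε t c h1 h3 hc hεc i2 hi2]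
  linear_combination hi2

theorem rtk7A_mul (x y : G) :
    rtk7A t c i2 (x * y) = rtk7A t c i2 x * rtk7A t c i2 y + rtk7Xi t c i2 x y := by
  rw [rtk7Xi]; ring

include h2 h3 hc hεc hi2 in
theorem rtk7D_mul (x y : G) :
    rtk7D t c i2 (x * y) = rtk7D t c i2 x * rtk7D t c i2 y + rtk7Xi t c i2 y x := by
  have e := rtk7_xi'_eq ε t c h2 h3 hc hεc x y
  rw [rtk7Xi_eq t c i2 hi2, rtk7D_eq, rtk7D_eq, rtk7D_eq, ← e, s36Xi']
  linear_combination (-i2 * s36D t c (x * y)) * hi2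

include h1 h2 h3 hc hεc hi2 in
theorem rtk7Xi_swap (x y u v : G) :
    rtk7Xi t c i2 x y * rtk7Xi t c i2 u v = rtk7Xi t c i2 x v * rtk7Xi t c i2 u y := by
  have e := rtk7_xi_swap ε t c h1 h2 h3 hc hεc i2 hi2 x y u v
  simp only [rtk7Xi_eq t c i2 hi2]
  linear_combination (i2 * i2 * i2 * i2) * e

include h1 h2 h3 hc hεc hi2 in
theorem rtk7Xi_mul_left (x y v : G) :
    rtk7Xi t c i2 (x * y) v
      = rtk7A t c i2 x * rtk7Xi t c i2 y v + rtk7Xi t c i2 x v * rtk7D t c i2 y := by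
  have e := rtk7_xi_mul_left ε t c h1 h2 h3 hc hεc i2 hi2 x y v
  simp only [rtk7Xi_eq t c i2 hi2, rtk7A_eq, rtk7D_eq]
  linear_combination (i2 * i2 * i2) * e - (i2 * i2 * s36Xi t c (x * y) v) * hi2

include h1 h2 h3 hc hεc hi2 in
theorem rtk7Xi_mul_right (u x y : G) :
    rtk7Xi t c i2 u (x * y)
      = rtk7Xi t c i2 u x * rtk7A t c i2 y + rtk7D t c i2 x * rtk7Xi t c i2 u y := by
  have e := rtk7_xi_mul_right ε t c h1 h2 h3 hc hεc i2 hi2 u x y
  simp only [rtk7Xi_eq t c i2 hi2, rtk7A_eq, rtk7D_eq]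
  linear_combination (i2 * i2 * i2) * e - (i2 * i2 * s36Xi t c u (x * y)) * hi2

include h1 h2 h3 hc hεc hi2 in
theorem rtk7_det (x : G) :
    rtk7A t c i2 x * rtk7D t c i2 x - rtk7Xi t c i2 x x = ε x := by
  have e := rtk7_A_sq ε t c h1 h2 h3 hc hεc i2 hi2 x
  have e2 := rtk7A_add_D t c i2 x hi2
  rw [rtk7Xi, rtk7A_eq t c i2 (x * x), e]
  rw [rtk7A_eq] at e2 ⊢
  linear_combination (i2 * s36A t c x) * e2 + (ε x) * hi2

include h1 h3 hc hεc hi2 in
theorem rtk7Xi_one_left (v : G) : rtk7Xi t c i2 1 v = 0 := by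
  rw [rtk7Xi, one_mul, rtk7A_one ε t c h1 h3 hc hεc i2 hi2]; ring

include h1 h3 hc hεc hi2 in
theorem rtk7Xi_one_right (u : G) : rtk7Xi t c i2 u 1 = 0 := by
  rw [rtk7Xi, mul_one, rtk7A_one ε t c h1 h3 hc hεc i2 hi2]; ring

variable (σ₀ τ₀ : G) (u : R) (hu : u * rtk7Xi t c i2 σ₀ τ₀ = 1)

include h1 h3 hc hεc hi2 in
theorem rtk7Mat_one : rtk7Mat t c i2 σ₀ τ₀ u 1 = 1 := by
  rw [rtk7Mat, rtk7A_one ε t c h1 h3 hc hεc i2 hi2, rtk7D_one ε t c h1 h3 hc hεc i2 hi2,
    rtk7Xi_one_left ε t c h1 h3 hc hεc i2 hi2, rtk7Xi_one_right ε t c h1 h3 hc hεc i2 hi2,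
    zero_mul]
  exact Matrix.one_fin_two.symm

include h1 h2 h3 hc hεc hi2 hu in
theorem rtk7_xi_base (x y : G) :
    rtk7Xi t c i2 x τ₀ * u * rtk7Xi t c i2 σ₀ y = rtk7Xi t c i2 x y := by
  have e := rtk7Xi_swap ε t c h1 h2 h3 hc hεc i2 hi2 x τ₀ σ₀ y
  linear_combination u * e + (rtk7Xi t c i2 x y) * hu

include h1 h2 h3 hc hεc hi2 hu in
theorem rtk7Mat_mul (x y : G) :
    rtk7Mat t c i2 σ₀ τ₀ u (x * y) = rtk7Mat t c i2 σ₀ τ₀ u x * rtk7Mat t c i2 σ₀ τ₀ u y := by
  rw [rtk7Mat, rtk7Mat, rtk7Mat, Matrix.mul_fin_two]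
  have e00 : rtk7A t c i2 x * rtk7A t c i2 y + rtk7Xi t c i2 x τ₀ * u * rtk7Xi t c i2 σ₀ y
      = rtk7A t c i2 (x * y) := by
    rw [rtk7_xi_base ε t c h1 h2 h3 hc hεc i2 hi2 σ₀ τ₀ u hu, rtk7A_mul]
  have e01 : rtk7A t c i2 x * (rtk7Xi t c i2 y τ₀ * u) + rtk7Xi t c i2 x τ₀ * u * rtk7D t c i2 y
      = rtk7Xi t c i2 (x * y) τ₀ * u := by
    rw [rtk7Xi_mul_left ε t c h1 h2 h3 hc hεc i2 hi2]; ring
  have e10 : rtk7Xi t c i2 σ₀ x * rtk7A t c i2 y + rtk7D t c i2 x * rtk7Xi t c i2 σ₀ y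
      = rtk7Xi t c i2 σ₀ (x * y) := by
    rw [rtk7Xi_mul_right ε t c h1 h2 h3 hc hεc i2 hi2]
  have e11 : rtk7Xi t c i2 σ₀ x * (rtk7Xi t c i2 y τ₀ * u) + rtk7D t c i2 x * rtk7D t c i2 y
      = rtk7D t c i2 (x * y) := by
    have e := rtk7_xi_base ε t c h1 h2 h3 hc hεc i2 hi2 σ₀ τ₀ u hu y x
    rw [rtk7D_mul ε t c h2 h3 hc hεc i2 hi2]
    linear_combination e
  rw [e00, e01, e10, e11]

/-- **Wiles' lemma over a commutative ring**: the representation attached to a
pseudo-character and a base point `(σ₀, τ₀)` with `ξ σ₀ τ₀` invertible. -/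
def rtk7MatRep : G →* Matrix (Fin 2) (Fin 2) R where
  toFun := rtk7Mat t c i2 σ₀ τ₀ u
  map_one' := rtk7Mat_one ε t c h1 h3 hc hεc i2 hi2 σ₀ τ₀ u
  map_mul' := rtk7Mat_mul ε t c h1 h2 h3 hc hεc i2 hi2 σ₀ τ₀ u hu

theorem rtk7MatRep_apply (x : G) :
    rtk7MatRep ε t c h1 h2 h3 hc hεc i2 hi2 σ₀ τ₀ u hu x
      = !![rtk7A t c i2 x, rtk7Xi t c i2 x τ₀ * u; rtk7Xi t c i2 σ₀ x, rtk7D t c i2 x] := rfl

theorem rtk7MatRep_trace (x : G) :
    (rtk7MatRep ε t c h1 h2 h3 hc hεc i2 hi2 σ₀ τ₀ u hu x).trace = t x := by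
  rw [rtk7MatRep_apply, Matrix.trace_fin_two_of, rtk7A_add_D t c i2 x hi2]

theorem rtk7MatRep_det (x : G) :
    (rtk7MatRep ε t c h1 h2 h3 hc hεc i2 hi2 σ₀ τ₀ u hu x).det = ε x := by
  rw [rtk7MatRep_apply, Matrix.det_fin_two_of,
    rtk7_xi_base ε t c h1 h2 h3 hc hεc i2 hi2 σ₀ τ₀ u hu, rtk7_det ε t c h1 h2 h3 hc hεc i2 hi2]

include h1 h2 h3 hc hεc hi2 hu in
/-- **K7a.** Wiles' lemma over a commutative ring, existence form. -/
theorem rtk7_exists_rep :
    ∃ ρ : G →* Matrix (Fin 2) (Fin 2) R,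
      (∀ x, ρ x = !![rtk7A t c i2 x, rtk7Xi t c i2 x τ₀ * u;
                      rtk7Xi t c i2 σ₀ x, rtk7D t c i2 x]) ∧
      (∀ x, (ρ x).trace = t x) ∧ (∀ x, (ρ x).det = ε x) :=
  ⟨rtk7MatRep ε t c h1 h2 h3 hc hεc i2 hi2 σ₀ τ₀ u hu, fun _ => rfl,
    rtk7MatRep_trace ε t c h1 h2 h3 hc hεc i2 hi2 σ₀ τ₀ u hu,
    rtk7MatRep_det ε t c h1 h2 h3 hc hεc i2 hi2 σ₀ τ₀ u hu⟩

end Rep

end Fermat.Agent.RT
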