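import Mathlib
import Fermat.Prelude.Def_GaloisRep_LocalConditions

/-!
# K-machine, piece K7 (the representation over the Hecke ring): interface

Sub-captain helper59, `NOTES/RT-K7.md`.  One `Prop` per piece which is not pure algebra landed
elsewhere in `RT/K7/`.  A piece is DONE when `theorem stmt… : Stmt…` is landed (sorry-free, std
axioms) in its own file `Fermat/Agent/RT/K7/<Name>.lean`.

* `StmtK7U2` (K7-U2, rigidity): unipotency on inertia at `q` is automatic when `q² ≢ 1 mod p`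
  and the residual representation is unipotent on inertia at `q` (for `q = 2`: `p ≥ 5`).
  Proof: the image of inertia is a `p`-group, so `ρ` kills wild inertia and
  `ρ (φ σ φ⁻¹) = ρ σ ^ q`; with `det ρ σ = 1` the trace `t` of `ρ σ` satisfies `P_q(t) = t`
  (`P_q` the `q`-th Dickson polynomial, `P_2 = t² − 2`), `P_q(t) − t = (t − 2) U(t)` with
  `U(2) = q² − 1` a unit, hence `t = 2`.
-/

set_option autoImplicit false

namespace Fermat.Agent.RT

open Polynomial

/-- **K7-U2** (finite coefficients). -/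
def StmtK7U2 : Prop :=
  ∀ (p q : ℕ), p.Prime → q.Prime → q ≠ p → ¬ p ∣ q ^ 2 - 1 →
  ∀ (A : Type) [CommRing A] [IsLocalRing A] [Finite A] (ρ : GaloisRepAdic A),
    ρ.DetIsCyclotomic p →
    (∀ P : ValuationSubring (AlgebraicClosure ℚ), P.LiesOverPrime q →
      ∀ σ ∈ P.inertiaSubgroupIn ℚ, LinearMap.charpoly (ρ.residual.ρ σ) = (X - 1) ^ 2) →
    ρ.IsUnipotentOnInertiaAt q

/-- **K7-U2** (complete coefficients). -/
def StmtK7U2Adic : Prop :=
  ∀ (p q : ℕ), p.Prime → q.Prime → q ≠ p → ¬ p ∣ q ^ 2 - 1 →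
  ∀ (A : Type) [CommRing A] [IsLocalRing A] [IsNoetherianRing A]
    [IsAdicComplete (IsLocalRing.maximalIdeal A) A] [Finite (IsLocalRing.ResidueField A)]
    (ρ : GaloisRepAdic A),
    ρ.DetIsCyclotomic p →
    (∀ P : ValuationSubring (AlgebraicClosure ℚ), P.LiesOverPrime q →
      ∀ σ ∈ P.inertiaSubgroupIn ℚ, LinearMap.charpoly (ρ.residual.ρ σ) = (X - 1) ^ 2) →
    ρ.IsUnipotentOnInertiaAt q

end Fermat.Agent.RT
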