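/-
RT-K7 / K7-U2 (helper86), algebra part: `2 × 2` matrices of determinant `1` over a commutative ring.

* `rtk7u_sq`            : Cayley–Hamilton, `M * M = tr M • M - det M • 1`;
* `rtk7u_trace_pow`     : `det M = 1`, `s = tr M - 2` ⇒ `tr (M ^ m) = 2 + m² s + s² c`;
* `rtk7u_pow_sub_one_in`: `det M = 1`, `tr M - 2 ∈ J`, `p ∈ J` ⇒ `M ^ (p ^ n) ≡ 1 mod J ^ n`;
* `rtk7u_sub_two_mem`   : `(q² - 1)` unit mod `𝔪`, `tr M - 2 ∈ 𝔪`, `tr (M ^ q) - tr M ∈ I` ⇒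
                          `tr M - 2 ∈ I`.
-/
import Mathlib

set_option autoImplicit false

namespace Fermat.Agent.RT

open Matrix

variable {R : Type*} [CommRing R]

/-- all entries of the matrix lie in the ideal `J` -/
def rtk7uIn (J : Ideal R) (E : Matrix (Fin 2) (Fin 2) R) : Prop := ∀ i j, E i j ∈ J

lemma rtk7u_in_mono {J J' : Ideal R} (h : J ≤ J') {E : Matrix (Fin 2) (Fin 2) R}
    (hE : rtk7uIn J E) : rtk7uIn J' E := fun i j => h (hE i j)

lemma rtk7u_in_add {J : Ideal R} {E F : Matrix (Fin 2) (Fin 2) R}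
    (hE : rtk7uIn J E) (hF : rtk7uIn J F) : rtk7uIn J (E + F) := fun i j => by
  rw [Matrix.add_apply]
  exact J.add_mem (hE i j) (hF i j)

lemma rtk7u_in_mul {J J' : Ideal R} {E F : Matrix (Fin 2) (Fin 2) R}
    (hE : rtk7uIn J E) (hF : rtk7uIn J' F) : rtk7uIn (J * J') (E * F) := fun i j => by
  rw [Matrix.mul_apply]
  exact Ideal.sum_mem _ fun k _ => Ideal.mul_mem_mul (hE i k) (hF k j)

lemma rtk7u_in_mul_right {J : Ideal R} {E : Matrix (Fin 2) (Fin 2) R}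
    (hE : rtk7uIn J E) (F : Matrix (Fin 2) (Fin 2) R) : rtk7uIn J (E * F) := fun i j => by
  rw [Matrix.mul_apply]
  exact Ideal.sum_mem _ fun k _ => J.mul_mem_right _ (hE i k)

lemma rtk7u_in_mul_left {J : Ideal R} {E : Matrix (Fin 2) (Fin 2) R}
    (hE : rtk7uIn J E) (F : Matrix (Fin 2) (Fin 2) R) : rtk7uIn J (F * E) := fun i j => by
  rw [Matrix.mul_apply]
  exact Ideal.sum_mem _ fun k _ => J.mul_mem_left _ (hE k j)

lemma rtk7u_in_smul {J J' : Ideal R} {a : R} (ha : a ∈ J) {E : Matrix (Fin 2) (Fin 2) R}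
    (hE : rtk7uIn J' E) : rtk7uIn (J * J') (a • E) := fun i j => by
  rw [Matrix.smul_apply, smul_eq_mul]
  exact Ideal.mul_mem_mul ha (hE i j)

lemma rtk7u_in_smul' {J : Ideal R} {a : R} (ha : a ∈ J) (E : Matrix (Fin 2) (Fin 2) R) :
    rtk7uIn J (a • E) := fun i j => by
  rw [Matrix.smul_apply, smul_eq_mul]
  exact J.mul_mem_right _ ha

/-- entries in `J` iff the reduction mod `J` vanishes -/
lemma rtk7u_in_iff_map (J : Ideal R) (E : Matrix (Fin 2) (Fin 2) R) :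
    rtk7uIn J E ↔ (Ideal.Quotient.mk J).mapMatrix E = 0 := by
  constructor
  · intro h
    ext i j
    rw [RingHom.mapMatrix_apply, Matrix.map_apply, Matrix.zero_apply]
    exact Ideal.Quotient.eq_zero_iff_mem.mpr (h i j)
  · intro h i j
    have := congrFun (congrFun h i) j
    rw [RingHom.mapMatrix_apply, Matrix.map_apply, Matrix.zero_apply] at this
    exact Ideal.Quotient.eq_zero_iff_mem.mp this

/-- the trace of a matrix with entries in `J` lies in `J` -/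
lemma rtk7u_trace_mem {J : Ideal R} {E : Matrix (Fin 2) (Fin 2) R} (hE : rtk7uIn J E) :
    E.trace ∈ J := by
  rw [Matrix.trace_fin_two]
  exact J.add_mem (hE 0 0) (hE 1 1)

/-- **Cayley–Hamilton** for `2 × 2` matrices. -/
lemma rtk7u_sq (M : Matrix (Fin 2) (Fin 2) R) :
    M * M = M.trace • M - M.det • (1 : Matrix (Fin 2) (Fin 2) R) := by
  ext i j
  fin_cases i <;> fin_cases j <;>
    simp [Matrix.mul_apply, Fin.sum_univ_two, Matrix.trace_fin_two, Matrix.det_fin_two] <;> ring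

lemma rtk7u_trace_pow_succ_succ (M : Matrix (Fin 2) (Fin 2) R) (m : ℕ) :
    (M ^ (m + 2)).trace = M.trace * (M ^ (m + 1)).trace - M.det * (M ^ m).trace := by
  have h : M ^ (m + 2) = M.trace • M ^ (m + 1) - M.det • M ^ m := by
    rw [pow_add, pow_two, rtk7u_sq, mul_sub, Matrix.mul_smul, Matrix.mul_smul, mul_one, ← pow_succ]
  rw [h, Matrix.trace_sub, Matrix.trace_smul, Matrix.trace_smul, smul_eq_mul, smul_eq_mul]

/-- `tr (M ^ m) = 2 + m² s + s² c` for `det M = 1`, `s = tr M - 2`. -/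
theorem rtk7u_trace_pow (M : Matrix (Fin 2) (Fin 2) R) (hdet : M.det = 1) (m : ℕ) :
    ∃ c : R, (M ^ m).trace = 2 + (m : R) ^ 2 * (M.trace - 2) + (M.trace - 2) ^ 2 * c := by
  suffices h : ∀ m : ℕ,
      (∃ c : R, (M ^ m).trace = 2 + (m : R) ^ 2 * (M.trace - 2) + (M.trace - 2) ^ 2 * c) ∧
      (∃ c : R, (M ^ (m + 1)).trace =
        2 + ((m + 1 : ℕ) : R) ^ 2 * (M.trace - 2) + (M.trace - 2) ^ 2 * c) from (h m).1
  intro m
  induction m with
  | zero =>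
    refine ⟨⟨0, ?_⟩, ⟨0, ?_⟩⟩
    · rw [pow_zero, Matrix.trace_one, Fintype.card_fin]
      push_cast
      ring
    · rw [zero_add, pow_one]
      push_cast
      ring
  | succ m ih =>
    obtain ⟨⟨c₀, h₀⟩, ⟨c₁, h₁⟩⟩ := ih
    refine ⟨⟨c₁, h₁⟩, ⟨((m + 1 : ℕ) : R) ^ 2 + 2 * c₁ + (M.trace - 2) * c₁ - c₀, ?_⟩⟩
    rw [show m + 1 + 1 = m + 2 from rfl, rtk7u_trace_pow_succ_succ, hdet, h₀, h₁]
    push_cast
    ring

/-- binomial expansion of `(1 + N) ^ p` for a prime `p` -/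
lemma rtk7u_one_add_pow {p : ℕ} (hp : p.Prime) (N : Matrix (Fin 2) (Fin 2) R) :
    ∃ G : Matrix (Fin 2) (Fin 2) R, (1 + N) ^ p - 1 = N ^ p + (p : R) • (N * G) := by
  obtain ⟨r, hr⟩ := (Commute.one_left N).exists_add_pow_prime_eq hp
  refine ⟨r, ?_⟩
  rw [hr, one_pow, mul_one, mul_assoc, ← nsmul_eq_mul, ← Nat.cast_smul_eq_nsmul R]
  abel

/-- `M ≡ 1 mod J ^ i` (`i ≥ 1`), `p ∈ J` ⇒ `M ^ p ≡ 1 mod J ^ (i + 1)` -/
lemma rtk7u_pow_step {p : ℕ} (hp : p.Prime) {J : Ideal R} (hpJ : (p : R) ∈ J) {i : ℕ}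
    (hi : 1 ≤ i) {M : Matrix (Fin 2) (Fin 2) R} (hM : rtk7uIn (J ^ i) (M - 1)) :
    rtk7uIn (J ^ (i + 1)) (M ^ p - 1) := by
  obtain ⟨G, hG⟩ := rtk7u_one_add_pow hp (M - 1)
  rw [add_sub_cancel] at hG
  rw [hG]
  apply rtk7u_in_add
  · obtain ⟨k, rfl⟩ : ∃ k, p = k + 2 := ⟨p - 2, by have := hp.two_le; omega⟩
    have e : (M - 1) ^ (k + 2) = (M - 1) ^ k * ((M - 1) * (M - 1)) := by rw [pow_add, pow_two]
    rw [e]
    apply rtk7u_in_mul_left
    refine rtk7u_in_mono ?_ (rtk7u_in_mul hM hM)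
    rw [← pow_add]
    exact Ideal.pow_le_pow_right (by omega)
  · have := rtk7u_in_smul hpJ (rtk7u_in_mul_right hM G)
    rwa [← pow_succ'] at this

/-- `det M = 1`, `tr M - 2 ∈ J`, `p ∈ J` ⇒ `M ^ p ≡ 1 mod J` -/
lemma rtk7u_pow_base {p : ℕ} (hp : p.Prime) {J : Ideal R} (hpJ : (p : R) ∈ J)
    {M : Matrix (Fin 2) (Fin 2) R} (hdet : M.det = 1) (htr : M.trace - 2 ∈ J) :
    rtk7uIn J (M ^ p - 1) := by
  obtain ⟨G, hG⟩ := rtk7u_one_add_pow hp (M - 1)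
  rw [add_sub_cancel] at hG
  rw [hG]
  have hN : (M - 1) * (M - 1) = (M.trace - 2) • M := by
    have h := rtk7u_sq M
    rw [hdet, one_smul] at h
    rw [sub_mul, mul_sub, h, sub_smul, two_smul, mul_one, one_mul]
    abel
  apply rtk7u_in_add
  · obtain ⟨k, rfl⟩ : ∃ k, p = k + 2 := ⟨p - 2, by have := hp.two_le; omega⟩
    have e : (M - 1) ^ (k + 2) = (M - 1) ^ k * ((M - 1) * (M - 1)) := by rw [pow_add, pow_two]
    rw [e, hN]
    exact rtk7u_in_mul_left (rtk7u_in_smul' htr M) _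
  · exact rtk7u_in_smul' hpJ _

/-- `det M = 1`, `tr M - 2 ∈ J`, `p ∈ J` ⇒ `M ^ (p ^ n) ≡ 1 mod J ^ n`. -/
theorem rtk7u_pow_sub_one_in {p : ℕ} (hp : p.Prime) {J : Ideal R} (hpJ : (p : R) ∈ J)
    {M : Matrix (Fin 2) (Fin 2) R} (hdet : M.det = 1) (htr : M.trace - 2 ∈ J) (n : ℕ) :
    rtk7uIn (J ^ n) (M ^ (p ^ n) - 1) := by
  induction n with
  | zero =>
    intro i j
    rw [pow_zero, Ideal.one_eq_top]
    exact Submodule.mem_top
  | succ n ih =>
    rcases Nat.eq_zero_or_pos n with h0 | hpos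
    · subst h0
      rw [zero_add, pow_one, pow_one]
      exact rtk7u_pow_base hp hpJ hdet htr
    · have e : M ^ p ^ (n + 1) = (M ^ p ^ n) ^ p := by rw [pow_succ, pow_mul]
      rw [e]
      exact rtk7u_pow_step hp hpJ hpos ih

/-- the rigidity computation: if `tr (M ^ q) ≡ tr M mod I`, `det M = 1`, `tr M ≡ 2 mod 𝔪` and
`q² - 1` is a unit, then `tr M ≡ 2 mod I`. -/
theorem rtk7u_sub_two_mem [IsLocalRing R] (q : ℕ) (hq : IsUnit ((q : R) ^ 2 - 1))
    (I : Ideal R) {M : Matrix (Fin 2) (Fin 2) R} (hdet : M.det = 1)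
    (htr : M.trace - 2 ∈ IsLocalRing.maximalIdeal R) (h : (M ^ q).trace - M.trace ∈ I) :
    M.trace - 2 ∈ I := by
  obtain ⟨c, hc⟩ := rtk7u_trace_pow M hdet q
  set s := M.trace - 2 with hs
  have e : (M ^ q).trace - M.trace = s * ((q : R) ^ 2 - 1 + s * c) := by
    rw [hc, hs]; ring
  rw [e] at h
  have hu : IsUnit ((q : R) ^ 2 - 1 + s * c) := by
    by_contra hn
    have h1 : (q : R) ^ 2 - 1 + s * c ∈ IsLocalRing.maximalIdeal R :=
      (IsLocalRing.mem_maximalIdeal _).mpr hn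
    have h2 : s * c ∈ IsLocalRing.maximalIdeal R := Ideal.mul_mem_right _ _ htr
    have h3 : (q : R) ^ 2 - 1 ∈ IsLocalRing.maximalIdeal R := by
      have := Ideal.sub_mem _ h1 h2
      rwa [add_sub_cancel_right] at this
    exact (IsLocalRing.mem_maximalIdeal _).mp h3 hq
  exact (Ideal.mul_unit_mem_iff_mem I hu).mp h

end Fermat.Agent.RT
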