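/-
RT-K7 / K7-U2 (helper86): rigidity of unipotent inertia, `stmtK7U2 : StmtK7U2` and
`stmtK7U2Adic : StmtK7U2Adic` (both from `rtk7u_core`, valid for every noetherian local ring).

`ρ : G_ℚ → GL₂(A)` with cyclotomic determinant, `q ≠ p`, `p ∤ q² - 1`, residually unipotent on the
inertia groups over `q`.  Then for `σ` in an inertia group over `q`:
* `det ρ(σ) = 1` (inertia at `q` fixes the `p`-power roots of unity, `S30.padicCyclo_inertia`);
* modulo `𝔪 ^ n` the image of the local inertia group has exponent `p ^ n`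
  (`rtk7u_pow_sub_one_in`), so it is generated by `g = ρ(t)` with `ρ(φ) g ρ(φ)⁻¹ = g ^ q`
  (`TW.W.stmtTameGen`, tame inertia); hence `tr g ≡ tr (g ^ q)` and `tr g ≡ 2 mod 𝔪 ^ n`
  (`rtk7u_sub_two_mem`), and `tr ρ(x) ≡ tr (g ^ m) ≡ 2 mod 𝔪 ^ n` (`rtk7u_trace_pow`);
* Krull's intersection theorem: `tr ρ(σ) = 2`, so the characteristic polynomial is `(X - 1)²`.
-/
import Fermat.Agent.RT.K7.Plan
import Fermat.Agent.RT.K7.Unip2Alg
import Fermat.Agent.TW.W.StrTame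
import Fermat.Agent.TW.L.FrobExistsFinal
import Fermat.Agent.TW.L.LTw
import Fermat.Agent.TW.S.ConjPlaces
import Fermat.Agent.S30.Cyclo

set_option autoImplicit false
set_option linter.style.haveILetI false

noncomputable section

namespace Fermat.Agent.RT

open Polynomial IsLocalRing
open Fermat.Agent.PT Fermat.Agent.PT.B Fermat.Agent.TW.L

variable {A : Type} [CommRing A] [IsLocalRing A] (ρ : GaloisRepAdic A)

/-- a basis of the free module of rank `2` -/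
def rtk7uBasis : Module.Basis (Fin 2) A ρ.V := Module.finBasisOfFinrankEq A ρ.V ρ.finrank_eq

/-- the matrices of `ρ` in the basis `rtk7uBasis` -/
def rtk7uMat : GQ →* Matrix (Fin 2) (Fin 2) A where
  toFun σ := LinearMap.toMatrix (rtk7uBasis ρ) (rtk7uBasis ρ) (ρ.ρ σ)
  map_one' := by rw [map_one, LinearMap.toMatrix_one]
  map_mul' σ τ := by rw [map_mul, LinearMap.toMatrix_mul]

lemma rtk7u_mat_apply (σ : GQ) :
    rtk7uMat ρ σ = LinearMap.toMatrix (rtk7uBasis ρ) (rtk7uBasis ρ) (ρ.ρ σ) := rfl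

lemma rtk7u_mat_trace (σ : GQ) : (rtk7uMat ρ σ).trace = LinearMap.trace A ρ.V (ρ.ρ σ) :=
  (LinearMap.trace_eq_matrix_trace A (rtk7uBasis ρ) (ρ.ρ σ)).symm

lemma rtk7u_mat_det (σ : GQ) : (rtk7uMat ρ σ).det = LinearMap.det (ρ.ρ σ) :=
  LinearMap.det_toMatrix (rtk7uBasis ρ) (ρ.ρ σ)

lemma rtk7u_mat_charpoly (σ : GQ) : (rtk7uMat ρ σ).charpoly = (ρ.ρ σ).charpoly :=
  LinearMap.charpoly_toMatrix (ρ.ρ σ) (rtk7uBasis ρ)

/-- the trace is invariant under conjugation -/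
lemma rtk7u_mat_trace_conj (g σ : GQ) :
    (rtk7uMat ρ (g * σ * g⁻¹)).trace = (rtk7uMat ρ σ).trace := by
  rw [map_mul, map_mul, Matrix.trace_mul_cycle, ← map_mul, inv_mul_cancel, map_one, one_mul]

/-! ### the determinant on inertia -/

/-- an inertia group over `q ≠ p` fixes the `p`-power roots of unity -/
theorem rtk7u_fix_root {p q : ℕ} (hp : p.Prime) (hq : q.Prime) (hqp : q ≠ p)
    (P : ValuationSubring (AlgebraicClosure ℚ)) (hP : P.LiesOverPrime q) (σ : GQ)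
    (hσ : σ ∈ P.inertiaSubgroupIn ℚ) (n : ℕ) (μ : AlgebraicClosure ℚ) (hμ : μ ^ p ^ n = 1) :
    σ μ = μ ^ 1 := by
  haveI : Fact p.Prime := ⟨hp⟩
  have h1 := Fermat.Agent.S30.padicCyclo_spec p σ n hμ
  rw [Fermat.Agent.S30.padicCyclo_inertia p q hq hqp P hP σ hσ, Units.val_one, map_one,
    ZMod.val_one_eq_one_mod, ← pow_eq_pow_mod 1 hμ] at h1
  exact h1

theorem rtk7u_det_eq_one [IsNoetherianRing A] {p q : ℕ} (hp : p.Prime) (hq : q.Prime)
    (hqp : q ≠ p) (hdet : ρ.DetIsCyclotomic p)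
    (P : ValuationSubring (AlgebraicClosure ℚ)) (hP : P.LiesOverPrime q) (σ : GQ)
    (hσ : σ ∈ P.inertiaSubgroupIn ℚ) : LinearMap.det (ρ.ρ σ) = 1 := by
  have key : ∀ n : ℕ, LinearMap.det (ρ.ρ σ) - 1 ∈ maximalIdeal A ^ n := by
    intro n
    have h := hdet.2 n σ 1 (rtk7u_fix_root hp hq hqp P hP σ hσ n)
    rw [Nat.cast_one] at h
    have hle : Ideal.span {((p ^ n : ℕ) : A)} ≤ maximalIdeal A ^ n := by
      rw [Ideal.span_singleton_le_iff_mem, Nat.cast_pow]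
      exact Ideal.pow_mem_pow hdet.1 n
    exact hle h
  have hbot : (⨅ i : ℕ, maximalIdeal A ^ i) = ⊥ :=
    Ideal.iInf_pow_eq_bot_of_isLocalRing _ Ideal.IsPrime.ne_top'
  have h1 : LinearMap.det (ρ.ρ σ) - 1 ∈ (⨅ i : ℕ, maximalIdeal A ^ i) := (Ideal.mem_iInf).mpr key
  rw [hbot, Ideal.mem_bot, sub_eq_zero] at h1
  exact h1

/-! ### the trace modulo the maximal ideal -/

theorem rtk7u_trace_sub_two_mem (σ : GQ)
    (h : LinearMap.charpoly (ρ.residual.ρ σ) = (X - 1) ^ 2) :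
    (rtk7uMat ρ σ).trace - 2 ∈ maximalIdeal A := by
  have h' : ((ρ.ρ σ).baseChange (ResidueField A)).charpoly = (X - 1) ^ 2 := h
  rw [LinearMap.charpoly_baseChange, ← rtk7u_mat_charpoly, Matrix.charpoly_fin_two] at h'
  have h2 := congrArg (fun P : (ResidueField A)[X] => P.coeff 1) h'
  have e2 : ((X : (ResidueField A)[X]) - 1) ^ 2 = X ^ 2 - C 2 * X + C 1 := by
    rw [map_ofNat, map_one]; ring
  simp only [e2, Polynomial.map_add, Polynomial.map_sub, Polynomial.map_mul, Polynomial.map_pow,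
    Polynomial.map_X, Polynomial.map_C, coeff_add, coeff_sub, coeff_C_mul, coeff_X_pow,
    coeff_X_one, coeff_C_succ, mul_one] at h2
  norm_num at h2
  rw [← residue_eq_zero_iff, map_sub, h2, map_ofNat, sub_self]

/-! ### the level -/

omit [IsLocalRing A] in
lemma rtk7u_repr_mem {V : Type} [AddCommGroup V] [Module A V] (I : Ideal A)
    (b : Module.Basis (Fin 2) A V) {w : V} (hw : w ∈ I • (⊤ : Submodule A V)) (i : Fin 2) :
    b.repr w i ∈ I := by
  refine Submodule.smul_induction_on (p := fun w => b.repr w i ∈ I) hw ?_ ?_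
  · intro a ha v _
    rw [map_smul, Finsupp.smul_apply, smul_eq_mul]
    exact I.mul_mem_right _ ha
  · intro x y hx hy
    rw [map_add, Finsupp.add_apply]
    exact I.add_mem hx hy

lemma rtk7u_level (I : Ideal A) (σ : GQ)
    (h : ∀ v : ρ.V, ρ.ρ σ v - v ∈ I • (⊤ : Submodule A ρ.V)) :
    rtk7uIn I (rtk7uMat ρ σ - 1) := by
  intro i j
  have e : rtk7uMat ρ σ - 1 =
      LinearMap.toMatrix (rtk7uBasis ρ) (rtk7uBasis ρ) (ρ.ρ σ - 1) := by
    rw [map_sub, LinearMap.toMatrix_one, rtk7u_mat_apply]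
  rw [e, LinearMap.toMatrix_apply, LinearMap.sub_apply, Module.End.one_apply]
  exact rtk7u_repr_mem I _ (h _) i

/-! ### units -/

lemma rtk7u_isUnit {p q : ℕ} (hp : p.Prime) (hpq : ¬ p ∣ q ^ 2 - 1)
    (hpm : (p : A) ∈ maximalIdeal A) (hq1 : 1 ≤ q) : IsUnit ((q : A) ^ 2 - 1) := by
  have hcop : Nat.Coprime p (q ^ 2 - 1) := (Nat.Prime.coprime_iff_not_dvd hp).mpr hpq
  have h1 : IsCoprime ((p : ℕ) : ℤ) ((q ^ 2 - 1 : ℕ) : ℤ) := Nat.isCoprime_iff_coprime.mpr hcop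
  obtain ⟨a, b, hab⟩ := h1
  have hab' := congrArg (Int.cast : ℤ → A) hab
  have e : (((q ^ 2 - 1 : ℕ) : ℤ) : A) = (q : A) ^ 2 - 1 := by
    rw [Int.cast_natCast, Nat.cast_sub (Nat.one_le_pow _ _ hq1)]
    push_cast
    ring
  rw [Int.cast_add, Int.cast_mul, Int.cast_mul, Int.cast_natCast, e, Int.cast_one] at hab'
  by_contra hn
  have h3 : (q : A) ^ 2 - 1 ∈ maximalIdeal A := (mem_maximalIdeal _).mpr hn
  have h4 : (1 : A) ∈ maximalIdeal A := by
    rw [← hab']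
    exact Ideal.add_mem _ (Ideal.mul_mem_left _ _ hpm) (Ideal.mul_mem_left _ _ h3)
  exact (Ideal.ne_top_iff_one _).mp (Ideal.IsMaximal.ne_top inferInstance) h4

/-! ### the local computation -/

/-- reduction modulo `𝔪 ^ n` of the matrices of `ρ` on the local inertia group -/
def rtk7uRed (q : ℕ) [Fact q.Prime] (n : ℕ) :
    ↥(inertiaQ q) →* Matrix (Fin 2) (Fin 2) (A ⧸ maximalIdeal A ^ n) :=
  ((Ideal.Quotient.mk (maximalIdeal A ^ n)).mapMatrix (m := Fin 2)).toMonoidHom.comp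
    ((rtk7uMat ρ).comp ((localGaloisToGlobal q).comp (inertiaQ q).subtype))

lemma rtk7u_red_apply (q : ℕ) [Fact q.Prime] (n : ℕ) (y : ↥(inertiaQ q)) :
    rtk7uRed ρ q n y = (Ideal.Quotient.mk (maximalIdeal A ^ n)).mapMatrix
      (rtk7uMat ρ (localGaloisToGlobal q (y : GQq q))) := rfl

lemma rtk7u_trace_cong (n : ℕ) {X Y : Matrix (Fin 2) (Fin 2) A}
    (h : (Ideal.Quotient.mk (maximalIdeal A ^ n)).mapMatrix X =
      (Ideal.Quotient.mk (maximalIdeal A ^ n)).mapMatrix Y) :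
    X.trace - Y.trace ∈ maximalIdeal A ^ n := by
  have h1 := congrArg Matrix.trace h
  rw [RingHom.mapMatrix_apply, RingHom.mapMatrix_apply, ← AddMonoidHom.map_trace,
    ← AddMonoidHom.map_trace] at h1
  exact Ideal.Quotient.eq.mp h1

theorem rtk7u_local {p q : ℕ} [Fact q.Prime] (hp : p.Prime) (hqp : q ≠ p)
    (hpq : ¬ p ∣ q ^ 2 - 1) (hpm : (p : A) ∈ maximalIdeal A)
    (hdet1 : ∀ x ∈ inertiaQ q, (rtk7uMat ρ (localGaloisToGlobal q x)).det = 1)
    (htr : ∀ x ∈ inertiaQ q,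
      (rtk7uMat ρ (localGaloisToGlobal q x)).trace - 2 ∈ maximalIdeal A)
    (x : GQq q) (hx : x ∈ inertiaQ q) (n : ℕ) :
    (rtk7uMat ρ (localGaloisToGlobal q x)).trace - 2 ∈ maximalIdeal A ^ n := by
  have hq : q.Prime := Fact.out
  obtain ⟨L, hL, hLρ⟩ := ρ.isAdicContinuous n
  have hV : L.fixingSubgroup.comap (localGaloisToGlobal q) ∈ (towerLoc q).lev := ⟨L, hL, rfl⟩
  have hcop : Nat.Coprime q (p ^ n) := ((Nat.coprime_primes hq hp).mpr hqp).pow_right n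
  obtain ⟨t, ht⟩ := Fermat.Agent.TW.W.stmtTameGen q (p ^ n) hcop _ hV
  have hexp : ∀ y : ↥(inertiaQ q), rtk7uRed ρ q n y ^ (p ^ n) = 1 := by
    intro y
    have h1 := rtk7u_pow_sub_one_in hp hpm (hdet1 y y.2) (htr y y.2) n
    rw [rtk7u_in_iff_map, map_sub, map_one, sub_eq_zero, map_pow] at h1
    exact h1
  have htriv : ∀ y : ↥(inertiaQ q),
      (y : GQq q) ∈ L.fixingSubgroup.comap (localGaloisToGlobal q) → rtk7uRed ρ q n y = 1 := by
    intro y hy
    have hy' : ∀ z ∈ L, localGaloisToGlobal q (y : GQq q) z = z :=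
      (IntermediateField.mem_fixingSubgroup_iff L _).mp hy
    have h1 := rtk7u_level ρ (maximalIdeal A ^ n) _ (hLρ _ hy')
    rw [rtk7u_in_iff_map, map_sub, map_one, sub_eq_zero] at h1
    exact h1
  obtain ⟨h1, h2⟩ := ht ↥((rtk7uRed ρ q n).toHomUnits.range)
    (rtk7uRed ρ q n).toHomUnits.rangeRestrict
    (by
      rintro ⟨a, y, rfl⟩
      refine Subtype.ext (Units.ext ?_)
      simpa using hexp y)
    (by
      intro y hy
      refine Subtype.ext (Units.ext ?_)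
      simpa using htriv y hy)
  -- the generator
  set g : Matrix (Fin 2) (Fin 2) A := rtk7uMat ρ (localGaloisToGlobal q (t : GQq q)) with hg
  have hgdet : g.det = 1 := hdet1 t t.2
  have hgtr : g.trace - 2 ∈ maximalIdeal A := htr t t.2
  obtain ⟨φ, hφ⟩ := stmtFrobExists q
  have hmem : φ * (t : GQq q) * φ⁻¹ ∈ inertiaQ q := ltw_conj_mem_inertiaQ φ t.2
  have h3 := congrArg (fun z : ↥((rtk7uRed ρ q n).toHomUnits.range) =>
    (((z : (Matrix (Fin 2) (Fin 2) (A ⧸ maximalIdeal A ^ n))ˣ)) :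
      Matrix (Fin 2) (Fin 2) (A ⧸ maximalIdeal A ^ n))) (h2 φ hφ hmem)
  have h3' : rtk7uRed ρ q n ⟨φ * (t : GQq q) * φ⁻¹, hmem⟩ = rtk7uRed ρ q n t ^ q := by
    simpa using h3
  have h4 : (Ideal.Quotient.mk (maximalIdeal A ^ n)).mapMatrix
      (rtk7uMat ρ (localGaloisToGlobal q (φ * (t : GQq q) * φ⁻¹))) =
      (Ideal.Quotient.mk (maximalIdeal A ^ n)).mapMatrix (g ^ q) := by
    rw [map_pow]
    exact h3'
  have h5 := rtk7u_trace_cong n h4
  have e5 : localGaloisToGlobal q (φ * (t : GQq q) * φ⁻¹) =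
      localGaloisToGlobal q φ * localGaloisToGlobal q (t : GQq q) *
        (localGaloisToGlobal q φ)⁻¹ := by
    rw [map_mul, map_mul, map_inv]
  rw [e5, rtk7u_mat_trace_conj] at h5
  have hs : g.trace - 2 ∈ maximalIdeal A ^ n := by
    apply rtk7u_sub_two_mem q (rtk7u_isUnit hp hpq hpm hq.one_le) _ hgdet hgtr
    have := Ideal.neg_mem_iff (maximalIdeal A ^ n) |>.mpr h5
    rwa [neg_sub] at this
  -- a general element
  obtain ⟨m, hm⟩ := h1 ⟨x, hx⟩
  have h6 := congrArg (fun z : ↥((rtk7uRed ρ q n).toHomUnits.range) =>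
    (((z : (Matrix (Fin 2) (Fin 2) (A ⧸ maximalIdeal A ^ n))ˣ)) :
      Matrix (Fin 2) (Fin 2) (A ⧸ maximalIdeal A ^ n))) hm
  have h6' : rtk7uRed ρ q n ⟨x, hx⟩ = rtk7uRed ρ q n t ^ m := by
    simpa using h6
  have h7 : (Ideal.Quotient.mk (maximalIdeal A ^ n)).mapMatrix
      (rtk7uMat ρ (localGaloisToGlobal q x)) =
      (Ideal.Quotient.mk (maximalIdeal A ^ n)).mapMatrix (g ^ m) := by
    rw [map_pow]
    exact h6'
  have h8 := rtk7u_trace_cong n h7
  obtain ⟨c, hc⟩ := rtk7u_trace_pow g hgdet m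
  have h9 : (g ^ m).trace - 2 ∈ maximalIdeal A ^ n := by
    have e : (g ^ m).trace - 2 = (g.trace - 2) * ((m : A) ^ 2 + (g.trace - 2) * c) := by
      rw [hc]; ring
    rw [e]
    exact Ideal.mul_mem_right _ _ hs
  have := Ideal.add_mem _ h8 h9
  rwa [sub_add_sub_cancel] at this

/-! ### the theorem -/

/-- **K7-U2** over an arbitrary noetherian local ring. -/
theorem rtk7u_core [IsNoetherianRing A] {p q : ℕ} (hp : p.Prime) (hq : q.Prime) (hqp : q ≠ p)
    (hpq : ¬ p ∣ q ^ 2 - 1) (hdet : ρ.DetIsCyclotomic p)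
    (hres : ∀ P : ValuationSubring (AlgebraicClosure ℚ), P.LiesOverPrime q →
      ∀ σ ∈ P.inertiaSubgroupIn ℚ, LinearMap.charpoly (ρ.residual.ρ σ) = (X - 1) ^ 2) :
    ρ.IsUnipotentOnInertiaAt q := by
  haveI : Fact q.Prime := ⟨hq⟩
  intro P hP σ hσ
  have hd : (rtk7uMat ρ σ).det = 1 := by
    rw [rtk7u_mat_det]
    exact rtk7u_det_eq_one ρ hp hq hqp hdet P hP σ hσ
  obtain ⟨g, hg⟩ := Fermat.Agent.TW.S.sconjp_exists_smul_eq q hq P (padicPlace q) hP
    (lfrobex_liesOverPrime q)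
  have h1 : g * σ * g⁻¹ ∈ (padicPlace q).inertiaSubgroupIn ℚ := by
    rw [← hg]
    exact conj_mem_inertiaSubgroupIn P g σ hσ
  obtain ⟨τ, hτ⟩ := stmtDecFull q _ ((mem_inertiaSubgroupIn_iff _ _).mp h1).1
  have hτI : τ ∈ inertiaQ q := by
    rw [mem_inertiaQ, hτ]
    exact h1
  have key : ∀ n, (rtk7uMat ρ (localGaloisToGlobal q τ)).trace - 2 ∈ maximalIdeal A ^ n :=
    rtk7u_local ρ hp hqp hpq hdet.1
      (fun y hy => by
        rw [rtk7u_mat_det]
        exact rtk7u_det_eq_one ρ hp hq hqp hdet _ (lfrobex_liesOverPrime q) _ hy)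
      (fun y hy => rtk7u_trace_sub_two_mem ρ _ (hres _ (lfrobex_liesOverPrime q) _ hy))
      τ hτI
  have hbot : (⨅ i : ℕ, maximalIdeal A ^ i) = ⊥ :=
    Ideal.iInf_pow_eq_bot_of_isLocalRing _ Ideal.IsPrime.ne_top'
  have h2 : (rtk7uMat ρ (localGaloisToGlobal q τ)).trace - 2 ∈ (⨅ i : ℕ, maximalIdeal A ^ i) :=
    (Ideal.mem_iInf).mpr key
  rw [hbot, Ideal.mem_bot, sub_eq_zero, hτ, rtk7u_mat_trace_conj] at h2
  rw [← rtk7u_mat_charpoly, Matrix.charpoly_fin_two, hd, h2, map_ofNat, map_one]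
  ring

/-- **K7-U2** (finite coefficients). -/
theorem stmtK7U2 : StmtK7U2 := by
  intro p q hp hq hqp hpq A _ _ _ ρ hdet hres
  exact rtk7u_core ρ hp hq hqp hpq hdet hres

/-- **K7-U2** (complete coefficients). -/
theorem stmtK7U2Adic : StmtK7U2Adic := by
  intro p q hp hq hqp hpq A _ _ _ _ _ ρ hdet hres
  exact rtk7u_core ρ hp hq hqp hpq hdet hres

end Fermat.Agent.RT
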