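import Fermat.Agent.RT.K7.WilesBase

/-!
# K-machine, piece K7-GRA, algebra: a Cayley–Hamilton module with a unit `ξ(σ₀, τ₀)` is the
standard module of Wiles' matrices

`k` a commutative ring with `2 ∈ kˣ`, `V` a `k`-module, `r : G →* End_k V` with the
Cayley–Hamilton datum `S36CH r ε t c` and `u · ξ(σ₀, τ₀) = 1`.  For `v₀ ∈ V` put
`e₊ = P v₀`, `e₋ = (u / 2) · Q r(τ₀) P v₀` (`P = 1 + r c`, `Q = 1 − r c`).  Then
`r g e₊ = a(g) e₊ + ξ(σ₀, g) e₋`, `r g e₋ = ξ(g, τ₀) u e₊ + d(g) e₋`: the map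
`Φ : k² → V`, `x ↦ x₀ e₊ + x₁ e₋` intertwines `rtk7Mat t c i2 σ₀ τ₀ u g` with `r g`
(`rtk7g2_intertwine`).  Over a field, with `dim V = 2`, `Φ` is an isomorphism for a suitable `v₀`
(`rtk7g_exists_equiv` in `RT/K7/GRA.lean`).
-/

set_option autoImplicit false
set_option linter.unusedSectionVars false

namespace Fermat.Agent.RT

open Fermat.Agent.S36 Matrix

section Ops

variable {G R E : Type*} [Group G] [CommRing R] [Ring E] [Algebra R E]
  {r : G →* E} {ε t : G → R} {c : G}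

/-- `Ξ'(τ₀, σ₀) • Q r(g) P = Ξ(σ₀, g) • Q r(τ₀) P` -/
theorem rtk7g2_QgP (h : S36CH r ε t c) (σ₀ τ₀ g : G) :
    s36Xi' t c τ₀ σ₀ • (s36Q r c * r g * s36P r c)
      = s36Xi t c σ₀ g • (s36Q r c * r τ₀ * s36P r c) := by
  have h1 := h.QxPyQ τ₀ σ₀
  have h2 := h.PxQyP σ₀ g
  calc s36Xi' t c τ₀ σ₀ • (s36Q r c * r g * s36P r c)
      = (s36Xi' t c τ₀ σ₀ • s36Q r c) * r g * s36P r c := by
        simp only [smul_mul_assoc]
    _ = (s36Q r c * r τ₀ * s36P r c * r σ₀ * s36Q r c) * r g * s36P r c := by rw [h1]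
    _ = s36Q r c * r τ₀ * (s36P r c * r σ₀ * s36Q r c * r g * s36P r c) := by
        simp only [mul_assoc]
    _ = s36Q r c * r τ₀ * (s36Xi t c σ₀ g • s36P r c) := by rw [h2]
    _ = s36Xi t c σ₀ g • (s36Q r c * r τ₀ * s36P r c) := by
        simp only [mul_smul_comm]

/-- `2 r(g) P = A(g) P + Q r(g) P` -/
theorem rtk7g2_gP (h : S36CH r ε t c) (g : G) :
    (2 : R) • (r g * s36P r c) = s36A t c g • s36P r c + s36Q r c * r g * s36P r c := by
  have h1 := h.PxP g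
  have h2 : (2 : R) • (r g * s36P r c) = (s36P r c + s36Q r c) * (r g * s36P r c) := by
    rw [S36CH.P_add_Q (R := R) (r := r) (c := c), smul_mul_assoc, one_mul]
  rw [h2, add_mul, ← mul_assoc, ← mul_assoc, h1]

/-- `2 r(g) (Q r(τ₀) P) = Ξ(g, τ₀) P + D(g) Q r(τ₀) P` -/
theorem rtk7g2_gQ (h : S36CH r ε t c) (τ₀ g : G) :
    (2 : R) • (r g * (s36Q r c * r τ₀ * s36P r c))
      = s36Xi t c g τ₀ • s36P r c + s36D t c g • (s36Q r c * r τ₀ * s36P r c) := by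
  have h1 := h.PxQyP g τ₀
  have h2 := h.QxQ g
  have h3 : (2 : R) • (r g * (s36Q r c * r τ₀ * s36P r c))
      = (s36P r c + s36Q r c) * (r g * (s36Q r c * r τ₀ * s36P r c)) := by
    rw [S36CH.P_add_Q (R := R) (r := r) (c := c), smul_mul_assoc, one_mul]
  have h4 : s36P r c * (r g * (s36Q r c * r τ₀ * s36P r c))
      = s36P r c * r g * s36Q r c * r τ₀ * s36P r c := by simp only [mul_assoc]
  have h5 : s36Q r c * (r g * (s36Q r c * r τ₀ * s36P r c))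
      = (s36Q r c * r g * s36Q r c) * r τ₀ * s36P r c := by simp only [mul_assoc]
  rw [h3, add_mul, h4, h5, h1, h2]
  simp only [smul_mul_assoc]

end Ops

section Vec

variable {G k V : Type*} [Group G] [CommRing k] [AddCommGroup V] [Module k V]
  {r : G →* Module.End k V} {ε : G →* k} {t : G → k} {c : G}

/-- the first vector -/
def rtk7g2Plus (r : G →* Module.End k V) (c : G) (v₀ : V) : V := s36P r c v₀

/-- the second vector -/
def rtk7g2Minus (r : G →* Module.End k V) (c : G) (i2 u : k) (τ₀ : G) (v₀ : V) : V :=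
  (u * i2) • s36Q r c (r τ₀ (s36P r c v₀))

variable (h : S36CH r ε t c) (h2 : ∀ x y, t (x * y) = t (y * x))
  (h3 : ∀ x y, t (x * y) + ε y * t (x * y⁻¹) = t x * t y)
  (hc : c * c = 1) (hεc : ε c = -1)
  (i2 : k) (hi2 : 2 * i2 = 1) (σ₀ τ₀ : G) (u : k) (hu : u * rtk7Xi t c i2 σ₀ τ₀ = 1)

include h hi2 in
theorem rtk7g2_apply_plus' (g : G) (v₀ : V) :
    r g (rtk7g2Plus r c v₀) = rtk7A t c i2 g • rtk7g2Plus r c v₀
      + i2 • s36Q r c (r g (s36P r c v₀)) := by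
  have e := congrArg (fun f : Module.End k V => i2 • f v₀) (rtk7g2_gP h g)
  simp only [LinearMap.smul_apply, LinearMap.add_apply, Module.End.mul_apply, smul_add] at e
  rw [smul_smul, mul_comm, hi2, one_smul] at e
  rw [rtk7g2Plus, rtk7A_eq, mul_smul]
  exact e

include h h2 h3 hc hεc hi2 hu in
theorem rtk7g2_QgP_vec (g : G) (v₀ : V) :
    i2 • s36Q r c (r g (s36P r c v₀))
      = rtk7Xi t c i2 σ₀ g • rtk7g2Minus r c i2 u τ₀ v₀ := by
  have hX : s36Xi' t c τ₀ σ₀ = s36Xi t c σ₀ τ₀ := rtk7_xi'_eq ε t c h2 h3 hc hεc τ₀ σ₀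
  have e := congrArg (fun f : Module.End k V => (u * i2 * i2 * i2) • f v₀)
    (rtk7g2_QgP h σ₀ τ₀ g)
  simp only [LinearMap.smul_apply, Module.End.mul_apply] at e
  rw [hX, smul_smul, smul_smul] at e
  have hu' : u * (i2 * i2 * s36Xi t c σ₀ τ₀) = 1 := by
    rw [← rtk7Xi_eq t c i2 hi2]; exact hu
  have e1 : u * i2 * i2 * i2 * s36Xi t c σ₀ τ₀ = i2 := by
    linear_combination i2 * hu'
  rw [e1] at e
  rw [e, rtk7g2Minus, smul_smul, rtk7Xi_eq t c i2 hi2]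
  congr 1
  ring

include h h2 h3 hc hεc hi2 hu in
/-- `r g e₊ = a(g) e₊ + ξ(σ₀, g) e₋` -/
theorem rtk7g2_apply_plus (g : G) (v₀ : V) :
    r g (rtk7g2Plus r c v₀) = rtk7A t c i2 g • rtk7g2Plus r c v₀
      + rtk7Xi t c i2 σ₀ g • rtk7g2Minus r c i2 u τ₀ v₀ := by
  rw [rtk7g2_apply_plus' h i2 hi2 g v₀, rtk7g2_QgP_vec h h2 h3 hc hεc i2 hi2 σ₀ τ₀ u hu g v₀]

include h hi2 in
/-- `r g e₋ = ξ(g, τ₀) u e₊ + d(g) e₋` -/
theorem rtk7g2_apply_minus (g : G) (v₀ : V) :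
    r g (rtk7g2Minus r c i2 u τ₀ v₀) = (rtk7Xi t c i2 g τ₀ * u) • rtk7g2Plus r c v₀
      + rtk7D t c i2 g • rtk7g2Minus r c i2 u τ₀ v₀ := by
  have e := congrArg (fun f : Module.End k V => (u * i2 * i2) • f v₀) (rtk7g2_gQ h τ₀ g)
  simp only [LinearMap.smul_apply, LinearMap.add_apply, Module.End.mul_apply, smul_add] at e
  rw [smul_smul, smul_smul, smul_smul] at e
  have e1 : u * i2 * i2 * 2 = u * i2 := by linear_combination (u * i2) * hi2
  rw [e1] at e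
  rw [rtk7g2Minus, map_smul, e, rtk7g2Plus, rtk7Xi_eq t c i2 hi2, rtk7D_eq, smul_smul]
  congr 1
  · congr 1; ring
  · congr 1; ring

/-- the map `k² → V`, `x ↦ x₀ e₊ + x₁ e₋` -/
def rtk7g2Phi (r : G →* Module.End k V) (c : G) (i2 u : k) (τ₀ : G) (v₀ : V) :
    (Fin 2 → k) →ₗ[k] V where
  toFun x := x 0 • rtk7g2Plus r c v₀ + x 1 • rtk7g2Minus r c i2 u τ₀ v₀
  map_add' x y := by simp only [Pi.add_apply, add_smul]; abel
  map_smul' a x := by
    simp only [Pi.smul_apply, smul_eq_mul, RingHom.id_apply, smul_add, smul_smul]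

include h h2 h3 hc hεc hi2 hu in
/-- **the intertwining relation** -/
theorem rtk7g2_intertwine (g : G) (v₀ : V) (x : Fin 2 → k) :
    r g (rtk7g2Phi r c i2 u τ₀ v₀ x)
      = rtk7g2Phi r c i2 u τ₀ v₀ ((rtk7Mat t c i2 σ₀ τ₀ u g).mulVec x) := by
  simp only [rtk7g2Phi, LinearMap.coe_mk, AddHom.coe_mk, map_add, map_smul,
    rtk7g2_apply_plus h h2 h3 hc hεc i2 hi2 σ₀ τ₀ u hu g v₀,
    rtk7g2_apply_minus h i2 hi2 τ₀ u g v₀, rtk7Mat, Matrix.mulVec, dotProduct,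
    Fin.sum_univ_two, Matrix.of_apply, Matrix.cons_val_zero, Matrix.cons_val_one]
  module

end Vec

end Fermat.Agent.RT
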