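import Mathlib

/-!
# K-machine, piece K7b (abstract part): the pseudo-character of a compatible family

Abstract form of `S30/PseudoChar.lean`, with a determinant which is an operator (diamonds).

* `G` a group, `𝕋` a commutative ring ("Hecke–diamond polynomials"), `J` an abelian group with
  commuting actions of `G` and `𝕋`; the levels are `J[pⁿ] = {x | pⁿ • x = 0}`.
* `B ⊆ 𝕋` the subring of the allowed polynomials (good variables), `D n g ∈ B` the determinant of
  `g` at level `n` (in the application `D n g = cycE p n g · δ_{c(g)}⁻¹`).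
* `Rtk7bApprox p J D n g h` : `h` represents `g + D(g) g⁻¹` on `J[pⁿ]`.
* `Rtk7bFam` : the axioms of the family (every `g` has a representative in `B` at every level).
* `π : 𝕋 →+* T`, `T` `I`-adically complete, `p ∈ I`; `Rtk7bGood` : faithfulness at precision `k`.

`rtk7b_exists` : there is `t : G → T`, the limit of the `π`-values of the representatives;
`rtk7b_pseudo` : `t 1 = 2`, `t (x y) = t (y x)`, `t (x y) + ε y · t (x y⁻¹) = t x · t y`;
`rtk7b_same`, `rtk7b_value` : the two principles by which the consumer computes `t`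
(Frobenius values, invariance under inertia, continuity).

Mathlib only.
-/

set_option autoImplicit false

namespace Fermat.Agent.RT

section Approx

variable (p : ℕ) {G 𝕋 : Type*} [Group G] [CommRing 𝕋] (J : Type*) [AddCommGroup J]
  [Module 𝕋 J] [DistribMulAction G J] (D : ℕ → G → 𝕋)

/-- `h` represents the operator `g + D(g) g⁻¹` on `J[pⁿ]`. -/
def Rtk7bApprox (n : ℕ) (g : G) (h : 𝕋) : Prop :=
  ∀ x : J, p ^ n • x = 0 → g • x + D n g • g⁻¹ • x = h • x

/-- **The axioms of a compatible family.** -/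
structure Rtk7bFam (B : Subring 𝕋) : Prop where
  /-- the two actions commute -/
  smul_comm : ∀ (g : G) (h : 𝕋) (x : J), g • h • x = h • g • x
  D_mem : ∀ n g, D n g ∈ B
  D_one : ∀ (n : ℕ) (x : J), p ^ n • x = 0 → D n 1 • x = x
  D_mul : ∀ (n : ℕ) (g h : G) (x : J), p ^ n • x = 0 → D n (g * h) • x = D n g • D n h • x
  D_restrict : ∀ (n n' : ℕ), n' ≤ n → ∀ (g : G) (x : J), p ^ n' • x = 0 →
    D n g • x = D n' g • x
  /-- every `g` has a representative at every level -/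
  approx : ∀ (n : ℕ) (g : G), ∃ h ∈ B, Rtk7bApprox p J D n g h

variable {p J D}

omit [DistribMulAction G J] in
theorem rtk7b_tors_hecke (n : ℕ) (h : 𝕋) {x : J} (hx : p ^ n • x = 0) :
    p ^ n • (h • x) = 0 := by
  rw [smul_comm, hx, smul_zero]

omit [Module 𝕋 J] in
theorem rtk7b_tors_gal (n : ℕ) (g : G) {x : J} (hx : p ^ n • x = 0) :
    p ^ n • (g • x) = 0 := by
  rw [smul_comm, hx, smul_zero]

omit [Module 𝕋 J] [DistribMulAction G J] in
theorem rtk7b_tors_le {n' n : ℕ} (h : n' ≤ n) {x : J} (hx : p ^ n' • x = 0) :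
    p ^ n • x = 0 := by
  obtain ⟨d, rfl⟩ := Nat.exists_eq_add_of_le h
  rw [pow_add, mul_comm, mul_smul, hx, smul_zero]

theorem rtk7b_approx_one {B : Subring 𝕋} (hF : Rtk7bFam p J D B) (n : ℕ) :
    Rtk7bApprox p J D n (1 : G) 2 := by
  intro x hx
  rw [one_smul, inv_one, one_smul, hF.D_one n x hx, two_smul]

theorem rtk7b_approx_restrict {B : Subring 𝕋} (hF : Rtk7bFam p J D B) {n' n : ℕ}
    (hn : n' ≤ n) {g : G} {h : 𝕋} (H : Rtk7bApprox p J D n g h) :
    Rtk7bApprox p J D n' g h := by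
  intro x hx
  rw [← H x (rtk7b_tors_le hn hx), hF.D_restrict n n' hn g _ (rtk7b_tors_gal n' g⁻¹ hx)]

/-- `D n` is invariant under conjugation, on `J[pⁿ]` -/
theorem rtk7b_D_conj {B : Subring 𝕋} (hF : Rtk7bFam p J D B) (n : ℕ) (y g : G) {x : J}
    (hx : p ^ n • x = 0) : D n (y * g * y⁻¹) • x = D n g • x := by
  have h1 : D n y • D n y⁻¹ • x = x := by
    rw [← hF.D_mul n y y⁻¹ x hx, mul_inv_cancel, hF.D_one n x hx]
  calc D n (y * g * y⁻¹) • x = D n y • D n g • D n y⁻¹ • x := by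
        rw [hF.D_mul n (y * g) y⁻¹ x hx, hF.D_mul n y g _ (rtk7b_tors_hecke n _ hx)]
    _ = D n g • D n y • D n y⁻¹ • x := by
        rw [smul_smul, smul_smul, smul_smul, smul_smul]
        congr 1; ring
    _ = D n g • x := by rw [h1]

/-- `D n y · D n (x y⁻¹) = D n x` on `J[pⁿ]` -/
theorem rtk7b_D_cancel {B : Subring 𝕋} (hF : Rtk7bFam p J D B) (n : ℕ) (x y : G) {z : J}
    (hz : p ^ n • z = 0) : D n y • D n (x * y⁻¹) • z = D n x • z := by
  have h1 : D n y • D n y⁻¹ • z = z := by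
    rw [← hF.D_mul n y y⁻¹ z hz, mul_inv_cancel, hF.D_one n z hz]
  calc D n y • D n (x * y⁻¹) • z = D n y • D n x • D n y⁻¹ • z := by
        rw [hF.D_mul n x y⁻¹ z hz]
    _ = D n x • D n y • D n y⁻¹ • z := by
        rw [smul_smul, smul_smul, smul_smul, smul_smul]
        congr 1; ring
    _ = D n x • z := by rw [h1]

theorem rtk7b_approx_conj {B : Subring 𝕋} (hF : Rtk7bFam p J D B) {n : ℕ} {g : G} {h : 𝕋}
    (H : Rtk7bApprox p J D n g h) (y : G) : Rtk7bApprox p J D n (y * g * y⁻¹) h := by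
  intro x hx
  have h1 := H (y⁻¹ • x) (rtk7b_tors_gal n y⁻¹ hx)
  have h2 := congrArg (fun w => y • w) h1
  simp only [smul_add] at h2
  rw [hF.smul_comm y h, smul_inv_smul, hF.smul_comm y (D n g)] at h2
  rw [← h2, rtk7b_D_conj hF n y g (rtk7b_tors_gal n _ hx), mul_inv_rev, mul_inv_rev, inv_inv,
    mul_smul, mul_smul, mul_smul, mul_smul]

/-- if `σ` acts trivially on `J[pⁿ]` and `D n σ` acts trivially, then `σ g` and `g` have the
same representatives -/
theorem rtk7b_approx_mul_left_of_trivial {B : Subring 𝕋} (hF : Rtk7bFam p J D B) {n : ℕ}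
    {σ g : G} {h : 𝕋} (hσ : ∀ x : J, p ^ n • x = 0 → σ • x = x)
    (hσD : ∀ x : J, p ^ n • x = 0 → D n σ • x = x)
    (H : Rtk7bApprox p J D n g h) : Rtk7bApprox p J D n (σ * g) h := by
  intro x hx
  have hσinv : σ⁻¹ • x = x := by
    have := hσ x hx
    rw [← this, inv_smul_smul, this]
  rw [mul_smul, hσ _ (rtk7b_tors_gal n g hx), mul_inv_rev, mul_smul, hσinv,
    hF.D_mul n σ g _ (rtk7b_tors_gal n g⁻¹ hx),
    hσD _ (rtk7b_tors_hecke n _ (rtk7b_tors_gal n g⁻¹ hx))]
  exact H x hx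

/-- the pseudo-character identity at finite level -/
theorem rtk7b_approx_mul {B : Subring 𝕋} (hF : Rtk7bFam p J D B) {n : ℕ} {x y : G}
    {hx hy hxy hxy' : 𝕋}
    (Hx : Rtk7bApprox p J D n x hx) (Hy : Rtk7bApprox p J D n y hy)
    (Hxy : Rtk7bApprox p J D n (x * y) hxy) (Hxy' : Rtk7bApprox p J D n (x * y⁻¹) hxy')
    (z : J) (hz : p ^ n • z = 0) :
    (hxy + D n y * hxy' - hx * hy) • z = 0 := by
  have e1 : hxy • z = x • y • z + D n x • D n y • (y⁻¹ • x⁻¹ • z) := by
    rw [← Hxy z hz, mul_smul, mul_inv_rev, mul_smul,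
      hF.D_mul n x y _ (rtk7b_tors_gal n _ (rtk7b_tors_gal n _ hz))]
  have e2 : (D n y * hxy') • z = D n y • (x • y⁻¹ • z) + D n x • (y • x⁻¹ • z) := by
    rw [mul_smul, ← Hxy' z hz, smul_add, mul_smul, mul_inv_rev, inv_inv, mul_smul,
      rtk7b_D_cancel hF n x y (rtk7b_tors_gal n _ (rtk7b_tors_gal n _ hz))]
  have e3 : (hx * hy) • z = x • y • z + D n y • (x • y⁻¹ • z)
      + D n x • (y • x⁻¹ • z + D n y • (y⁻¹ • x⁻¹ • z)) := by
    rw [mul_smul, ← Hx (hy • z) (rtk7b_tors_hecke n hy hz), hF.smul_comm x⁻¹ hy z,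
      ← Hy (x⁻¹ • z) (rtk7b_tors_gal n _ hz), ← Hy z hz, smul_add, hF.smul_comm x (D n y)]
  rw [sub_smul, add_smul, e1, e2, e3, smul_add]
  abel

end Approx

/-! ### faithfulness and the limit -/

section Limit

variable (p : ℕ) {G 𝕋 : Type*} [Group G] [CommRing 𝕋] (J : Type*) [AddCommGroup J]
  [Module 𝕋 J] [DistribMulAction G J] (D : ℕ → G → 𝕋) (B : Subring 𝕋)
  {T : Type*} [CommRing T] (π : 𝕋 →+* T)

/-- level `n` is good for the precision `k`: an allowed polynomial killing `J[pⁿ]` has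
`π`-value divisible by `pᵏ` -/
def Rtk7bGood (k n : ℕ) : Prop :=
  ∀ h ∈ B, (∀ x : J, p ^ n • x = 0 → h • x = 0) → π h ∈ Ideal.span {(p : T) ^ k}

variable {p J D B π}

omit [Group G] [DistribMulAction G J] in
theorem Rtk7bGood.mono_level {k n n' : ℕ} (h : Rtk7bGood p J B π k n) (hn : n ≤ n') :
    Rtk7bGood p J B π k n' :=
  fun t ht hkill => h t ht (fun x hx => hkill x (rtk7b_tors_le hn hx))

omit [Group G] [DistribMulAction G J] in
theorem Rtk7bGood.mono_prec {k k' n : ℕ} (h : Rtk7bGood p J B π k n) (hk : k' ≤ k) :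
    Rtk7bGood p J B π k' n := by
  intro t ht hkill
  exact (Ideal.span_singleton_le_span_singleton.mpr (pow_dvd_pow _ hk)) (h t ht hkill)

/-- two representatives of `g` at good levels have the same `π`-value modulo `pᵏ` -/
theorem rtk7b_approx_unique (hF : Rtk7bFam p J D B) {k n n' : ℕ}
    (hn : Rtk7bGood p J B π k n) (hn' : Rtk7bGood p J B π k n') {g : G} {h h' : 𝕋}
    (hh : h ∈ B) (hh' : h' ∈ B) (H : Rtk7bApprox p J D n g h)
    (H' : Rtk7bApprox p J D n' g h') : π h - π h' ∈ Ideal.span {(p : T) ^ k} := by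
  rw [← map_sub]
  rcases le_total n n' with hle | hle
  · apply hn _ (sub_mem hh hh')
    intro x hx
    rw [sub_smul, ← H x hx, ← rtk7b_approx_restrict hF hle H' x hx, sub_self]
  · apply hn' _ (sub_mem hh hh')
    intro x hx
    rw [sub_smul, ← H' x hx, ← rtk7b_approx_restrict hF hle H x hx, sub_self]

omit [Group G] [CommRing 𝕋] in
theorem rtk7b_span_pow_le (I : Ideal T) (hpI : (p : T) ∈ I) (k : ℕ) :
    Ideal.span {(p : T) ^ k} ≤ I ^ k := by
  rw [Ideal.span_singleton_le_iff_mem]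
  exact Ideal.pow_mem_pow hpI k

/-- the specification of the trace function -/
def Rtk7bSpec (p : ℕ) (J : Type*) [AddCommGroup J] [Module 𝕋 J] [DistribMulAction G J]
    (D : ℕ → G → 𝕋) (B : Subring 𝕋) (π : 𝕋 →+* T) (I : Ideal T) (t : G → T) : Prop :=
  ∀ (g : G) (k n : ℕ) (h : 𝕋), Rtk7bGood p J B π k n → h ∈ B → Rtk7bApprox p J D n g h →
    t g - π h ∈ I ^ k

/-- **the trace function**: `t g` is the limit of the `π`-values of the representatives. -/
theorem rtk7b_exists (hF : Rtk7bFam p J D B) (I : Ideal T) [IsAdicComplete I T]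
    (hpI : (p : T) ∈ I) (hfaith : ∀ k : ℕ, ∃ n : ℕ, k ≤ n ∧ Rtk7bGood p J B π k n) :
    ∃ t : G → T, Rtk7bSpec p J D B π I t := by
  choose lvl hlvl_ge hlvl using hfaith
  have hex : ∀ (g : G) (k : ℕ), ∃ h ∈ B, Rtk7bApprox p J D (lvl k) g h :=
    fun g k => hF.approx (lvl k) g
  choose H hHsupp hHapprox using hex
  have hcauchy : ∀ g : G, ∃ L : T, ∀ k : ℕ,
      π (H g k) ≡ L [SMOD (I ^ k • ⊤ : Submodule T T)] := by
    intro g
    apply IsPrecomplete.prec (I := I) (M := T) inferInstance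
    intro m n hmn
    rw [SModEq.sub_mem, smul_eq_mul, Ideal.mul_top]
    exact rtk7b_span_pow_le I hpI m (rtk7b_approx_unique hF (hlvl m) ((hlvl n).mono_prec hmn)
      (hHsupp g m) (hHsupp g n) (hHapprox g m) (hHapprox g n))
  choose t ht using hcauchy
  refine ⟨t, fun g k n h hG hh hA => ?_⟩
  have h1 := ht g k
  rw [SModEq.sub_mem, smul_eq_mul, Ideal.mul_top] at h1
  have h2 := rtk7b_span_pow_le I hpI k
    (rtk7b_approx_unique hF (hlvl k) hG (hHsupp g k) hh (hHapprox g k) hA)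
  have : t g - π h = -(π (H g k) - t g) + (π (H g k) - π h) := by ring
  rw [this]
  exact add_mem (neg_mem h1) h2

omit [Group G] [CommRing 𝕋] in
theorem rtk7b_eq_of_forall_sub_mem (I : Ideal T) [IsAdicComplete I T] {a b : T}
    (h : ∀ k : ℕ, a - b ∈ I ^ k) : a = b := by
  rw [← sub_eq_zero]
  apply IsHausdorff.haus (I := I) (M := T) inferInstance
  intro k
  rw [SModEq.sub_mem, sub_zero, smul_eq_mul, Ideal.mul_top]
  exact h k

/-- same representative at a good level ⇒ congruent values -/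
theorem rtk7b_same {I : Ideal T} {t : G → T} (ht : Rtk7bSpec p J D B π I t) {k n : ℕ}
    {g g' : G} {h : 𝕋} (hG : Rtk7bGood p J B π k n) (hh : h ∈ B)
    (H : Rtk7bApprox p J D n g h) (H' : Rtk7bApprox p J D n g' h) : t g' - t g ∈ I ^ k := by
  have h1 := ht g k n h hG hh H
  have h2 := ht g' k n h hG hh H'
  have : t g' - t g = (t g' - π h) - (t g - π h) := by ring
  rw [this]
  exact sub_mem h2 h1

/-- if `h` represents `g` at every level, then `t g = π h` -/
theorem rtk7b_value (I : Ideal T) [IsAdicComplete I T]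
    (hfaith : ∀ k : ℕ, ∃ n : ℕ, k ≤ n ∧ Rtk7bGood p J B π k n) {t : G → T}
    (ht : Rtk7bSpec p J D B π I t) {g : G} {h : 𝕋} (hh : h ∈ B)
    (H : ∀ n, Rtk7bApprox p J D n g h) : t g = π h := by
  apply rtk7b_eq_of_forall_sub_mem I
  intro k
  obtain ⟨n, -, hn⟩ := hfaith k
  exact ht g k n h hn hh (H n)

/-- **The pseudo-character identities.**  `ε : G →* T` is the limit of the determinants:
`ε g ≡ π (D n g)` modulo `pⁿ`. -/
theorem rtk7b_pseudo (hF : Rtk7bFam p J D B) (I : Ideal T) [IsAdicComplete I T]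
    (hpI : (p : T) ∈ I) (hfaith : ∀ k : ℕ, ∃ n : ℕ, k ≤ n ∧ Rtk7bGood p J B π k n)
    (ε : G →* T) (hε : ∀ (n : ℕ) (g : G), ε g - π (D n g) ∈ Ideal.span {(p : T) ^ n})
    {t : G → T} (ht : Rtk7bSpec p J D B π I t) :
    t 1 = 2 ∧ (∀ x y : G, t (x * y) = t (y * x)) ∧
      ∀ x y : G, t (x * y) + ε y * t (x * y⁻¹) = t x * t y := by
  refine ⟨?_, ?_, ?_⟩
  · have := rtk7b_value I hfaith ht (g := (1 : G)) (h := 2) (ofNat_mem B 2)
      (fun n => rtk7b_approx_one hF n)
    rwa [map_ofNat] at this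
  · intro x y
    apply rtk7b_eq_of_forall_sub_mem I
    intro k
    obtain ⟨n, -, hn⟩ := hfaith k
    obtain ⟨h, hh, H⟩ := hF.approx n (y * x)
    have H' := rtk7b_approx_conj hF H y⁻¹
    have e : y⁻¹ * (y * x) * y⁻¹⁻¹ = x * y := by group
    rw [e] at H'
    exact rtk7b_same ht hn hh H H'
  · intro x y
    apply rtk7b_eq_of_forall_sub_mem I
    intro k
    obtain ⟨n, hkn, hn⟩ := hfaith k
    obtain ⟨hx, hhx, Hx⟩ := hF.approx n x
    obtain ⟨hy, hhy, Hy⟩ := hF.approx n y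
    obtain ⟨hxy, hhxy, Hxy⟩ := hF.approx n (x * y)
    obtain ⟨hxy', hhxy', Hxy'⟩ := hF.approx n (x * y⁻¹)
    have hD := rtk7b_approx_mul hF Hx Hy Hxy Hxy'
    have hDsupp : hxy + D n y * hxy' - hx * hy ∈ B :=
      sub_mem (add_mem hhxy (mul_mem (hF.D_mem n y) hhxy')) (mul_mem hhx hhy)
    have h0 := rtk7b_span_pow_le I hpI k (hn _ hDsupp hD)
    rw [map_sub, map_add, map_mul, map_mul] at h0
    have h1 := ht x k n hx hn hhx Hx
    have h2 := ht y k n hy hn hhy Hy
    have h3 := ht (x * y) k n hxy hn hhxy Hxy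
    have h4 := ht (x * y⁻¹) k n hxy' hn hhxy' Hxy'
    have h5 : ε y - π (D n y) ∈ I ^ k :=
      Ideal.pow_le_pow_right hkn (rtk7b_span_pow_le I hpI n (hε n y))
    rw [← Ideal.Quotient.eq_zero_iff_mem] at h0 h1 h2 h3 h4 h5 ⊢
    rw [map_sub, sub_eq_zero] at h1 h2 h3 h4 h5
    simp only [map_sub, map_add, map_mul] at h0 ⊢
    rw [h1, h2, h3, h4, h5]
    exact h0

end Limit

end Fermat.Agent.RT
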