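import Mathlib
import Fermat.Agent.S36.WilesRing
import Fermat.Agent.RT.K7.WilesLocal
import Fermat.Agent.RT.K7.PseudoFam

/-!
# K-machine, piece K7: the TRANSFER lemma (Carayol's lemma in explicit form)

`J[pⁿ]` is a module over the Cayley–Hamilton algebra of the pseudo-character, hence "isotypic":
with the doubled idempotents `P = 1 + c`, `Q = 1 − c` one has `P g P = A(g) P`,
`P g Q h P = Ξ(g, h) P` (`S36/WilesRing.lean`).  Therefore a linear relation
`Σ kᵢ gᵢ = 0` between the operators `gᵢ ∈ G` on `J[pⁿ]` (coefficients `kᵢ` Hecke polynomials) gives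
the same relation between the matrices of Wiles' representation, up to the factor `2 Ξ'(x, y)`
and up to the annihilator of `J[pⁿ]`:

* `rtk7t_entries` : (generic) the four doubled entries of `Σ kᵢ mat(gᵢ)` kill `P` (resp. `Q`);
* `rtk7t_of_smul_P`, `rtk7t_of_smul_Q` : `k • P = 0 ⇒ 2 k Ξ'(x, y) = 0` on the whole module;
* `rtk7t_transfer` : for a compatible family (`PseudoFam.lean`) with faithfulness, a relation
  `Σ kᵢ gᵢ = 0` on all `J[pⁿ]` gives `Σ π(kᵢ) ρ(gᵢ) = 0` in `M₂(T)` for the representation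
  `ρ = rtk7Mat t c i2 σ₀ τ₀ u` of K7a.

No localisation and no inverse is used at finite level.
-/

set_option autoImplicit false

namespace Fermat.Agent.RT

open Fermat.Agent.S36 Matrix

section Generic

variable {G R E : Type*} [Group G] [CommRing R] [Ring E] [Algebra R E]
  {r : G →* E} {ε t : G → R} {c : G}

/-- the doubled entries of a linear relation between the `r (g i)` -/
theorem rtk7t_entries (h : S36CH r ε t c) {ι : Type*} (s : Finset ι) (k : ι → R) (g : ι → G)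
    (hrel : ∑ i ∈ s, k i • r (g i) = 0) :
    (∑ i ∈ s, k i * s36A t c (g i)) • s36P r c = 0 ∧
    (∑ i ∈ s, k i * s36D t c (g i)) • s36Q r c = 0 ∧
    (∀ y : G, (∑ i ∈ s, k i * s36Xi t c (g i) y) • s36P r c = 0) ∧
    (∀ x : G, (∑ i ∈ s, k i * s36Xi t c x (g i)) • s36P r c = 0) := by
  refine ⟨?_, ?_, ?_, ?_⟩
  · have : s36P r c * (∑ i ∈ s, k i • r (g i)) * s36P r c
        = (∑ i ∈ s, k i * s36A t c (g i)) • s36P r c := by
      rw [Finset.mul_sum, Finset.sum_mul, Finset.sum_smul]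
      refine Finset.sum_congr rfl fun i _ => ?_
      rw [mul_smul_comm, smul_mul_assoc, h.PxP, smul_smul]
    rw [← this, hrel, mul_zero, zero_mul]
  · have : s36Q r c * (∑ i ∈ s, k i • r (g i)) * s36Q r c
        = (∑ i ∈ s, k i * s36D t c (g i)) • s36Q r c := by
      rw [Finset.mul_sum, Finset.sum_mul, Finset.sum_smul]
      refine Finset.sum_congr rfl fun i _ => ?_
      rw [mul_smul_comm, smul_mul_assoc, h.QxQ, smul_smul]
    rw [← this, hrel, mul_zero, zero_mul]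
  · intro y
    have : s36P r c * (∑ i ∈ s, k i • r (g i)) * s36Q r c * r y * s36P r c
        = (∑ i ∈ s, k i * s36Xi t c (g i) y) • s36P r c := by
      rw [Finset.mul_sum, Finset.sum_mul, Finset.sum_mul, Finset.sum_mul, Finset.sum_smul]
      refine Finset.sum_congr rfl fun i _ => ?_
      rw [mul_smul_comm, smul_mul_assoc, smul_mul_assoc, smul_mul_assoc, h.PxQyP, smul_smul]
    rw [← this, hrel, mul_zero, zero_mul, zero_mul, zero_mul]
  · intro x
    have : s36P r c * r x * s36Q r c * (∑ i ∈ s, k i • r (g i)) * s36P r c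
        = (∑ i ∈ s, k i * s36Xi t c x (g i)) • s36P r c := by
      rw [Finset.mul_sum, Finset.sum_mul, Finset.sum_smul]
      refine Finset.sum_congr rfl fun i _ => ?_
      rw [mul_smul_comm, smul_mul_assoc, h.PxQyP, smul_smul]
    rw [← this, hrel, mul_zero, zero_mul]

/-- `k • P = 0` implies `2 k Ξ'(x, y) = 0` in `E` -/
theorem rtk7t_of_smul_P (h : S36CH r ε t c) {k : R} (hk : k • s36P r c = 0) (x y : G) :
    (2 * k * s36Xi' t c x y) • (1 : E) = 0 := by
  have hQ : (k * s36Xi' t c x y) • s36Q r c = 0 := by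
    rw [mul_smul, ← h.QxPyQ x y]
    have : k • (s36Q r c * r x * s36P r c * r y * s36Q r c)
        = s36Q r c * r x * (k • s36P r c) * r y * s36Q r c := by
      simp only [mul_smul_comm, smul_mul_assoc]
    rw [this, hk, mul_zero, zero_mul, zero_mul]
  have hP : (k * s36Xi' t c x y) • s36P r c = 0 := by
    rw [mul_comm, mul_smul, hk, smul_zero]
  have h2 : (k * s36Xi' t c x y) • (s36P r c + s36Q r c) = 0 := by
    rw [smul_add, hP, hQ, add_zero]
  rw [S36CH.P_add_Q (R := R) (r := r) (c := c), smul_smul] at h2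
  rw [← h2]
  congr 1
  ring

/-- `k • Q = 0` implies `2 k Ξ(x, y) = 0` in `E` -/
theorem rtk7t_of_smul_Q (h : S36CH r ε t c) {k : R} (hk : k • s36Q r c = 0) (x y : G) :
    (2 * k * s36Xi t c x y) • (1 : E) = 0 := by
  have hP : (k * s36Xi t c x y) • s36P r c = 0 := by
    rw [mul_smul, ← h.PxQyP x y]
    have : k • (s36P r c * r x * s36Q r c * r y * s36P r c)
        = s36P r c * r x * (k • s36Q r c) * r y * s36P r c := by
      simp only [mul_smul_comm, smul_mul_assoc]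
    rw [this, hk, mul_zero, zero_mul, zero_mul]
  have hQ : (k * s36Xi t c x y) • s36Q r c = 0 := by
    rw [mul_comm, mul_smul, hk, smul_zero]
  have h2 : (k * s36Xi t c x y) • (s36P r c + s36Q r c) = 0 := by
    rw [smul_add, hP, hQ, add_zero]
  rw [S36CH.P_add_Q (R := R) (r := r) (c := c), smul_smul] at h2
  rw [← h2]
  congr 1
  ring

end Generic

/-! ### compatibility of the entries with ring homomorphisms -/

section Map

variable {G R R' : Type*} [Group G] [CommRing R] [CommRing R'] (φ : R →+* R') (t : G → R)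
  (c : G)

theorem rtk7t_map_A (x : G) : φ (s36A t c x) = s36A (fun g => φ (t g)) c x := by
  simp only [s36A, map_add]

theorem rtk7t_map_D (x : G) : φ (s36D t c x) = s36D (fun g => φ (t g)) c x := by
  simp only [s36D, map_sub]

theorem rtk7t_map_Xi (x y : G) : φ (s36Xi t c x y) = s36Xi (fun g => φ (t g)) c x y := by
  simp only [s36Xi, s36A, map_sub, map_mul, map_add, map_ofNat]

theorem rtk7t_map_Xi' (x y : G) : φ (s36Xi' t c x y) = s36Xi' (fun g => φ (t g)) c x y := by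
  simp only [s36Xi', s36D, map_sub, map_mul, map_ofNat]

end Map

/-! ### the finite levels of a compatible family as Cayley–Hamilton modules -/

section Level

variable (p : ℕ) {G 𝕋 : Type*} [Group G] [CommRing 𝕋] (J : Type*) [AddCommGroup J]
  [Module 𝕋 J] [DistribMulAction G J]

/-- `J[pⁿ]` as a `𝕋`-submodule -/
def rtk7tW (n : ℕ) : Submodule 𝕋 J where
  carrier := {x | p ^ n • x = 0}
  add_mem' {a b} ha hb := by
    change p ^ n • a = 0 at ha
    change p ^ n • b = 0 at hb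
    change p ^ n • (a + b) = 0
    rw [smul_add, ha, hb, add_zero]
  zero_mem' := by
    change p ^ n • (0 : J) = 0
    rw [smul_zero]
  smul_mem' h x hx := by
    change p ^ n • x = 0 at hx
    change p ^ n • (h • x) = 0
    exact rtk7b_tors_hecke n h hx

variable {p J}

theorem rtk7t_mem_W {n : ℕ} {x : J} : x ∈ rtk7tW (𝕋 := 𝕋) p J n ↔ p ^ n • x = 0 := Iff.rfl

/-- the action of `G` on `J[pⁿ]` -/
def rtk7tRep (hcomm : ∀ (g : G) (h : 𝕋) (x : J), g • h • x = h • g • x) (n : ℕ) :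
    G →* Module.End 𝕋 (rtk7tW (𝕋 := 𝕋) p J n) where
  toFun g :=
    { toFun := fun x => ⟨g • (x : J), rtk7b_tors_gal n g x.2⟩
      map_add' := fun x y => Subtype.ext (by simp only [Submodule.coe_add, smul_add])
      map_smul' := fun h x => Subtype.ext (by
        simp only [Submodule.coe_smul, RingHom.id_apply]
        exact hcomm g h x) }
  map_one' := by
    ext x
    simp only [LinearMap.coe_mk, AddHom.coe_mk, one_smul, Module.End.one_apply]
  map_mul' a b := by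
    ext x
    simp only [LinearMap.coe_mk, AddHom.coe_mk, mul_smul, Module.End.mul_apply]

@[simp] theorem rtk7tRep_apply (hcomm : ∀ (g : G) (h : 𝕋) (x : J), g • h • x = h • g • x)
    (n : ℕ) (g : G) (x : rtk7tW (𝕋 := 𝕋) p J n) :
    ((rtk7tRep hcomm n g x : rtk7tW (𝕋 := 𝕋) p J n) : J) = g • (x : J) := rfl

/-- the Cayley–Hamilton datum at level `n` -/
theorem rtk7t_ch {D : ℕ → G → 𝕋} {B : Subring 𝕋} (hF : Rtk7bFam p J D B) (n : ℕ)
    (tn : G → 𝕋) (htn : ∀ g, Rtk7bApprox p J D n g (tn g)) (c : G) (hc : c * c = 1)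
    (hDc : ∀ x : J, p ^ n • x = 0 → D n c • x = -x) :
    S36CH (rtk7tRep (p := p) hF.smul_comm n) (D n) tn c where
  ch σ := by
    ext x
    simp only [LinearMap.add_apply, LinearMap.smul_apply, Module.End.one_apply,
      Submodule.coe_add, Submodule.coe_smul, rtk7tRep_apply]
    exact htn σ x x.2
  ε_mul x y e := by
    ext w
    simp only [LinearMap.smul_apply, Submodule.coe_smul]
    rw [hF.D_mul n x y _ (e w).2, mul_smul]
  c_sq := hc
  ε_c e := by
    ext w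
    simp only [LinearMap.smul_apply, Submodule.coe_smul, LinearMap.neg_apply,
      Submodule.coe_neg]
    exact hDc _ (e w).2

/-- an element of `𝕋` which is zero in `End(J[pⁿ])` kills `J[pⁿ]` -/
theorem rtk7t_kills_of_smul_one {n : ℕ} {h : 𝕋}
    (hh : h • (1 : Module.End 𝕋 (rtk7tW (𝕋 := 𝕋) p J n)) = 0) (x : J) (hx : p ^ n • x = 0) :
    h • x = 0 := by
  have := congrArg (fun f : Module.End 𝕋 (rtk7tW (𝕋 := 𝕋) p J n) =>
    ((f ⟨x, hx⟩ : rtk7tW (𝕋 := 𝕋) p J n) : J)) hh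
  simpa using this

end Level

/-! ### the transfer -/

section Transfer

variable {p : ℕ} {G 𝕋 : Type*} [Group G] [CommRing 𝕋] {J : Type*} [AddCommGroup J]
  [Module 𝕋 J] [DistribMulAction G J] {D : ℕ → G → 𝕋} {B : Subring 𝕋}
  {T : Type*} [CommRing T] {π : 𝕋 →+* T}

/-- `ε c = −1` from `D n c = −1` on `J[pⁿ]` -/
theorem rtk7t_eps_c (hF : Rtk7bFam p J D B) (I : Ideal T) [IsAdicComplete I T]
    (hpI : (p : T) ∈ I) (hfaith : ∀ k : ℕ, ∃ n : ℕ, k ≤ n ∧ Rtk7bGood p J B π k n)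
    (ε : G →* T) (hε : ∀ (n : ℕ) (g : G), ε g - π (D n g) ∈ Ideal.span {(p : T) ^ n})
    (c : G) (hDc : ∀ (n : ℕ) (x : J), p ^ n • x = 0 → D n c • x = -x) : ε c = -1 := by
  apply rtk7b_eq_of_forall_sub_mem I
  intro k
  obtain ⟨n, hkn, hn⟩ := hfaith k
  have h1 : π (D n c + 1) ∈ Ideal.span {(p : T) ^ k} := by
    apply hn _ (add_mem (hF.D_mem n c) (one_mem B))
    intro x hx
    rw [add_smul, hDc n x hx, one_smul, neg_add_cancel]
  have h2 := rtk7b_span_pow_le I hpI k h1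
  have h3 : ε c - π (D n c) ∈ I ^ k :=
    Ideal.pow_le_pow_right hkn (rtk7b_span_pow_le I hpI n (hε n c))
  have : ε c - -1 = (ε c - π (D n c)) + π (D n c + 1) := by
    rw [map_add, map_one]; ring
  rw [this]
  exact add_mem h3 h2

/-- **Transfer, entries.**  A relation `Σ kᵢ gᵢ = 0` on all `J[pⁿ]` gives the vanishing of the
four doubled entries of `Σ π(kᵢ) mat(gᵢ)`, multiplied by `2 Ξ'(x, y)` (resp. `2 Ξ(x, y)`). -/
theorem rtk7t_transfer_entries (hF : Rtk7bFam p J D B) (I : Ideal T) [IsAdicComplete I T]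
    (hpI : (p : T) ∈ I) (hfaith : ∀ k : ℕ, ∃ n : ℕ, k ≤ n ∧ Rtk7bGood p J B π k n)
    {t : G → T} (ht : Rtk7bSpec p J D B π I t)
    (c : G) (hc : c * c = 1) (hDc : ∀ (n : ℕ) (x : J), p ^ n • x = 0 → D n c • x = -x)
    {ι : Type*} (s : Finset ι) (k : ι → 𝕋) (hk : ∀ i ∈ s, k i ∈ B) (g : ι → G)
    (hrel : ∀ (n : ℕ) (x : J), p ^ n • x = 0 → ∑ i ∈ s, k i • g i • x = 0) (x y : G) :
    2 * (∑ i ∈ s, π (k i) * s36A t c (g i)) * s36Xi' t c x y = 0 ∧
    2 * (∑ i ∈ s, π (k i) * s36D t c (g i)) * s36Xi t c x y = 0 ∧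
    (∀ z : G, 2 * (∑ i ∈ s, π (k i) * s36Xi t c (g i) z) * s36Xi' t c x y = 0) ∧
    (∀ z : G, 2 * (∑ i ∈ s, π (k i) * s36Xi t c z (g i)) * s36Xi' t c x y = 0) := by
  -- the finite level statement
  have key : ∀ kk : ℕ, ∃ (n : ℕ) (tn : G → 𝕋), Rtk7bGood p J B π kk n ∧ (∀ g, tn g ∈ B) ∧
      (∀ g, t g - π (tn g) ∈ I ^ kk) ∧
      S36CH (rtk7tRep (p := p) hF.smul_comm n) (D n) tn c ∧
      ∑ i ∈ s, k i • rtk7tRep (p := p) hF.smul_comm n (g i) = 0 := by
    intro kk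
    obtain ⟨n, -, hn⟩ := hfaith kk
    choose tn htnB htn using fun g => hF.approx n g
    refine ⟨n, tn, hn, htnB, fun g => ht g kk n (tn g) hn (htnB g) (htn g),
      rtk7t_ch hF n tn htn c hc (hDc n), ?_⟩
    ext w
    simp only [LinearMap.sum_apply, LinearMap.smul_apply, Submodule.coe_sum,
      Submodule.coe_smul, rtk7tRep_apply, LinearMap.zero_apply, Submodule.coe_zero]
    exact hrel n _ w.2
  -- membership in `B`
  have hA : ∀ (tn : G → 𝕋), (∀ g, tn g ∈ B) → ∀ z, s36A tn c z ∈ B := fun tn h z =>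
    add_mem (h _) (h _)
  have hD : ∀ (tn : G → 𝕋), (∀ g, tn g ∈ B) → ∀ z, s36D tn c z ∈ B := fun tn h z =>
    sub_mem (h _) (h _)
  have hXi : ∀ (tn : G → 𝕋), (∀ g, tn g ∈ B) → ∀ z w, s36Xi tn c z w ∈ B := fun tn h z w =>
    sub_mem (mul_mem (ofNat_mem B 2) (hA tn h _)) (mul_mem (hA tn h _) (hA tn h _))
  have hXi' : ∀ (tn : G → 𝕋), (∀ g, tn g ∈ B) → ∀ z w, s36Xi' tn c z w ∈ B := fun tn h z w =>
    sub_mem (mul_mem (ofNat_mem B 2) (hD tn h _)) (mul_mem (hD tn h _) (hD tn h _))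
  have hsum : ∀ (f : ι → 𝕋), (∀ i, f i ∈ B) → ∑ i ∈ s, k i * f i ∈ B := fun f hf =>
    sum_mem fun i hi => mul_mem (hk i hi) (hf i)
  -- the comparison of the two expressions modulo `I ^ kk`
  have cmp : ∀ (kk : ℕ) (tn : G → 𝕋), (∀ g, t g - π (tn g) ∈ I ^ kk) →
      (fun g => Ideal.Quotient.mk (I ^ kk) (t g)) =
        fun g => Ideal.Quotient.mk (I ^ kk) (π (tn g)) := by
    intro kk tn h
    funext g
    exact Ideal.Quotient.eq.mpr (h g)
  refine ⟨?_, ?_, ?_, ?_⟩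
  · apply rtk7b_eq_of_forall_sub_mem I
    intro kk
    rw [sub_zero]
    obtain ⟨n, tn, hn, htnB, htn, hCH, hR⟩ := key kk
    have e := (rtk7t_entries hCH s k g hR).1
    have e2 := rtk7t_of_smul_P hCH e x y
    have e3 := rtk7b_span_pow_le I hpI kk (hn _ (mul_mem (mul_mem (ofNat_mem B 2)
      (hsum _ (fun i => hA tn htnB (g i)))) (hXi' tn htnB x y)) (rtk7t_kills_of_smul_one e2))
    rw [← Ideal.Quotient.eq_zero_iff_mem] at e3 ⊢
    simp only [map_mul, map_sum, map_ofNat, rtk7t_map_A, rtk7t_map_Xi'] at e3 ⊢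
    rw [cmp kk tn htn]
    exact e3
  · apply rtk7b_eq_of_forall_sub_mem I
    intro kk
    rw [sub_zero]
    obtain ⟨n, tn, hn, htnB, htn, hCH, hR⟩ := key kk
    have e := (rtk7t_entries hCH s k g hR).2.1
    have e2 := rtk7t_of_smul_Q hCH e x y
    have e3 := rtk7b_span_pow_le I hpI kk (hn _ (mul_mem (mul_mem (ofNat_mem B 2)
      (hsum _ (fun i => hD tn htnB (g i)))) (hXi tn htnB x y)) (rtk7t_kills_of_smul_one e2))
    rw [← Ideal.Quotient.eq_zero_iff_mem] at e3 ⊢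
    simp only [map_mul, map_sum, map_ofNat, rtk7t_map_D, rtk7t_map_Xi] at e3 ⊢
    rw [cmp kk tn htn]
    exact e3
  · intro z
    apply rtk7b_eq_of_forall_sub_mem I
    intro kk
    rw [sub_zero]
    obtain ⟨n, tn, hn, htnB, htn, hCH, hR⟩ := key kk
    have e := (rtk7t_entries hCH s k g hR).2.2.1 z
    have e2 := rtk7t_of_smul_P hCH e x y
    have e3 := rtk7b_span_pow_le I hpI kk (hn _ (mul_mem (mul_mem (ofNat_mem B 2)
      (hsum _ (fun i => hXi tn htnB (g i) z))) (hXi' tn htnB x y))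
      (rtk7t_kills_of_smul_one e2))
    rw [← Ideal.Quotient.eq_zero_iff_mem] at e3 ⊢
    simp only [map_mul, map_sum, map_ofNat, rtk7t_map_Xi, rtk7t_map_Xi'] at e3 ⊢
    rw [cmp kk tn htn]
    exact e3
  · intro z
    apply rtk7b_eq_of_forall_sub_mem I
    intro kk
    rw [sub_zero]
    obtain ⟨n, tn, hn, htnB, htn, hCH, hR⟩ := key kk
    have e := (rtk7t_entries hCH s k g hR).2.2.2 z
    have e2 := rtk7t_of_smul_P hCH e x y
    have e3 := rtk7b_span_pow_le I hpI kk (hn _ (mul_mem (mul_mem (ofNat_mem B 2)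
      (hsum _ (fun i => hXi tn htnB z (g i)))) (hXi' tn htnB x y))
      (rtk7t_kills_of_smul_one e2))
    rw [← Ideal.Quotient.eq_zero_iff_mem] at e3 ⊢
    simp only [map_mul, map_sum, map_ofNat, rtk7t_map_Xi, rtk7t_map_Xi'] at e3 ⊢
    rw [cmp kk tn htn]
    exact e3

/-- **Transfer, matrix form.**  A relation `Σ kᵢ gᵢ = 0` on all `J[pⁿ]` (coefficients `kᵢ ∈ B`)
gives the relation `Σ π(kᵢ) ρ(gᵢ) = 0` for Wiles' representation
`ρ = rtk7Mat t c i2 σ₀ τ₀ u` of K7a. -/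
theorem rtk7t_transfer (hF : Rtk7bFam p J D B) (I : Ideal T) [IsAdicComplete I T]
    (hpI : (p : T) ∈ I) (hfaith : ∀ k : ℕ, ∃ n : ℕ, k ≤ n ∧ Rtk7bGood p J B π k n)
    (ε : G →* T) (hε : ∀ (n : ℕ) (g : G), ε g - π (D n g) ∈ Ideal.span {(p : T) ^ n})
    {t : G → T} (ht : Rtk7bSpec p J D B π I t)
    (c : G) (hc : c * c = 1) (hDc : ∀ (n : ℕ) (x : J), p ^ n • x = 0 → D n c • x = -x)
    (i2 : T) (hi2 : 2 * i2 = 1) (σ₀ τ₀ : G) (u : T) (hu : u * rtk7Xi t c i2 σ₀ τ₀ = 1)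
    {ι : Type*} (s : Finset ι) (k : ι → 𝕋) (hk : ∀ i ∈ s, k i ∈ B) (g : ι → G)
    (hrel : ∀ (n : ℕ) (x : J), p ^ n • x = 0 → ∑ i ∈ s, k i • g i • x = 0) :
    ∑ i ∈ s, π (k i) • rtk7Mat t c i2 σ₀ τ₀ u (g i) = 0 := by
  obtain ⟨-, h2, h3⟩ := rtk7b_pseudo hF I hpI hfaith ε hε ht
  have hεc := rtk7t_eps_c hF I hpI hfaith ε hε c hDc
  have hX : s36Xi' t c τ₀ σ₀ = s36Xi t c σ₀ τ₀ := rtk7_xi'_eq ε t c h2 h3 hc hεc τ₀ σ₀
  have hu' : u * (i2 * i2 * s36Xi t c σ₀ τ₀) = 1 := by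
    rw [← rtk7Xi_eq t c i2 hi2]; exact hu
  -- cancellation of `2 Ξ₀`
  have cancel : ∀ m : T, 2 * m * s36Xi t c σ₀ τ₀ = 0 → m = 0 := by
    intro m hm
    have : m = (i2 * (u * i2 * i2)) * (2 * m * s36Xi t c σ₀ τ₀) := by
      linear_combination (-m) * hi2 + (-2 * i2 * m) * hu'
    rw [this, hm, mul_zero]
  obtain ⟨eA, -, eB, eC⟩ :=
    rtk7t_transfer_entries hF I hpI hfaith ht c hc hDc s k hk g hrel τ₀ σ₀
  obtain ⟨-, eD, -, -⟩ :=
    rtk7t_transfer_entries hF I hpI hfaith ht c hc hDc s k hk g hrel σ₀ τ₀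
  rw [hX] at eA
  have eB' := fun z => (by have := eB z; rwa [hX] at this :
    2 * (∑ i ∈ s, π (k i) * s36Xi t c (g i) z) * s36Xi t c σ₀ τ₀ = 0)
  have eC' := fun z => (by have := eC z; rwa [hX] at this :
    2 * (∑ i ∈ s, π (k i) * s36Xi t c z (g i)) * s36Xi t c σ₀ τ₀ = 0)
  have hA := cancel _ eA
  have hD := cancel _ eD
  have hB := cancel _ (eB' τ₀)
  have hC := cancel _ (eC' σ₀)
  ext a b
  rw [Matrix.sum_apply, Matrix.zero_apply]
  fin_cases a <;> fin_cases b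
  · have : ∀ i, (π (k i) • rtk7Mat t c i2 σ₀ τ₀ u (g i)) 0 0
        = i2 * (π (k i) * s36A t c (g i)) := fun i => by
      simp only [rtk7Mat, Matrix.smul_apply, Matrix.of_apply, Matrix.cons_val_zero,
        smul_eq_mul, rtk7A_eq]
      ring
    simp only [Fin.zero_eta, this]
    rw [← Finset.mul_sum, hA, mul_zero]
  · have : ∀ i, (π (k i) • rtk7Mat t c i2 σ₀ τ₀ u (g i)) 0 1
        = (i2 * i2 * u) * (π (k i) * s36Xi t c (g i) τ₀) := fun i => by
      simp only [rtk7Mat, Matrix.smul_apply, Matrix.of_apply, Matrix.cons_val_zero,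
        Matrix.cons_val_one, smul_eq_mul, rtk7Xi_eq t c i2 hi2]
      ring
    simp only [Fin.zero_eta, Fin.mk_one, this]
    rw [← Finset.mul_sum, hB, mul_zero]
  · have : ∀ i, (π (k i) • rtk7Mat t c i2 σ₀ τ₀ u (g i)) 1 0
        = (i2 * i2) * (π (k i) * s36Xi t c σ₀ (g i)) := fun i => by
      simp only [rtk7Mat, Matrix.smul_apply, Matrix.of_apply, Matrix.cons_val_zero,
        Matrix.cons_val_one, smul_eq_mul, rtk7Xi_eq t c i2 hi2]
      ring
    simp only [Fin.zero_eta, Fin.mk_one, this]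
    rw [← Finset.mul_sum, hC, mul_zero]
  · have : ∀ i, (π (k i) • rtk7Mat t c i2 σ₀ τ₀ u (g i)) 1 1
        = i2 * (π (k i) * s36D t c (g i)) := fun i => by
      simp only [rtk7Mat, Matrix.smul_apply, Matrix.of_apply, Matrix.cons_val_one,
        Matrix.cons_val_fin_one, smul_eq_mul, rtk7D_eq]
      ring
    simp only [Fin.mk_one, this]
    rw [← Finset.mul_sum, hD, mul_zero]

end Transfer

end Fermat.Agent.RT
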