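import Fermat.Agent.RT.K7.Transfer

/-!
# K-machine, piece K7: the TRANSFER lemma at FINITE LEVEL

`rtk7tf_transfer` : if the level `n` is good for the precision `kk` (`Rtk7bGood`), a relation
`Σ kᵢ gᵢ = 0` on `J[pⁿ]` (coefficients `kᵢ ∈ B`) gives `Σ π(kᵢ) ρ(gᵢ) ≡ 0` modulo `I ^ kk`,
entry by entry, for Wiles' representation `ρ = rtk7Mat t c i2 σ₀ τ₀ u`.

`rtk7tf_ann` : the same for integer coefficients, in the form consumed by the sub-quotient
lemma (`S32.StmtSubquot`): every element of `ℤ[G]` which kills `J[pⁿ]` maps `T²` into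
`I ^ kk T²`.
-/

set_option autoImplicit false

namespace Fermat.Agent.RT

open Fermat.Agent.S36 Matrix

section TransferFin

variable {p : ℕ} {G 𝕋 : Type*} [Group G] [CommRing 𝕋] {J : Type*} [AddCommGroup J]
  [Module 𝕋 J] [DistribMulAction G J] {D : ℕ → G → 𝕋} {B : Subring 𝕋}
  {T : Type*} [CommRing T] {π : 𝕋 →+* T}

/-- **Transfer at finite level, entries.** -/
theorem rtk7tf_entries (hF : Rtk7bFam p J D B) (I : Ideal T) (hpI : (p : T) ∈ I)
    {t : G → T} (ht : Rtk7bSpec p J D B π I t)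
    (c : G) (hc : c * c = 1) {kk n : ℕ} (hn : Rtk7bGood p J B π kk n)
    (hDc : ∀ x : J, p ^ n • x = 0 → D n c • x = -x)
    {ι : Type*} (s : Finset ι) (k : ι → 𝕋) (hk : ∀ i ∈ s, k i ∈ B) (g : ι → G)
    (hrel : ∀ x : J, p ^ n • x = 0 → ∑ i ∈ s, k i • g i • x = 0) (x y : G) :
    2 * (∑ i ∈ s, π (k i) * s36A t c (g i)) * s36Xi' t c x y ∈ I ^ kk ∧
    2 * (∑ i ∈ s, π (k i) * s36D t c (g i)) * s36Xi t c x y ∈ I ^ kk ∧
    (∀ z : G, 2 * (∑ i ∈ s, π (k i) * s36Xi t c (g i) z) * s36Xi' t c x y ∈ I ^ kk) ∧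
    (∀ z : G, 2 * (∑ i ∈ s, π (k i) * s36Xi t c z (g i)) * s36Xi' t c x y ∈ I ^ kk) := by
  choose tn htnB htn' using fun g => hF.approx n g
  have htn : ∀ g, t g - π (tn g) ∈ I ^ kk := fun g => ht g kk n (tn g) hn (htnB g) (htn' g)
  have hCH : S36CH (rtk7tRep (p := p) hF.smul_comm n) (D n) tn c :=
    rtk7t_ch hF n tn htn' c hc hDc
  have hR : ∑ i ∈ s, k i • rtk7tRep (p := p) hF.smul_comm n (g i) = 0 := by
    ext w
    simp only [LinearMap.sum_apply, LinearMap.smul_apply, Submodule.coe_sum,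
      Submodule.coe_smul, rtk7tRep_apply, LinearMap.zero_apply, Submodule.coe_zero]
    exact hrel _ w.2
  -- membership in `B`
  have hA : ∀ z, s36A tn c z ∈ B := fun z => add_mem (htnB _) (htnB _)
  have hD : ∀ z, s36D tn c z ∈ B := fun z => sub_mem (htnB _) (htnB _)
  have hXi : ∀ z w, s36Xi tn c z w ∈ B := fun z w =>
    sub_mem (mul_mem (ofNat_mem B 2) (hA _)) (mul_mem (hA _) (hA _))
  have hXi' : ∀ z w, s36Xi' tn c z w ∈ B := fun z w =>
    sub_mem (mul_mem (ofNat_mem B 2) (hD _)) (mul_mem (hD _) (hD _))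
  have hsum : ∀ (f : ι → 𝕋), (∀ i, f i ∈ B) → ∑ i ∈ s, k i * f i ∈ B := fun f hf =>
    sum_mem fun i hi => mul_mem (hk i hi) (hf i)
  have cmp : (fun g => Ideal.Quotient.mk (I ^ kk) (t g)) =
      fun g => Ideal.Quotient.mk (I ^ kk) (π (tn g)) := by
    funext g
    exact Ideal.Quotient.eq.mpr (htn g)
  refine ⟨?_, ?_, ?_, ?_⟩
  · have e := (rtk7t_entries hCH s k g hR).1
    have e2 := rtk7t_of_smul_P hCH e x y
    have e3 := rtk7b_span_pow_le I hpI kk (hn _ (mul_mem (mul_mem (ofNat_mem B 2)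
      (hsum _ (fun i => hA (g i)))) (hXi' x y)) (rtk7t_kills_of_smul_one e2))
    rw [← Ideal.Quotient.eq_zero_iff_mem] at e3 ⊢
    simp only [map_mul, map_sum, map_ofNat, rtk7t_map_A, rtk7t_map_Xi'] at e3 ⊢
    rw [cmp]
    exact e3
  · have e := (rtk7t_entries hCH s k g hR).2.1
    have e2 := rtk7t_of_smul_Q hCH e x y
    have e3 := rtk7b_span_pow_le I hpI kk (hn _ (mul_mem (mul_mem (ofNat_mem B 2)
      (hsum _ (fun i => hD (g i)))) (hXi x y)) (rtk7t_kills_of_smul_one e2))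
    rw [← Ideal.Quotient.eq_zero_iff_mem] at e3 ⊢
    simp only [map_mul, map_sum, map_ofNat, rtk7t_map_D, rtk7t_map_Xi] at e3 ⊢
    rw [cmp]
    exact e3
  · intro z
    have e := (rtk7t_entries hCH s k g hR).2.2.1 z
    have e2 := rtk7t_of_smul_P hCH e x y
    have e3 := rtk7b_span_pow_le I hpI kk (hn _ (mul_mem (mul_mem (ofNat_mem B 2)
      (hsum _ (fun i => hXi (g i) z))) (hXi' x y)) (rtk7t_kills_of_smul_one e2))
    rw [← Ideal.Quotient.eq_zero_iff_mem] at e3 ⊢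
    simp only [map_mul, map_sum, map_ofNat, rtk7t_map_Xi, rtk7t_map_Xi'] at e3 ⊢
    rw [cmp]
    exact e3
  · intro z
    have e := (rtk7t_entries hCH s k g hR).2.2.2 z
    have e2 := rtk7t_of_smul_P hCH e x y
    have e3 := rtk7b_span_pow_le I hpI kk (hn _ (mul_mem (mul_mem (ofNat_mem B 2)
      (hsum _ (fun i => hXi z (g i)))) (hXi' x y)) (rtk7t_kills_of_smul_one e2))
    rw [← Ideal.Quotient.eq_zero_iff_mem] at e3 ⊢
    simp only [map_mul, map_sum, map_ofNat, rtk7t_map_Xi, rtk7t_map_Xi'] at e3 ⊢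
    rw [cmp]
    exact e3

/-- **Transfer at finite level, matrix form.** -/
theorem rtk7tf_transfer (hF : Rtk7bFam p J D B) (I : Ideal T) (hpI : (p : T) ∈ I)
    (ε : G →* T) {t : G → T} (ht : Rtk7bSpec p J D B π I t)
    (h2 : ∀ x y, t (x * y) = t (y * x))
    (h3 : ∀ x y, t (x * y) + ε y * t (x * y⁻¹) = t x * t y)
    (c : G) (hc : c * c = 1) (hεc : ε c = -1)
    (i2 : T) (hi2 : 2 * i2 = 1) (σ₀ τ₀ : G) (u : T) (hu : u * rtk7Xi t c i2 σ₀ τ₀ = 1)
    {kk n : ℕ} (hn : Rtk7bGood p J B π kk n)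
    (hDc : ∀ x : J, p ^ n • x = 0 → D n c • x = -x)
    {ι : Type*} (s : Finset ι) (k : ι → 𝕋) (hk : ∀ i ∈ s, k i ∈ B) (g : ι → G)
    (hrel : ∀ x : J, p ^ n • x = 0 → ∑ i ∈ s, k i • g i • x = 0) (a b : Fin 2) :
    (∑ i ∈ s, π (k i) • rtk7Mat t c i2 σ₀ τ₀ u (g i)) a b ∈ I ^ kk := by
  have hX : s36Xi' t c τ₀ σ₀ = s36Xi t c σ₀ τ₀ := rtk7_xi'_eq ε t c h2 h3 hc hεc τ₀ σ₀
  have hu' : u * (i2 * i2 * s36Xi t c σ₀ τ₀) = 1 := by
    rw [← rtk7Xi_eq t c i2 hi2]; exact hu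
  -- cancellation of `2 Ξ₀`
  have cancel : ∀ m : T, 2 * m * s36Xi t c σ₀ τ₀ ∈ I ^ kk → m ∈ I ^ kk := by
    intro m hm
    have : m = (i2 * (u * i2 * i2)) * (2 * m * s36Xi t c σ₀ τ₀) := by
      linear_combination (-m) * hi2 + (-2 * i2 * m) * hu'
    rw [this]
    exact Ideal.mul_mem_left _ _ hm
  obtain ⟨eA, -, eB, eC⟩ := rtk7tf_entries hF I hpI ht c hc hn hDc s k hk g hrel τ₀ σ₀
  obtain ⟨-, eD, -, -⟩ := rtk7tf_entries hF I hpI ht c hc hn hDc s k hk g hrel σ₀ τ₀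
  rw [hX] at eA
  have eB' := fun z => (by have := eB z; rwa [hX] at this :
    2 * (∑ i ∈ s, π (k i) * s36Xi t c (g i) z) * s36Xi t c σ₀ τ₀ ∈ I ^ kk)
  have eC' := fun z => (by have := eC z; rwa [hX] at this :
    2 * (∑ i ∈ s, π (k i) * s36Xi t c z (g i)) * s36Xi t c σ₀ τ₀ ∈ I ^ kk)
  have hA := cancel _ eA
  have hD := cancel _ eD
  have hB := cancel _ (eB' τ₀)
  have hC := cancel _ (eC' σ₀)
  rw [Matrix.sum_apply]
  fin_cases a <;> fin_cases b
  · have : ∀ i, (π (k i) • rtk7Mat t c i2 σ₀ τ₀ u (g i)) 0 0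
        = i2 * (π (k i) * s36A t c (g i)) := fun i => by
      simp only [rtk7Mat, Matrix.smul_apply, Matrix.of_apply, Matrix.cons_val_zero,
        smul_eq_mul, rtk7A_eq]
      ring
    simp only [Fin.zero_eta, this]
    rw [← Finset.mul_sum]
    exact Ideal.mul_mem_left _ _ hA
  · have : ∀ i, (π (k i) • rtk7Mat t c i2 σ₀ τ₀ u (g i)) 0 1
        = (i2 * i2 * u) * (π (k i) * s36Xi t c (g i) τ₀) := fun i => by
      simp only [rtk7Mat, Matrix.smul_apply, Matrix.of_apply, Matrix.cons_val_zero,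
        Matrix.cons_val_one, smul_eq_mul, rtk7Xi_eq t c i2 hi2]
      ring
    simp only [Fin.zero_eta, Fin.mk_one, this]
    rw [← Finset.mul_sum]
    exact Ideal.mul_mem_left _ _ hB
  · have : ∀ i, (π (k i) • rtk7Mat t c i2 σ₀ τ₀ u (g i)) 1 0
        = (i2 * i2) * (π (k i) * s36Xi t c σ₀ (g i)) := fun i => by
      simp only [rtk7Mat, Matrix.smul_apply, Matrix.of_apply, Matrix.cons_val_zero,
        Matrix.cons_val_one, smul_eq_mul, rtk7Xi_eq t c i2 hi2]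
      ring
    simp only [Fin.zero_eta, Fin.mk_one, this]
    rw [← Finset.mul_sum]
    exact Ideal.mul_mem_left _ _ hC
  · have : ∀ i, (π (k i) • rtk7Mat t c i2 σ₀ τ₀ u (g i)) 1 1
        = i2 * (π (k i) * s36D t c (g i)) := fun i => by
      simp only [rtk7Mat, Matrix.smul_apply, Matrix.of_apply, Matrix.cons_val_one,
        Matrix.cons_val_fin_one, smul_eq_mul, rtk7D_eq]
      ring
    simp only [Fin.mk_one, this]
    rw [← Finset.mul_sum]
    exact Ideal.mul_mem_left _ _ hD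

/-- **Transfer at finite level, integer coefficients.**  Every element of `ℤ[G]` which kills
`J[pⁿ]` has image `≡ 0` modulo `I ^ kk` under Wiles' representation. -/
theorem rtk7tf_int (hF : Rtk7bFam p J D B) (I : Ideal T) (hpI : (p : T) ∈ I)
    (ε : G →* T) {t : G → T} (ht : Rtk7bSpec p J D B π I t)
    (h2 : ∀ x y, t (x * y) = t (y * x))
    (h3 : ∀ x y, t (x * y) + ε y * t (x * y⁻¹) = t x * t y)
    (c : G) (hc : c * c = 1) (hεc : ε c = -1)
    (i2 : T) (hi2 : 2 * i2 = 1) (σ₀ τ₀ : G) (u : T) (hu : u * rtk7Xi t c i2 σ₀ τ₀ = 1)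
    {kk n : ℕ} (hn : Rtk7bGood p J B π kk n)
    (hDc : ∀ x : J, p ^ n • x = 0 → D n c • x = -x)
    (e : G →₀ ℤ) (hrel : ∀ x : J, p ^ n • x = 0 → (e.sum fun g z => z • g • x) = 0)
    (a b : Fin 2) :
    (e.sum fun g z => z • rtk7Mat t c i2 σ₀ τ₀ u g) a b ∈ I ^ kk := by
  have key := rtk7tf_transfer hF I hpI ε ht h2 h3 c hc hεc i2 hi2 σ₀ τ₀ u hu hn hDc
    e.support (fun g => ((e g : ℤ) : 𝕋)) (fun g _ => intCast_mem B _) (fun g => g)
    (fun x hx => by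
      have := hrel x hx
      rw [Finsupp.sum] at this
      rw [← this]
      refine Finset.sum_congr rfl fun g _ => ?_
      rw [Int.cast_smul_eq_zsmul]) a b
  rw [Finsupp.sum]
  convert key using 3
  rename_i g _
  rw [map_intCast, Int.cast_smul_eq_zsmul]

end TransferFin

end Fermat.Agent.RT
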