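import Fermat.Agent.RT.K7.WilesLocal

/-!
# K-machine, piece K7a (continued): congruences and the base point

* `rtk7Mat_sub_one_mem` : if `t (σ g) ≡ t g` modulo an ideal `I` for all `g`, then
  `ρ σ ≡ 1` modulo `I` (entrywise), for `ρ = rtk7Mat …`; `rtk7Mat_eq_one` : the exact form
  (`ρ σ = 1` if `t (σ g) = t g` for all `g`: inertia at the unramified primes).
* `rtk7_exists_xi_ne_zero` : over a field of characteristic `≠ 2`, if `G` acts on `V ≠ 0` with the
  Cayley–Hamilton relation and without stable line, then `Ξ(x, y) ≠ 0` for some `x, y`.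
* `rtk7_exists_unit` : over a local ring `R` with `2 ∈ Rˣ`: if the residual pseudo-character is
  carried by such a `V`, then `ξ σ₀ τ₀` is invertible for some `σ₀, τ₀`.
-/

set_option autoImplicit false
set_option linter.unusedSectionVars false
set_option linter.unusedSimpArgs false

namespace Fermat.Agent.RT

open Fermat.Agent.S36 Matrix

section Cong

variable {G R : Type*} [Group G] [CommRing R] (ε : G →* R) (t : G → R) (c : G)
  (h1 : t 1 = 2) (h2 : ∀ x y, t (x * y) = t (y * x))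
  (h3 : ∀ x y, t (x * y) + ε y * t (x * y⁻¹) = t x * t y)
  (hc : c * c = 1) (hεc : ε c = -1) (i2 : R) (hi2 : 2 * i2 = 1)
  (I : Ideal R) (σ : G) (hσ : ∀ g, t (σ * g) - t g ∈ I)

include hσ in
theorem rtk7A_left_mem (g : G) : rtk7A t c i2 (σ * g) - rtk7A t c i2 g ∈ I := by
  have e : rtk7A t c i2 (σ * g) - rtk7A t c i2 g
      = i2 * (t (σ * g) - t g) + i2 * (t (σ * (g * c)) - t (g * c)) := by
    rw [rtk7A, rtk7A, mul_assoc]; ring
  rw [e]
  exact I.add_mem (I.mul_mem_left _ (hσ g)) (I.mul_mem_left _ (hσ (g * c)))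

include h2 hσ in
theorem rtk7A_right_mem (g : G) : rtk7A t c i2 (g * σ) - rtk7A t c i2 g ∈ I := by
  have e1 : t (g * σ) = t (σ * g) := h2 g σ
  have e2 : t (g * σ * c) = t (σ * (c * g)) := by rw [mul_assoc, h2, mul_assoc]
  have e3 : t (g * c) = t (c * g) := h2 g c
  have e : rtk7A t c i2 (g * σ) - rtk7A t c i2 g
      = i2 * (t (σ * g) - t g) + i2 * (t (σ * (c * g)) - t (c * g)) := by
    rw [rtk7A, rtk7A, e1, e2, e3]; ring
  rw [e]
  exact I.add_mem (I.mul_mem_left _ (hσ g)) (I.mul_mem_left _ (hσ (c * g)))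

include h1 h3 hc hεc hi2 hσ in
theorem rtk7A_sub_one_mem : rtk7A t c i2 σ - 1 ∈ I := by
  have := rtk7A_left_mem t c i2 I σ hσ 1
  rwa [mul_one, rtk7A_one ε t c h1 h3 hc hεc i2 hi2] at this

include h1 h3 hc hεc hi2 hσ in
theorem rtk7D_sub_one_mem : rtk7D t c i2 σ - 1 ∈ I := by
  have e : rtk7D t c i2 σ - 1 = (t σ - t 1) - (rtk7A t c i2 σ - 1) := by
    have := rtk7A_add_D t c i2 σ hi2
    rw [h1]
    linear_combination this
  rw [e]
  have h0 := hσ 1
  rw [mul_one] at h0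
  exact I.sub_mem h0 (rtk7A_sub_one_mem ε t c h1 h3 hc hεc i2 hi2 I σ hσ)

include h1 h3 hc hεc hi2 hσ in
theorem rtk7Xi_left_mem (g : G) : rtk7Xi t c i2 σ g ∈ I := by
  have e : rtk7Xi t c i2 σ g = (rtk7A t c i2 (σ * g) - rtk7A t c i2 g)
      - (rtk7A t c i2 σ - 1) * rtk7A t c i2 g := by
    rw [rtk7Xi]; ring
  rw [e]
  exact I.sub_mem (rtk7A_left_mem t c i2 I σ hσ g)
    (I.mul_mem_right _ (rtk7A_sub_one_mem ε t c h1 h3 hc hεc i2 hi2 I σ hσ))

include h1 h2 h3 hc hεc hi2 hσ in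
theorem rtk7Xi_right_mem (g : G) : rtk7Xi t c i2 g σ ∈ I := by
  have e : rtk7Xi t c i2 g σ = (rtk7A t c i2 (g * σ) - rtk7A t c i2 g)
      - rtk7A t c i2 g * (rtk7A t c i2 σ - 1) := by
    rw [rtk7Xi]; ring
  rw [e]
  exact I.sub_mem (rtk7A_right_mem t c h2 i2 I σ hσ g)
    (I.mul_mem_left _ (rtk7A_sub_one_mem ε t c h1 h3 hc hεc i2 hi2 I σ hσ))

include h1 h2 h3 hc hεc hi2 hσ in
/-- **Congruence.**  If `t (σ g) ≡ t g` modulo `I` for all `g`, then `ρ σ ≡ 1` modulo `I`. -/
theorem rtk7Mat_sub_one_mem (σ₀ τ₀ : G) (u : R) (i j : Fin 2) :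
    (rtk7Mat t c i2 σ₀ τ₀ u σ - 1) i j ∈ I := by
  have hA := rtk7A_sub_one_mem ε t c h1 h3 hc hεc i2 hi2 I σ hσ
  have hD := rtk7D_sub_one_mem ε t c h1 h3 hc hεc i2 hi2 I σ hσ
  have hL := rtk7Xi_left_mem ε t c h1 h3 hc hεc i2 hi2 I σ hσ τ₀
  have hR := rtk7Xi_right_mem ε t c h1 h2 h3 hc hεc i2 hi2 I σ hσ σ₀
  fin_cases i <;> fin_cases j
  · simpa [rtk7Mat] using hA
  · simpa [rtk7Mat] using I.mul_mem_right u hL
  · simpa [rtk7Mat] using hR
  · simpa [rtk7Mat] using hD

include h1 h2 h3 hc hεc hi2 in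
/-- **Exact form.**  If `t (σ g) = t g` for all `g`, then `ρ σ = 1`. -/
theorem rtk7Mat_eq_one (σ₀ τ₀ : G) (u : R) (σ : G) (hσ : ∀ g, t (σ * g) = t g) :
    rtk7Mat t c i2 σ₀ τ₀ u σ = 1 := by
  have h := rtk7Mat_sub_one_mem ε t c h1 h2 h3 hc hεc i2 hi2 ⊥ σ
    (fun g => by rw [hσ g, sub_self]; exact (⊥ : Ideal R).zero_mem) σ₀ τ₀ u
  ext i j
  have := h i j
  rw [Ideal.mem_bot, Matrix.sub_apply, sub_eq_zero] at this
  exact this

end Cong

section Base

variable {G k V : Type*} [Group G] [Field k] [AddCommGroup V] [Module k V]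

/-- a nonzero vector in the image of `P` gives a stable line when `Ξ ≡ 0` -/
theorem rtk7_keyP (h2ne : (2 : k) ≠ 0) (r : G →* Module.End k V) (ε : G → k) (t : G → k)
    (c : G) (hCH : S36CH r ε t c) (hcon : ∀ x y, s36Xi t c x y = 0)
    (hirr : ∀ v : V, v ≠ 0 → ∃ g, ∀ a : k, r g v ≠ a • v)
    (v' : V) (hne : s36P r c v' ≠ 0) : False := by
  have hPQ : ∀ z : V, s36P r c z + s36Q r c z = (2 : k) • z := by
    intro z
    have := congrArg (fun φ : Module.End k V => φ z) (S36CH.P_add_Q (R := k) (r := r) (c := c))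
    simpa using this
  by_cases hA : ∀ y, s36Q r c (r y (s36P r c v')) = 0
  · obtain ⟨g, hg⟩ := hirr _ hne
    have e1 : (2 : k) • r g (s36P r c v') = s36A t c g • s36P r c v' := by
      rw [← hPQ, hA g, add_zero]
      have h2 := congrArg (fun φ : Module.End k V => φ v') (hCH.PxP g)
      simpa using h2
    refine hg ((2 : k)⁻¹ * s36A t c g) ?_
    rw [mul_smul, ← e1, smul_smul, inv_mul_cancel₀ h2ne, one_smul]
  · push Not at hA
    obtain ⟨y₀, hy₀⟩ := hA
    have hPw : ∀ x, s36P r c (r x (s36Q r c (r y₀ (s36P r c v')))) = 0 := by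
      intro x
      have h2 := congrArg (fun φ : Module.End k V => φ v') (hCH.PxQyP x y₀)
      rw [hcon, zero_smul] at h2
      simpa using h2
    obtain ⟨g, hg⟩ := hirr _ hy₀
    have e1 : (2 : k) • r g (s36Q r c (r y₀ (s36P r c v')))
        = s36D t c g • s36Q r c (r y₀ (s36P r c v')) := by
      rw [← hPQ, hPw g, zero_add]
      have h2 := congrArg (fun φ : Module.End k V => φ (r y₀ (s36P r c v'))) (hCH.QxQ g)
      simpa using h2
    refine hg ((2 : k)⁻¹ * s36D t c g) ?_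
    rw [mul_smul, ← e1, smul_smul, inv_mul_cancel₀ h2ne, one_smul]

/-- a nonzero vector in the image of `Q` gives a stable line when `Ξ' ≡ 0` -/
theorem rtk7_keyQ (h2ne : (2 : k) ≠ 0) (r : G →* Module.End k V) (ε : G → k) (t : G → k)
    (c : G) (hCH : S36CH r ε t c) (hcon : ∀ x y, s36Xi' t c x y = 0)
    (hirr : ∀ v : V, v ≠ 0 → ∃ g, ∀ a : k, r g v ≠ a • v)
    (v' : V) (hne : s36Q r c v' ≠ 0) : False := by
  have hPQ : ∀ z : V, s36P r c z + s36Q r c z = (2 : k) • z := by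
    intro z
    have := congrArg (fun φ : Module.End k V => φ z) (S36CH.P_add_Q (R := k) (r := r) (c := c))
    simpa using this
  by_cases hA : ∀ y, s36P r c (r y (s36Q r c v')) = 0
  · obtain ⟨g, hg⟩ := hirr _ hne
    have e1 : (2 : k) • r g (s36Q r c v') = s36D t c g • s36Q r c v' := by
      rw [← hPQ, hA g, zero_add]
      have h2 := congrArg (fun φ : Module.End k V => φ v') (hCH.QxQ g)
      simpa using h2
    refine hg ((2 : k)⁻¹ * s36D t c g) ?_
    rw [mul_smul, ← e1, smul_smul, inv_mul_cancel₀ h2ne, one_smul]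
  · push Not at hA
    obtain ⟨y₀, hy₀⟩ := hA
    have hQw : ∀ x, s36Q r c (r x (s36P r c (r y₀ (s36Q r c v')))) = 0 := by
      intro x
      have h2 := congrArg (fun φ : Module.End k V => φ v') (hCH.QxPyQ x y₀)
      rw [hcon, zero_smul] at h2
      simpa using h2
    obtain ⟨g, hg⟩ := hirr _ hy₀
    have e1 : (2 : k) • r g (s36P r c (r y₀ (s36Q r c v')))
        = s36A t c g • s36P r c (r y₀ (s36Q r c v')) := by
      rw [← hPQ, hQw g, add_zero]
      have h2 := congrArg (fun φ : Module.End k V => φ (r y₀ (s36Q r c v'))) (hCH.PxP g)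
      simpa using h2
    refine hg ((2 : k)⁻¹ * s36A t c g) ?_
    rw [mul_smul, ← e1, smul_smul, inv_mul_cancel₀ h2ne, one_smul]

/-- **No stable line ⇒ `Ξ ≢ 0`.** -/
theorem rtk7_exists_xi_ne_zero [Nontrivial V] (h2ne : (2 : k) ≠ 0)
    (r : G →* Module.End k V) (ε : G → k) (t : G → k) (c : G) (hCH : S36CH r ε t c)
    (hxi' : ∀ x y, s36Xi' t c x y = s36Xi t c y x)
    (hirr : ∀ v : V, v ≠ 0 → ∃ g, ∀ a : k, r g v ≠ a • v) :
    ∃ x y, s36Xi t c x y ≠ 0 := by
  by_contra hcon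
  push Not at hcon
  have hcon' : ∀ x y, s36Xi' t c x y = 0 := fun x y => by rw [hxi', hcon]
  obtain ⟨v, hv⟩ := exists_ne (0 : V)
  have hPQ : s36P r c v + s36Q r c v = (2 : k) • v := by
    have := congrArg (fun φ : Module.End k V => φ v) (S36CH.P_add_Q (R := k) (r := r) (c := c))
    simpa using this
  by_cases hP : s36P r c v = 0
  · have hQ : s36Q r c v ≠ 0 := by
      intro hQ
      rw [hP, hQ, add_zero] at hPQ
      exact hv ((smul_eq_zero.mp hPQ.symm).resolve_left h2ne)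
    exact rtk7_keyQ h2ne r ε t c hCH hcon' hirr v hQ
  · exact rtk7_keyP h2ne r ε t c hCH hcon hirr v hP

end Base

section Local

variable {G R : Type*} [Group G] [CommRing R] [IsLocalRing R] (ε : G →* R) (t : G → R) (c : G)
  (h2 : ∀ x y, t (x * y) = t (y * x))
  (h3 : ∀ x y, t (x * y) + ε y * t (x * y⁻¹) = t x * t y)
  (hc : c * c = 1) (hεc : ε c = -1) (i2 : R) (hi2 : 2 * i2 = 1)

include h2 h3 hc hεc hi2 in
/-- **The base point.**  `R` local with `2 ∈ Rˣ`; if the residual pseudo-character is carried by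
a nonzero space `V` over the residue field (Cayley–Hamilton relation) without stable line, then
`ξ σ₀ τ₀` is invertible for some `σ₀, τ₀`. -/
theorem rtk7_exists_unit {V : Type*} [AddCommGroup V] [Module (IsLocalRing.ResidueField R) V]
    [Nontrivial V] (r : G →* Module.End (IsLocalRing.ResidueField R) V)
    (hch : ∀ σ, r σ + IsLocalRing.residue R (ε σ) • r σ⁻¹
      = IsLocalRing.residue R (t σ) • (1 : Module.End (IsLocalRing.ResidueField R) V))
    (hirr : ∀ v : V, v ≠ 0 → ∃ g, ∀ a : IsLocalRing.ResidueField R, r g v ≠ a • v) :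
    ∃ (σ₀ τ₀ : G) (u : R), u * rtk7Xi t c i2 σ₀ τ₀ = 1 := by
  set res := IsLocalRing.residue R with hres
  set εb : G →* IsLocalRing.ResidueField R := (res : R →* IsLocalRing.ResidueField R).comp ε
    with hεb
  set tb : G → IsLocalRing.ResidueField R := fun g => res (t g) with htb
  have h2ne : (2 : IsLocalRing.ResidueField R) ≠ 0 := by
    intro h
    have := congrArg res hi2
    rw [map_mul, map_ofNat, h, zero_mul, map_one] at this
    exact zero_ne_one this
  have hεcb : εb c = -1 := by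
    show res (ε c) = -1
    rw [hεc, map_neg, map_one]
  have hCH : S36CH r εb tb c :=
    S36CH.of_exact (fun σ => hch σ) (fun x y => map_mul εb x y) hc hεcb
  have h2b : ∀ x y, tb (x * y) = tb (y * x) := fun x y => by
    show res _ = res _
    rw [h2]
  have h3b : ∀ x y, tb (x * y) + εb y * tb (x * y⁻¹) = tb x * tb y := fun x y => by
    have := congrArg res (h3 x y)
    rw [map_add, map_mul, map_mul] at this
    exact this
  obtain ⟨x, y, hxy⟩ := rtk7_exists_xi_ne_zero h2ne r εb tb c hCH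
    (rtk7_xi'_eq εb tb c h2b h3b hc hεcb) hirr
  have hxy' : s36Xi tb c x y = res (s36Xi t c x y) := by
    simp only [s36Xi, s36A, htb, map_sub, map_mul, map_add, map_ofNat]
  rw [hxy'] at hxy
  have hunit : IsUnit (s36Xi t c x y) := by
    by_contra hnu
    exact hxy ((IsLocalRing.residue_eq_zero_iff _).mpr hnu)
  obtain ⟨w, hw⟩ := hunit.exists_left_inv
  refine ⟨x, y, 4 * w, ?_⟩
  rw [rtk7Xi_eq t c i2 hi2]
  linear_combination (4 * i2 * i2) * hw + (2 * i2 + 1) * hi2

end Local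

end Fermat.Agent.RT
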